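import Fermat.Agent.IsogenyDegrees.CyclicExamples
import Fermat.Agent.Root.SummaryCMIsogeny

/-!
# Stable cyclic subgroups of orders `14`, `15` and `21`

For short models of the invariants the kernel checks kernel polynomials of stable subgroups
of order `3` and of order `5` or `7`, or a root of the cubic at `14`; stable cyclic subgroups of
coprime orders add up to one, and
every curve with the same invariant is a quadratic twist.
-/

set_option autoImplicit false
set_option linter.style.haveILetI false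

noncomputable section

open WeierstrassCurve
open scoped WeierstrassCurve.Affine

namespace FA.KerPoly

local notation "Qb" => AlgebraicClosure ℚ
local notation "GQ" => AlgebraicClosure ℚ ≃ₐ[ℚ] AlgebraicClosure ℚ

/-- A point of order `n` with stable multiples. -/
def HasStableOrder (E : WeierstrassCurve ℚ) [E.IsElliptic] (n : ℕ) : Prop :=
  ∃ g : (E.toAffine⁄Qb).Point, addOrderOf g = n ∧
    ∀ σ : GQ, ∃ c : ℤ, c • g = Affine.Point.map σ.toAlgHom g

/-- A stable cyclic subgroup gives a point with stable multiples. -/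
theorem hasStableOrder_of_subgroup {E : WeierstrassCurve ℚ} [E.IsElliptic]
    {G : AddSubgroup (E.toAffine⁄Qb).Point} {n : ℕ} (hcard : Nat.card G = n) [IsAddCyclic G]
    (hst : ∀ σ : GQ, ∀ P ∈ G, Affine.Point.map σ.toAlgHom P ∈ G) : HasStableOrder E n := by
  obtain ⟨⟨v, hv⟩, hgen⟩ := IsAddCyclic.exists_generator (α := G)
  refine ⟨v, ?_, fun σ => ?_⟩
  · rw [← AddSubgroup.addOrderOf_mk v hv, addOrderOf_eq_card_of_forall_mem_zmultiples hgen, hcard]
  · obtain ⟨c, hc⟩ := AddSubgroup.mem_zmultiples_iff.1 (hgen ⟨_, hst σ v hv⟩)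
    exact ⟨c, congrArg Subtype.val hc⟩

/-- A point with stable multiples gives a stable cyclic subgroup. -/
theorem HasStableOrder.exists_subgroup {E : WeierstrassCurve ℚ} [E.IsElliptic] {n : ℕ}
    (h : HasStableOrder E n) : ∃ G : AddSubgroup (E.toAffine⁄Qb).Point, Nat.card G = n ∧
      IsAddCyclic G ∧ ∀ σ : GQ, ∀ P ∈ G, Affine.Point.map σ.toAlgHom P ∈ G := by
  obtain ⟨g, hg, hst⟩ := h
  refine ⟨AddSubgroup.zmultiples g, by rw [Nat.card_zmultiples, hg], inferInstance,
    fun σ P hP => ?_⟩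
  obtain ⟨k, rfl⟩ := AddSubgroup.mem_zmultiples_iff.1 hP
  obtain ⟨c, hc⟩ := hst σ
  exact AddSubgroup.mem_zmultiples_iff.2 ⟨k * c, by rw [map_zsmul, mul_smul, hc]⟩

/-- Stable lines of coprime orders add up. -/
theorem HasStableOrder.mul {E : WeierstrassCurve ℚ} [E.IsElliptic] {m n : ℕ} (hmn : m.Coprime n)
    (h : HasStableOrder E m) (h' : HasStableOrder E n) : HasStableOrder E (m * n) := by
  obtain ⟨u, hu, hsu⟩ := h
  obtain ⟨v, hv, hsv⟩ := h'
  refine ⟨u + v, by rw [(AddCommute.all u v).addOrderOf_add_eq_mul_addOrderOf_of_coprime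
    (by rw [hu, hv]; exact hmn), hu, hv], fun σ => ?_⟩
  obtain ⟨a, ha⟩ := hsu σ
  obtain ⟨b, hb⟩ := hsv σ
  obtain ⟨x, y, hxy⟩ := Nat.isCoprime_iff_coprime.2 hmn
  have hmu : (m : ℤ) • u = 0 := by rw [natCast_zsmul, ← hu, addOrderOf_nsmul_eq_zero]
  have hnv : (n : ℤ) • v = 0 := by rw [natCast_zsmul, ← hv, addOrderOf_nsmul_eq_zero]
  refine ⟨a * (y * n) + b * (x * m), ?_⟩
  rw [map_add, ← ha, ← hb, zsmul_add]
  congr 1
  · rw [show a * (y * (n : ℤ)) + b * (x * m) = a + (b * x - a * x) * m by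
        linear_combination a * hxy,
      add_zsmul, mul_zsmul, hmu, zsmul_zero, add_zero]
  · rw [show a * (y * (n : ℤ)) + b * (x * m) = b + (a * y - b * y) * n by
        linear_combination b * hxy,
      add_zsmul, mul_zsmul, hnv, zsmul_zero, add_zero]

/-- A point with stable multiples of a short model moves to each curve with its invariant. -/
theorem hasStableOrder_of_short {a b : ℤ} (ha : a ≠ 0) (hb : b ≠ 0)
    (hab : 4 * a ^ 3 + 27 * b ^ 2 ≠ 0) (E : WeierstrassCurve ℚ) [E.IsElliptic]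
    (hj : E.j = 6912 * (a : ℚ) ^ 3 / (4 * (a : ℚ) ^ 3 + 27 * (b : ℚ) ^ 2)) {n : ℕ}
    (h : ∀ (_ : ((⟨0, 0, 0, a, b⟩ : WeierstrassCurve ℤ).map (Int.castRingHom ℚ)).IsElliptic),
      HasStableOrder ((⟨0, 0, 0, a, b⟩ : WeierstrassCurve ℤ).map (Int.castRingHom ℚ)) n) :
    HasStableOrder E n := by
  obtain ⟨d, hd, htw⟩ := FA.CM.ClassOne.exists_quadTwist_eq_short (Int.cast_ne_zero.2 ha)
    (Int.cast_ne_zero.2 hb) (by exact_mod_cast hab) E hj
  set W : WeierstrassCurve ℤ := ⟨0, 0, 0, a, b⟩
  have hW : FA.Twists.quadTwist E d = W.map (Int.castRingHom ℚ) := by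
    rw [htw]
    ext <;> simp [W]
  haveI : (W.map (Int.castRingHom ℚ)).IsElliptic := hW ▸ FA.Root.quadTwist_isElliptic E hd
  obtain ⟨v, hv, hst⟩ := h inferInstance
  obtain ⟨e, he⟩ : ∃ e : ((W.map (Int.castRingHom ℚ)).toAffine⁄Qb).Point ≃+
      (E.toAffine⁄Qb).Point, ∀ (σ : GQ) (Q),
      Affine.Point.map (W' := E.toAffine) σ.toAlgHom (e Q) = e (σ • Q) ∨
        Affine.Point.map (W' := E.toAffine) σ.toAlgHom (e Q) = -e (σ • Q) := by
    rw [← hW]
    exact FA.Root.exists_twist_equiv E hd
  refine ⟨e v, by rw [AddEquiv.addOrderOf_eq, hv], fun σ => ?_⟩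
  obtain ⟨c, hc⟩ := hst σ
  have hev : c • e v = e (σ • v) := (map_zsmul e c v).symm.trans (congrArg e hc)
  rcases he σ v with h | h
  · exact ⟨c, hev.trans h.symm⟩
  · exact ⟨-c, by rw [neg_smul, hev, h]⟩

/-- A checked root of the third division polynomial gives a stable line of order `3`. -/
theorem hasStableOrder_three {W : WeierstrassCurve ℤ} [(W.map (Int.castRingHom ℚ)).IsElliptic]
    {r : List ℤ} (hr : r.length = 1) (hc : cycleCheck r W [true, true] [false, true] = true)
    (ho : orderCheck r W [true] [1] 1 = true) :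
    HasStableOrder (W.map (Int.castRingHom ℚ)) 3 := by
  obtain ⟨G, hcard, hcyc, hst⟩ := exists_cyclic_of_checks (N := 3) (g := 2) (W := W) (r := r)
    (by norm_num) (by norm_num) (fun h => by rw [h] at hr; simp at hr) rfl rfl hc
    (fun q hq => by
      rw [Nat.prime_three.primeFactors, Finset.mem_singleton] at hq
      exact ⟨_, _, _, ho, by rw [hq]; rfl⟩)
    (by rw [hr]; decide +kernel)
  exact @hasStableOrder_of_subgroup _ _ G _ hcard hcyc hst

/-- A checked kernel polynomial gives a stable line of prime order. -/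
theorem hasStableOrder_of_check {p g : ℕ} (hp : p.Prime) (h5 : 5 ≤ p) (hg : 1 ≤ g) (hgp : g < p)
    {W : WeierstrassCurve ℤ} [(W.map (Int.castRingHom ℚ)).IsElliptic] {r : List ℤ}
    (hd : 2 * r.length + 1 = p) {bd bg : List Bool} (hbd : 2 * valBits bd + 1 = p)
    (hbg : valBits bg = g) (hc : kernelCheck r W bd bg = true)
    (hpow : powCheck p g r.length = true) : HasStableOrder (W.map (Int.castRingHom ℚ)) p := by
  obtain ⟨G, hcard, hcyc, hst⟩ := exists_stable_of_check hp h5 hg hgp hd hbd hbg hc hpow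
  exact @hasStableOrder_of_subgroup _ _ G _ hcard hcyc hst

/-- An integral root of a short cubic gives a fixed point of order `2`. -/
theorem hasStableOrder_two {a b x₀ : ℤ}
    [((⟨0, 0, 0, a, b⟩ : WeierstrassCurve ℤ).map (Int.castRingHom ℚ)).IsElliptic]
    (hx : x₀ ^ 3 + a * x₀ + b = 0) :
    HasStableOrder ((⟨0, 0, 0, a, b⟩ : WeierstrassCurve ℤ).map (Int.castRingHom ℚ)) 2 := by
  set E := (⟨0, 0, 0, a, b⟩ : WeierstrassCurve ℤ).map (Int.castRingHom ℚ)
  have hns : (E⁄Qb).toAffine.Nonsingular (x₀ : Qb) 0 := by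
    rw [← Affine.equation_iff_nonsingular, Affine.equation_iff]
    have h : ((x₀ ^ 3 + a * x₀ + b : ℤ) : Qb) = 0 := by rw [hx, Int.cast_zero]
    push_cast at h
    simp [E]
    linear_combination -h
  refine ⟨Affine.Point.some _ _ hns, addOrderOf_eq_prime ?_ (Affine.Point.some_ne_zero _),
    fun σ => ⟨1, ?_⟩⟩
  · rw [two_nsmul]
    exact Affine.Point.add_self_of_Y_eq (by simp [Affine.negY])
  · rw [one_zsmul, Affine.Point.map_some]
    simp

theorem checks_fourteenA :
    kernelCheck [-91, -21, 7] ⟨0, 0, 0, -35, -98⟩ [true, true] [true, true] =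
      true := by
  decide +kernel

theorem checks_fourteenB :
    kernelCheck [7357, 1211, 63] ⟨0, 0, 0, -595, -5586⟩ [true, true] [true, true] =
      true := by
  decide +kernel

/-- **The two invariants of level `14`.** -/
theorem hasStableOrder_fourteen (E : WeierstrassCurve ℚ) [E.IsElliptic]
    (hj : E.j = -3375 ∨ E.j = 16581375) : HasStableOrder E 14 := by
  rcases hj with h | h
  · exact hasStableOrder_of_short (a := -35) (b := -98) (by norm_num) (by norm_num) (by norm_num)
      E (h.trans (by norm_num)) fun _ => (hasStableOrder_two (x₀ := 7) (by norm_num)).mul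
        (by norm_num) (hasStableOrder_of_check (p := 7) (g := 3) (by norm_num) (by norm_num)
          (by norm_num) (by norm_num) rfl rfl rfl checks_fourteenA (by decide +kernel))
  · exact hasStableOrder_of_short (a := -595) (b := -5586) (by norm_num) (by norm_num) (by norm_num)
      E (h.trans (by norm_num)) fun _ => (hasStableOrder_two (x₀ := -14) (by norm_num)).mul
        (by norm_num) (hasStableOrder_of_check (p := 7) (g := 3) (by norm_num) (by norm_num)
          (by norm_num) (by norm_num) rfl rfl rfl checks_fourteenB (by decide +kernel))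

theorem checks_fifteenA :
    cycleCheck [75] ⟨0, 0, 0, -18075, -935350⟩ [true, true] [false, true] = true ∧
    orderCheck [75] ⟨0, 0, 0, -18075, -935350⟩ [true] [1] 1 = true ∧
    kernelCheck [4045, 130] ⟨0, 0, 0, -18075, -935350⟩ [false, true] [false, true] = true := by
  refine ⟨?_, ?_, ?_⟩ <;> decide +kernel

theorem stable_fifteenA (E : WeierstrassCurve ℚ) [E.IsElliptic]
    (hj : E.j = 6912 * ((-18075 : ℤ) : ℚ) ^ 3 /
      (4 * ((-18075 : ℤ) : ℚ) ^ 3 + 27 * ((-935350 : ℤ) : ℚ) ^ 2)) : HasStableOrder E 15 :=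
  hasStableOrder_of_short (by norm_num) (by norm_num) (by norm_num) E hj fun _ =>
    (hasStableOrder_three rfl checks_fifteenA.1 checks_fifteenA.2.1).mul (by norm_num)
      (hasStableOrder_of_check (p := 5) (g := 2) (by norm_num) (by norm_num) (by norm_num)
        (by norm_num) rfl rfl rfl checks_fifteenA.2.2 (by decide +kernel))

theorem checks_fifteenB :
    cycleCheck [5] ⟨0, 0, 0, -435, -4210⟩ [true, true] [false, true] = true ∧
    orderCheck [5] ⟨0, 0, 0, -435, -4210⟩ [true] [1] 1 = true ∧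
    kernelCheck [-119, 10] ⟨0, 0, 0, -435, -4210⟩ [false, true] [false, true] = true := by
  refine ⟨?_, ?_, ?_⟩ <;> decide +kernel

theorem stable_fifteenB (E : WeierstrassCurve ℚ) [E.IsElliptic]
    (hj : E.j = 6912 * ((-435 : ℤ) : ℚ) ^ 3 /
      (4 * ((-435 : ℤ) : ℚ) ^ 3 + 27 * ((-4210 : ℤ) : ℚ) ^ 2)) : HasStableOrder E 15 :=
  hasStableOrder_of_short (by norm_num) (by norm_num) (by norm_num) E hj fun _ =>
    (hasStableOrder_three rfl checks_fifteenB.1 checks_fifteenB.2.1).mul (by norm_num)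
      (hasStableOrder_of_check (p := 5) (g := 2) (by norm_num) (by norm_num) (by norm_num)
        (by norm_num) rfl rfl rfl checks_fifteenB.2.2 (by decide +kernel))

theorem checks_fifteenC :
    cycleCheck [-15] ⟨0, 0, 0, 3165, 31070⟩ [true, true] [false, true] = true ∧
    orderCheck [-15] ⟨0, 0, 0, 3165, 31070⟩ [true] [1] 1 = true ∧
    kernelCheck [1921, 130] ⟨0, 0, 0, 3165, 31070⟩ [false, true] [false, true] = true := by
  refine ⟨?_, ?_, ?_⟩ <;> decide +kernel

theorem stable_fifteenC (E : WeierstrassCurve ℚ) [E.IsElliptic]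
    (hj : E.j = 6912 * ((3165 : ℤ) : ℚ) ^ 3 /
      (4 * ((3165 : ℤ) : ℚ) ^ 3 + 27 * ((31070 : ℤ) : ℚ) ^ 2)) : HasStableOrder E 15 :=
  hasStableOrder_of_short (by norm_num) (by norm_num) (by norm_num) E hj fun _ =>
    (hasStableOrder_three rfl checks_fifteenC.1 checks_fifteenC.2.1).mul (by norm_num)
      (hasStableOrder_of_check (p := 5) (g := 2) (by norm_num) (by norm_num) (by norm_num)
        (by norm_num) rfl rfl rfl checks_fifteenC.2.2 (by decide +kernel))

theorem checks_fifteenD :
    cycleCheck [-25] ⟨0, 0, 0, -75, -2950⟩ [true, true] [false, true] = true ∧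
    orderCheck [-25] ⟨0, 0, 0, -75, -2950⟩ [true] [1] 1 = true ∧
    kernelCheck [-155, 10] ⟨0, 0, 0, -75, -2950⟩ [false, true] [false, true] = true := by
  refine ⟨?_, ?_, ?_⟩ <;> decide +kernel

theorem stable_fifteenD (E : WeierstrassCurve ℚ) [E.IsElliptic]
    (hj : E.j = 6912 * ((-75 : ℤ) : ℚ) ^ 3 /
      (4 * ((-75 : ℤ) : ℚ) ^ 3 + 27 * ((-2950 : ℤ) : ℚ) ^ 2)) : HasStableOrder E 15 :=
  hasStableOrder_of_short (by norm_num) (by norm_num) (by norm_num) E hj fun _ =>
    (hasStableOrder_three rfl checks_fifteenD.1 checks_fifteenD.2.1).mul (by norm_num)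
      (hasStableOrder_of_check (p := 5) (g := 2) (by norm_num) (by norm_num) (by norm_num)
        (by norm_num) rfl rfl rfl checks_fifteenD.2.2 (by decide +kernel))

theorem checks_twentyOneA :
    cycleCheck [-525] ⟨0, 0, 0, -844515, 298716642⟩ [true, true] [false, true] = true ∧
    orderCheck [-525] ⟨0, 0, 0, -844515, 298716642⟩ [true] [1] 1 = true ∧
    kernelCheck [-71513001, 555219, -1323] ⟨0, 0, 0, -844515, 298716642⟩ [true, true] [true, true] =
      true := by
  refine ⟨?_, ?_, ?_⟩ <;> decide +kernel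

theorem stable_twentyOneA (E : WeierstrassCurve ℚ) [E.IsElliptic]
    (hj : E.j = 6912 * ((-844515 : ℤ) : ℚ) ^ 3 /
      (4 * ((-844515 : ℤ) : ℚ) ^ 3 + 27 * ((298716642 : ℤ) : ℚ) ^ 2)) : HasStableOrder E 21 :=
  hasStableOrder_of_short (by norm_num) (by norm_num) (by norm_num) E hj fun _ =>
    (hasStableOrder_three rfl checks_twentyOneA.1 checks_twentyOneA.2.1).mul (by norm_num)
      (hasStableOrder_of_check (p := 7) (g := 3) (by norm_num) (by norm_num) (by norm_num)
        (by norm_num) rfl rfl rfl checks_twentyOneA.2.2 (by decide +kernel))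

theorem checks_twentyOneB :
    cycleCheck [-3] ⟨0, 0, 0, -75, 262⟩ [true, true] [false, true] = true ∧
    orderCheck [-3] ⟨0, 0, 0, -75, 262⟩ [true] [1] 1 = true ∧
    kernelCheck [181, -21, -9] ⟨0, 0, 0, -75, 262⟩ [true, true] [true, true] =
      true := by
  refine ⟨?_, ?_, ?_⟩ <;> decide +kernel

theorem stable_twentyOneB (E : WeierstrassCurve ℚ) [E.IsElliptic]
    (hj : E.j = 6912 * ((-75 : ℤ) : ℚ) ^ 3 /
      (4 * ((-75 : ℤ) : ℚ) ^ 3 + 27 * ((262 : ℤ) : ℚ) ^ 2)) : HasStableOrder E 21 :=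
  hasStableOrder_of_short (by norm_num) (by norm_num) (by norm_num) E hj fun _ =>
    (hasStableOrder_three rfl checks_twentyOneB.1 checks_twentyOneB.2.1).mul (by norm_num)
      (hasStableOrder_of_check (p := 7) (g := 3) (by norm_num) (by norm_num) (by norm_num)
        (by norm_num) rfl rfl rfl checks_twentyOneB.2.2 (by decide +kernel))

theorem checks_twentyOneC :
    cycleCheck [-525] ⟨0, 0, 0, -74235, -15814358⟩ [true, true] [false, true] = true ∧
    orderCheck [-525] ⟨0, 0, 0, -74235, -15814358⟩ [true] [1] 1 = true ∧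
    kernelCheck [-15739829, -85701, 441] ⟨0, 0, 0, -74235, -15814358⟩ [true, true] [true, true] =
      true := by
  refine ⟨?_, ?_, ?_⟩ <;> decide +kernel

theorem stable_twentyOneC (E : WeierstrassCurve ℚ) [E.IsElliptic]
    (hj : E.j = 6912 * ((-74235 : ℤ) : ℚ) ^ 3 /
      (4 * ((-74235 : ℤ) : ℚ) ^ 3 + 27 * ((-15814358 : ℤ) : ℚ) ^ 2)) : HasStableOrder E 21 :=
  hasStableOrder_of_short (by norm_num) (by norm_num) (by norm_num) E hj fun _ =>
    (hasStableOrder_three rfl checks_twentyOneC.1 checks_twentyOneC.2.1).mul (by norm_num)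
      (hasStableOrder_of_check (p := 7) (g := 3) (by norm_num) (by norm_num) (by norm_num)
        (by norm_num) rfl rfl rfl checks_twentyOneC.2.2 (by decide +kernel))

theorem checks_twentyOneD :
    cycleCheck [-3] ⟨0, 0, 0, 45, -18⟩ [true, true] [false, true] = true ∧
    orderCheck [-3] ⟨0, 0, 0, 45, -18⟩ [true] [1] 1 = true ∧
    kernelCheck [9, 99, 27] ⟨0, 0, 0, 45, -18⟩ [true, true] [true, true] =
      true := by
  refine ⟨?_, ?_, ?_⟩ <;> decide +kernel

theorem stable_twentyOneD (E : WeierstrassCurve ℚ) [E.IsElliptic]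
    (hj : E.j = 6912 * ((45 : ℤ) : ℚ) ^ 3 /
      (4 * ((45 : ℤ) : ℚ) ^ 3 + 27 * ((-18 : ℤ) : ℚ) ^ 2)) : HasStableOrder E 21 :=
  hasStableOrder_of_short (by norm_num) (by norm_num) (by norm_num) E hj fun _ =>
    (hasStableOrder_three rfl checks_twentyOneD.1 checks_twentyOneD.2.1).mul (by norm_num)
      (hasStableOrder_of_check (p := 7) (g := 3) (by norm_num) (by norm_num) (by norm_num)
        (by norm_num) rfl rfl rfl checks_twentyOneD.2.2 (by decide +kernel))

/-- **The four invariants of level `15`.** -/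
theorem hasStableOrder_fifteen (E : WeierstrassCurve ℚ) [E.IsElliptic]
    (hj : E.j = -25 / 2 ∨ E.j = -349938025 / 8 ∨ E.j = -121945 / 32 ∨
      E.j = 46969655 / 32768) : HasStableOrder E 15 := by
  rcases hj with h | h | h | h
  exacts [stable_fifteenD E (h.trans (by norm_num)), stable_fifteenA E (h.trans (by norm_num)),
    stable_fifteenB E (h.trans (by norm_num)), stable_fifteenC E (h.trans (by norm_num))]

/-- **The four invariants of level `21`.** -/
theorem hasStableOrder_twentyOne (E : WeierstrassCurve ℚ) [E.IsElliptic]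
    (hj : E.j = 3375 / 2 ∨ E.j = -140625 / 8 ∨ E.j = -189613868625 / 128 ∨
      E.j = -1159088625 / 2097152) : HasStableOrder E 21 := by
  rcases hj with h | h | h | h
  exacts [stable_twentyOneD E (h.trans (by norm_num)), stable_twentyOneB E (h.trans (by norm_num)),
    stable_twentyOneA E (h.trans (by norm_num)), stable_twentyOneC E (h.trans (by norm_num))]

end FA.KerPoly

end
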