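import Fermat.Agent.MordellCurve.CurveOneFortyFour

/-!
# The rational points of `v² = t (t² + 9 t + 27)`

The only one is `(0, 0)`, so `y² = x³ - 27` has only the rational point `(3, 0)`: descent on
`a⁴ + 9 a² b² + 27 b⁴ = c²`, where `b` is even for a reason modulo `8` and two factorisations give
a smaller solution.
-/

set_option autoImplicit false

namespace FA.X0Composite

open FA.Curve144 (split coprime_halves coprime_two)

theorem quartic_mod_eight : ∀ a b c : ZMod 8,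
    a ^ 4 + 9 * a ^ 2 * (2 * b + 1) ^ 2 + 27 * (2 * b + 1) ^ 4 ≠ c ^ 2 := by
  decide +kernel

theorem sq_add_fourth_mod_three : ∀ a v : ZMod 3, a ^ 2 + v ^ 4 = 0 → a = 0 := by decide

/-- **The quartic**: `a⁴ + 9 a² b² + 27 b⁴` is a square only for `b = 0`. -/
theorem quartic_thirtySix : ∀ (n : ℕ) (a b c : ℤ), b.natAbs = n → IsCoprime a b →
    a ^ 4 + 9 * a ^ 2 * b ^ 2 + 27 * b ^ 4 = c ^ 2 → b = 0 := by
  intro n
  induction n using Nat.strong_induction_on with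
  | _ n ih =>
    intro a b c hn hab h
    by_contra hb
    rcases Int.even_or_odd b with hbe | ⟨i, hi⟩
    swap
    · have := congrArg (Int.cast : ℤ → ZMod 8) h
      rw [hi] at this
      push_cast at this
      exact quartic_mod_eight _ _ _ this
    have hao : Odd a := Int.not_even_iff_odd.1 fun he =>
      Int.prime_two.not_isUnit (hab.isUnit_of_dvd' he.two_dvd hbe.two_dvd)
    obtain ⟨β, rfl⟩ := hbe.two_dvd
    have hβ : β ≠ 0 := right_ne_zero_of_mul hb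
    have haβ : IsCoprime a β := hab.of_mul_right_right
    have h3a : ¬ (3 : ℤ) ∣ a := by
      rintro ⟨k, rfl⟩
      obtain ⟨c₁, rfl⟩ : (3 : ℤ) ∣ c := Int.prime_three.dvd_of_dvd_pow (n := 2)
        ⟨27 * k ^ 4 + 27 * k ^ 2 * (2 * β) ^ 2 + 9 * (2 * β) ^ 4, by rw [← h]; ring⟩
      obtain ⟨c₂, rfl⟩ : (3 : ℤ) ∣ c₁ := Int.prime_three.dvd_of_dvd_pow (n := 2)
        ⟨3 * k ^ 4 + 3 * k ^ 2 * (2 * β) ^ 2 + (2 * β) ^ 4, by linarith⟩
      exact Int.prime_three.not_isUnit (hab.isUnit_of_dvd' (dvd_mul_right 3 k)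
        (Int.prime_three.dvd_of_dvd_pow (n := 4)
          ⟨c₂ ^ 2 - k ^ 4 - k ^ 2 * (2 * β) ^ 2, by linarith⟩))
    have ha3 : IsCoprime a 3 := (Int.prime_three.coprime_iff_not_dvd.2 h3a).symm
    have hmod : ∀ {x k m : ℤ}, x ^ 2 + k ^ 4 = 3 * m → (3 : ℤ) ∣ x := by
      intro x k m hk
      refine (ZMod.intCast_zmod_eq_zero_iff_dvd x 3).1 ?_
      have := congrArg (Int.cast : ℤ → ZMod 3) hk
      push_cast at this
      rw [show (3 : ZMod 3) = 0 from rfl, zero_mul] at this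
      exact sq_add_fourth_mod_three _ _ this
    obtain ⟨C, hC, hC2⟩ : ∃ C : ℤ, 0 < C ∧ C ^ 2 = c ^ 2 := by
      refine ⟨|c|, abs_pos.2 fun e => ?_, sq_abs c⟩
      rw [e] at h
      have : 0 < (2 * β) ^ 4 := by positivity
      nlinarith [sq_nonneg (2 * a ^ 2 + 9 * (2 * β) ^ 2)]
    rw [← hC2] at h
    obtain ⟨X, hX⟩ : ∃ X, X = a ^ 2 + 18 * β ^ 2 := ⟨_, rfl⟩
    have hXo : Odd X := hX ▸ hao.pow.add_even ⟨9 * β ^ 2, by ring⟩
    have hC' : C ^ 2 = X ^ 2 + 108 * β ^ 4 := by rw [hX]; linear_combination -h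
    have hCo : Odd C := (Int.odd_pow' two_ne_zero).1
      (hC' ▸ hXo.pow.add_even ⟨54 * β ^ 4, by ring⟩)
    obtain ⟨P, hP⟩ := (hCo.sub_odd hXo).two_dvd
    obtain ⟨Q, hQ⟩ := (hCo.add_odd hXo).two_dvd
    have hPQ : P * Q = 27 * β ^ 4 := by
      have h4 : 4 * (P * Q) = 4 * (27 * β ^ 4) := by
        linear_combination hC' - (C + X) * hP - 2 * P * hQ
      linarith
    have hXC : IsCoprime X C := by
      have hXb : IsCoprime X β := by
        rw [hX, show a ^ 2 + 18 * β ^ 2 = a ^ 2 + β * (18 * β) by ring]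
        exact haβ.pow_left.add_mul_left_left _
      have hX3 : IsCoprime X 3 := by
        rw [hX, show a ^ 2 + 18 * β ^ 2 = a ^ 2 + 3 * (6 * β ^ 2) by ring]
        exact ha3.pow_left.add_mul_left_left _
      have h4 : IsCoprime X (C ^ 2) := by
        rw [hC', show X ^ 2 + 108 * β ^ 4 = 2 ^ 2 * 3 ^ 3 * β ^ 4 + X * X by ring]
        exact (((coprime_two hXo).pow_right.mul_right hX3.pow_right).mul_right
          hXb.pow_right).add_mul_left_right _
      exact (IsCoprime.pow_right_iff two_pos).1 h4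
    have hpos : 0 < P ∧ 0 < Q := by
      have : 0 < 27 * β ^ 4 := by positivity
      constructor <;> nlinarith
    have hc : IsCoprime P Q := coprime_halves (by
      rwa [show Q - P = X by linarith, show P + Q = C by linarith])
    obtain ⟨u, v, huv, -, ⟨e1, e2⟩ | ⟨e1, e2⟩⟩ := split hpos.1 hpos.2 hc hPQ
    swap
    · exact h3a (hmod (x := a) (k := v) (m := 9 * u ^ 4 - 6 * β ^ 2) (by linarith))
    have ea : a ^ 2 = v ^ 4 - 27 * u ^ 4 - 18 * (u ^ 2 * v ^ 2) := by rw [huv]; linarith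
    have h3v : ¬ (3 : ℤ) ∣ v := fun hd => Int.prime_three.not_isUnit
      (hc.isUnit_of_dvd' (e1 ▸ ⟨9 * u ^ 4, by ring⟩) (e2 ▸ dvd_pow hd four_ne_zero))
    have hu0 : u ≠ 0 := fun e => by
      rw [e] at huv
      exact hβ ((pow_eq_zero_iff two_ne_zero).1 (by rw [← huv]; ring))
    obtain ⟨Y, hY⟩ : ∃ Y, Y = |v ^ 2 - 9 * u ^ 2| := ⟨_, rfl⟩
    have hY2 : Y ^ 2 = a ^ 2 + 108 * u ^ 4 := by rw [hY, sq_abs]; linear_combination -ea
    have hYo : Odd Y := (Int.odd_pow' two_ne_zero).1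
      (hY2 ▸ hao.pow.add_even ⟨54 * u ^ 4, by ring⟩)
    obtain ⟨P', hP'⟩ := (hYo.sub_odd hao).two_dvd
    obtain ⟨Q', hQ'⟩ := (hYo.add_odd hao).two_dvd
    have hPQ' : P' * Q' = 27 * u ^ 4 := by
      have h4 : 4 * (P' * Q') = 4 * (27 * u ^ 4) := by
        linear_combination hY2 - (Y + a) * hP' - 2 * P' * hQ'
      linarith
    have haY : IsCoprime a Y := by
      have hau : IsCoprime a u :=
        (IsCoprime.of_isCoprime_of_dvd_right (haβ.pow_right (n := 2))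
          (show u ∣ β ^ 2 from ⟨u * v ^ 2, by rw [← huv]; ring⟩))
      have h4 : IsCoprime a (Y ^ 2) := by
        rw [hY2, show a ^ 2 + 108 * u ^ 4 = 2 ^ 2 * 3 ^ 3 * u ^ 4 + a * a by ring]
        exact (((coprime_two hao).pow_right.mul_right ha3.pow_right).mul_right
          hau.pow_right).add_mul_left_right _
      exact (IsCoprime.pow_right_iff two_pos).1 h4
    have hpos' : 0 < P' ∧ 0 < Q' := by
      have : 0 < 27 * u ^ 4 := by positivity
      have : 0 ≤ Y := hY ▸ abs_nonneg _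
      constructor <;> nlinarith
    obtain ⟨s, w, hsw, hswc, hsplit⟩ := split hpos'.1 hpos'.2 (coprime_halves (by
      rwa [show Q' - P' = a by linarith, show P' + Q' = Y by linarith])) hPQ'
    have hs0 : s ≠ 0 := fun e => by
      rw [e] at hsw
      exact hu0 ((pow_eq_zero_iff two_ne_zero).1 (by rw [← hsw]; ring))
    have hw0 : w ≠ 0 := fun e => by
      rw [e] at hsw
      exact hu0 ((pow_eq_zero_iff two_ne_zero).1 (by rw [← hsw]; ring))
    have hv0 : v ≠ 0 := fun e => h3v (e ▸ dvd_zero 3)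
    have hYsum : Y = 27 * s ^ 4 + w ^ 4 := by
      rcases hsplit with ⟨e1, e2⟩ | ⟨e1, e2⟩ <;> linarith
    rcases abs_choice (v ^ 2 - 9 * u ^ 2) with e | e <;> rw [← hY, hYsum] at e
    · refine hs0 (ih s.natAbs ?_ w s v rfl hswc.symm
        (by linear_combination e + 9 * hsw))
      rw [← hn, Int.natAbs_lt_iff_sq_lt]
      have h1 : 1 ≤ w ^ 2 := by have := pow_two_pos_of_ne_zero hw0; omega
      have h2 : 1 ≤ v ^ 2 := by have := pow_two_pos_of_ne_zero hv0; omega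
      nlinarith [pow_two_pos_of_ne_zero hβ, pow_two_pos_of_ne_zero hs0, pow_two_pos_of_ne_zero hu0]
    · exact h3v (hmod (x := v) (k := w) (m := 3 * u ^ 2 - 9 * s ^ 4) (by linarith))

/-- **The rational points of `v² = t (t² + 9 t + 27)`.** -/
theorem eq_zero_of_cubic_thirtySix {t V : ℚ} (h : V ^ 2 = t * (t ^ 2 + 9 * t + 27)) : t = 0 := by
  by_contra hx0
  obtain ⟨m, hm⟩ : ∃ m, t.num = m := ⟨_, rfl⟩
  obtain ⟨d, hd⟩ : ∃ d : ℤ, (t.den : ℤ) = d := ⟨_, rfl⟩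
  have hd0 : 0 < d := by rw [← hd]; exact_mod_cast t.den_pos
  have hmd : t * d = m := by rw [← hm, ← hd]; exact_mod_cast Rat.mul_den_eq_num t
  have hco : IsCoprime m d := by
    rw [← hm, ← hd, Int.isCoprime_iff_gcd_eq_one, Int.gcd, Int.natAbs_natCast]
    exact t.reduced
  have hm0 : m ≠ 0 := hm ▸ Rat.num_ne_zero.2 hx0
  obtain ⟨f, hf⟩ : IsSquare (d * (m * (m ^ 2 + 9 * m * d + 27 * d ^ 2))) := by
    refine Rat.isSquare_intCast_iff.1 ⟨V * (d : ℚ) ^ 2, ?_⟩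
    push_cast
    rw [← hmd]
    linear_combination -(d : ℚ) ^ 4 * h
  rw [← sq] at hf
  have hquad : 0 < m ^ 2 + 9 * m * d + 27 * d ^ 2 := by
    nlinarith [sq_nonneg (2 * m + 9 * d), pow_pos hd0 2]
  have hm_pos : 0 < m := by
    have h0 : 0 ≤ d * (m * (m ^ 2 + 9 * m * d + 27 * d ^ 2)) := hf ▸ sq_nonneg f
    have := nonneg_of_mul_nonneg_right h0 hd0
    have := nonneg_of_mul_nonneg_left this hquad
    omega
  have hdm : IsCoprime d (m * (m ^ 2 + 9 * m * d + 27 * d ^ 2)) := by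
    refine hco.symm.mul_right ?_
    rw [show m ^ 2 + 9 * m * d + 27 * d ^ 2 = m ^ 2 + d * (27 * d + 9 * m) by ring]
    exact hco.symm.pow_right.add_mul_left_right _
  obtain ⟨e, rfl⟩ := FA.CongruentNumber.sq_of_coprime_pos hdm hd0 hf
  obtain ⟨g, hg⟩ := FA.CongruentNumber.sq_of_coprime_pos hdm.symm (mul_pos hm_pos hquad)
    (mul_comm (e ^ 2) _ ▸ hf)
  have he0 : e ≠ 0 := by rintro rfl; simp at hd0
  have hme : IsCoprime m e := (IsCoprime.pow_right_iff two_pos).1 hco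
  by_cases h3 : (3 : ℤ) ∣ m
  · obtain ⟨m₁, rfl⟩ := h3
    have h27 : (27 : ℤ) * (m₁ * (m₁ ^ 2 + 3 * m₁ * e ^ 2 + 3 * (e ^ 2) ^ 2)) = g ^ 2 := by
      rw [← hg]; ring
    obtain ⟨g₁, rfl⟩ : (3 : ℤ) ∣ g := Int.prime_three.dvd_of_dvd_pow (n := 2) ⟨_, by
      rw [← h27, show (27 : ℤ) = 3 * 9 by norm_num, mul_assoc]⟩
    obtain ⟨g₂, rfl⟩ : (3 : ℤ) ∣ g₁ := Int.prime_three.dvd_of_dvd_pow (n := 2)
      ⟨m₁ * (m₁ ^ 2 + 3 * m₁ * e ^ 2 + 3 * (e ^ 2) ^ 2), by linarith⟩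
    obtain ⟨a, rfl⟩ : (3 : ℤ) ∣ m₁ := Int.prime_three.dvd_of_dvd_pow (n := 3)
      ⟨g₂ ^ 2 - m₁ ^ 2 * e ^ 2 - m₁ * (e ^ 2) ^ 2, by linarith⟩
    have h3e : IsCoprime (3 : ℤ) e := hme.of_mul_left_left
    have hae : IsCoprime a e := hme.of_mul_left_right.of_mul_left_right
    have e3 : 3 * a * ((e ^ 2) ^ 2 + 3 * a * e ^ 2 + 3 * a ^ 2) = g₂ ^ 2 := by linarith
    have hc : IsCoprime (3 * a) ((e ^ 2) ^ 2 + 3 * a * e ^ 2 + 3 * a ^ 2) := by
      rw [show (e ^ 2) ^ 2 + 3 * a * e ^ 2 + 3 * a ^ 2 = (e ^ 2) ^ 2 + 3 * a * (a + e ^ 2) by ring]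
      exact ((h3e.mul_left hae).pow_right.pow_right).add_mul_left_right _
    obtain ⟨r, hr⟩ := FA.CongruentNumber.sq_of_coprime_pos hc (by omega) e3
    obtain ⟨k, hk⟩ := FA.CongruentNumber.sq_of_coprime_pos hc.symm
      (by nlinarith [sq_nonneg (2 * a + e ^ 2), pow_two_pos_of_ne_zero (pow_ne_zero 2 he0)])
      (mul_comm (3 * a) _ ▸ e3)
    obtain ⟨r₁, rfl⟩ : (3 : ℤ) ∣ r := Int.prime_three.dvd_of_dvd_pow (n := 2) ⟨a, hr.symm⟩
    obtain rfl : a = 3 * r₁ ^ 2 := by linarith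
    have := quartic_thirtySix _ e r₁ k rfl
      ((IsCoprime.pow_left_iff two_pos).1 hae.of_mul_left_right).symm (by rw [← hk]; ring)
    exact hm0 (by rw [this]; ring)
  · have hc : IsCoprime m (m ^ 2 + 9 * m * e ^ 2 + 27 * (e ^ 2) ^ 2) := by
      rw [show m ^ 2 + 9 * m * e ^ 2 + 27 * (e ^ 2) ^ 2 =
        3 ^ 3 * (e ^ 2) ^ 2 + m * (m + 9 * e ^ 2) by ring]
      exact ((Int.prime_three.coprime_iff_not_dvd.2 h3).symm.pow_right.mul_right
        hme.pow_right.pow_right).add_mul_left_right _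
    obtain ⟨a, rfl⟩ := FA.CongruentNumber.sq_of_coprime_pos hc hm_pos hg
    obtain ⟨k, hk⟩ := FA.CongruentNumber.sq_of_coprime_pos hc.symm hquad
      (mul_comm (a ^ 2) _ ▸ hg)
    exact he0 (quartic_thirtySix _ a e k rfl ((IsCoprime.pow_left_iff two_pos).1 hme)
      (by rw [← hk]; ring))

end FA.X0Composite
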