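import Fermat.Agent.Root.SummaryCMIsogeny
import Fermat.Agent.Root.SummaryIsogenyGoodTwo
import Fermat.Agent.Root.SummaryTwistCriterion
import Fermat.Agent.SerreCurve.TraceResidues

/-!
# A stable cyclic line gives a root of the equation of Frobenius

A point of order `n` whose multiples are Galois stable makes `X² - a_l X + l` have a root modulo
`n` at every good prime `l ∤ n`; the point moves between equations with the same invariant, up to a
quadratic twist.
-/

set_option autoImplicit false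
set_option linter.style.haveILetI false
set_option linter.unusedSectionVars false

noncomputable section

open WeierstrassCurve WeierstrassCurve.Affine FA.Frob FA.RT FA.RT.Tate
open scoped WeierstrassCurve.Affine

namespace FA.KerPoly

local notation "Qb" => AlgebraicClosure ℚ
local notation "GQ" => AlgebraicClosure ℚ ≃ₐ[ℚ] AlgebraicClosure ℚ

/-- The trace at `l` from the count of affine nonsingular points. -/
theorem apOfModel_eq_card (W : WeierstrassCurve ℤ) (l : ℕ) [Fact l.Prime] :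
    W.apOfModel l = l - ((FA.Ribet.nsPts (W.a₁ : ZMod l) (W.a₂ : ZMod l) (W.a₃ : ZMod l)
      (W.a₄ : ZMod l) (W.a₆ : ZMod l)).card : ℤ) :=
  FA.Ribet.apOfModel_eq_nsPts (by ext <;> rfl)

/-- The equation of Frobenius at `l` has no root modulo `n`. -/
abbrev NoRootAt (W : WeierstrassCurve ℤ) (n l : ℕ) [NeZero l] : Prop :=
  ¬ (l : ℤ) ∣ W.Δ ∧ ¬ l ∣ n ∧
    ∀ c : ZMod n, c * c + l ≠
      (((l : ℤ) - ((FA.Ribet.nsPts (W.a₁ : ZMod l) (W.a₂ : ZMod l) (W.a₃ : ZMod l)
        (W.a₄ : ZMod l) (W.a₆ : ZMod l)).card : ℤ) : ℤ) : ZMod n) * c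

/-- No point of order `n` has stable multiples if some equation of Frobenius has no root. -/
theorem false_of_noRoot {W : WeierstrassCurve ℤ} [(ratCurve W).IsElliptic] {n l : ℕ}
    [hl : Fact l.Prime] (hW : NoRootAt W n l) {v : Pts W} (hv : addOrderOf v = n)
    (hst : ∀ σ : GQ, ∃ c : ℤ, c • v = σ • v) : False := by
  obtain ⟨hgood, hln, hroot⟩ := hW
  obtain ⟨A, hA⟩ := FA.Deform.exists_liesOverPrime hl.out
  obtain ⟨σ, hσ⟩ := FA.Deform.exists_isFrobeniusAt hl.out hA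
  obtain ⟨c, hc⟩ := hst σ
  have h := FA.SerreCurve.frobenius_equation_good hl.out hA hgood hσ hln
    (y := v) (by rw [← hv, addOrderOf_nsmul_eq_zero])
  have hcc : σ • σ • v = (c * c) • v := by
    rw [← hc, mul_smul]
    exact ((DistribSMul.toAddMonoidHom (Pts W) σ).map_zsmul c v).trans (congrArg (c • ·) hc.symm)
  rw [hcc, ← hc, smul_smul] at h
  have h0 : (c * c + (l : ℤ) - W.apOfModel l * c) • v = 0 := by
    rw [sub_zsmul, add_zsmul]
    exact sub_eq_zero.2 h
  rw [← addOrderOf_dvd_iff_zsmul_eq_zero, hv, ← ZMod.intCast_zmod_eq_zero_iff_dvd, Int.cast_sub,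
    sub_eq_zero] at h0
  refine hroot c ?_
  rw [← apOfModel_eq_card]
  push_cast at h0
  exact h0

/-- An equivalence up to sign from a twist. -/
theorem exists_equiv_of_quadTwist (E : WeierstrassCurve ℚ) [E.IsElliptic] {E' : WeierstrassCurve ℚ}
    {d : ℚ} (hd : d ≠ 0) (htw : FA.Twists.quadTwist E d = E') :
    ∃ e : (E'.toAffine⁄Qb).Point ≃+ (E.toAffine⁄Qb).Point, ∀ (σ : GQ) (Q),
      Affine.Point.map (W' := E.toAffine) σ.toAlgHom (e Q) = e (σ • Q) ∨
        Affine.Point.map (W' := E.toAffine) σ.toAlgHom (e Q) = -e (σ • Q) := by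
  subst htw
  exact FA.Root.exists_twist_equiv E hd

/-- A point with stable multiples moves to every equation with the same invariant. -/
theorem exists_stable_point_of_same_j {a b : ℤ} (ha : a ≠ 0) (hb : b ≠ 0)
    (hab : 4 * a ^ 3 + 27 * b ^ 2 ≠ 0) (E : WeierstrassCurve ℚ) [E.IsElliptic]
    (W : WeierstrassCurve ℤ) [(ratCurve W).IsElliptic]
    (hE : E.j = 6912 * (a : ℚ) ^ 3 / (4 * (a : ℚ) ^ 3 + 27 * (b : ℚ) ^ 2))
    (hW : (ratCurve W).j = 6912 * (a : ℚ) ^ 3 / (4 * (a : ℚ) ^ 3 + 27 * (b : ℚ) ^ 2))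
    {g : (E.toAffine⁄Qb).Point}
    (hg : ∀ σ : GQ, ∃ c : ℤ, c • g = Affine.Point.map σ.toAlgHom g) :
    ∃ v : Pts W, addOrderOf v = addOrderOf g ∧ ∀ σ : GQ, ∃ c : ℤ, c • v = σ • v := by
  have hab' : 4 * (a : ℚ) ^ 3 + 27 * (b : ℚ) ^ 2 ≠ 0 := by exact_mod_cast hab
  obtain ⟨d, hd, htw⟩ := FA.CM.ClassOne.exists_quadTwist_eq_short (Int.cast_ne_zero.2 ha)
    (Int.cast_ne_zero.2 hb) hab' E hE
  obtain ⟨d', hd', htw'⟩ := FA.CM.ClassOne.exists_quadTwist_eq_short (Int.cast_ne_zero.2 ha)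
    (Int.cast_ne_zero.2 hb) hab' (ratCurve W) hW
  obtain ⟨e, he⟩ := exists_equiv_of_quadTwist E hd htw
  obtain ⟨e', he'⟩ := exists_equiv_of_quadTwist (ratCurve W) hd' htw'
  obtain ⟨u, rfl⟩ := e.surjective g
  refine ⟨e' u, by rw [AddEquiv.addOrderOf_eq, AddEquiv.addOrderOf_eq], fun σ => ?_⟩
  obtain ⟨c, hc⟩ := hg σ
  obtain ⟨c', hu⟩ : ∃ c' : ℤ, c' • u = σ • u := by
    rcases he σ u with h | h <;> rw [h] at hc
    · exact ⟨c, e.injective (by rw [map_zsmul, hc])⟩
    · exact ⟨-c, e.injective (by rw [map_zsmul, neg_smul, hc, neg_neg])⟩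
  rcases he' σ u with h | h
  · exact ⟨c', (map_zsmul e' c' u).symm.trans ((congrArg e' hu).trans h.symm)⟩
  · refine ⟨-c', ?_⟩
    rw [neg_smul, ← map_zsmul, hu]
    exact h.symm

/-- The multiples of a point with stable multiples. -/
theorem stable_zmultiples {E : WeierstrassCurve ℚ} [E.IsElliptic] {g : (E.toAffine⁄Qb).Point}
    (hg : ∀ σ : GQ, ∃ c : ℤ, c • g = Affine.Point.map σ.toAlgHom g) :
    ∀ σ : GQ, ∀ P ∈ AddSubgroup.zmultiples g,
      Affine.Point.map σ.toAlgHom P ∈ AddSubgroup.zmultiples g := fun σ P hP => by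
  obtain ⟨k, rfl⟩ := AddSubgroup.mem_zmultiples_iff.1 hP
  obtain ⟨c, hc⟩ := hg σ
  exact AddSubgroup.mem_zmultiples_iff.2 ⟨k * c, by rw [map_zsmul, mul_smul, hc]⟩

end FA.KerPoly

end
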