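import Fermat.Agent.IsogenyDegrees.Kernel

/-!
# Cyclic stable subgroups of orders `14`, `15`, `16`, `18`, `21`, `25`, `27`

For one equation over `ℤ` each and a candidate kernel polynomial `h`, the kernel checks that
`ΨSq N` vanishes modulo `h`, that a generator of `(ℤ/N)ˣ / ±1` keeps the roots of `h`, and, by a
supplied inverse up to a constant, that no `ΨSq (N / q)` vanishes at a root of `h`.
-/

set_option autoImplicit false

noncomputable section

open WeierstrassCurve
open scoped WeierstrassCurve.Affine

namespace FA.KerPoly

local notation "Qb" => AlgebraicClosure ℚ

/-- **Checked data give a stable cyclic subgroup of order `N`.** -/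
theorem exists_cyclic_of_checks {N g : ℕ} (hN : 2 ≤ N) (hcop : g.Coprime N)
    {W : WeierstrassCurve ℤ} {r : List ℤ} (hr0 : r ≠ [])
    [(W.map (Int.castRingHom ℚ)).IsElliptic] {bn bg : List Bool} (hbn : valBits bn = N)
    (hbg : valBits bg = g) (hc : cycleCheck r W bn bg = true)
    (hq : ∀ q ∈ N.primeFactors, ∃ (bm : List Bool) (u : List ℤ) (c : ℤ),
      orderCheck r W bm u c = true ∧ valBits bm = N / q)
    (hpow : powCheck N g r.length = true) :
    ∃ G : AddSubgroup ((W.map (Int.castRingHom ℚ)).toAffine⁄Qb).Point,
      Nat.card G = N ∧ IsAddCyclic G ∧
        ∀ σ : Qb ≃ₐ[ℚ] Qb, ∀ P ∈ G, Affine.Point.map σ.toAlgHom P ∈ G :=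
  exists_cyclic_of_roots hN hcop hr0 (fun _ hx => of_cycleCheck hx hbn hbg hc)
    (fun _ hx q hq' hqN => by
      obtain ⟨bm, u, c, h, hm⟩ := hq q (Nat.mem_primeFactors.mpr ⟨hq', hqN, by omega⟩)
      exact of_orderCheck hx hm h) hpow

/-- The lower coefficients of the kernel polynomial for `14`. -/
def kerFourteen : List ℤ :=
  [-1, 5, 8]

theorem cycle_fourteen :
    cycleCheck kerFourteen ⟨1, -1, 0, -2, -1⟩ [false, true, true, true]
      [true, true] = true := by
  decide +kernel

theorem order_fourteen_two :
    orderCheck kerFourteen ⟨1, -1, 0, -2, -1⟩
      [true, true, true]
      [1697468589321, -10334140397952, -1448321048636]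
      191581231380566414401 = true := by
  decide +kernel

theorem order_fourteen_seven :
    orderCheck kerFourteen ⟨1, -1, 0, -2, -1⟩
      [false, true]
      [-85, 127, 19]
      343 = true := by
  decide +kernel

/-- The lower coefficients of the kernel polynomial for `15`. -/
def kerFifteen : List ℤ :=
  [-5549, -1222, 44, 22]

theorem cycle_fifteen :
    cycleCheck kerFifteen ⟨1, 0, 1, -126, -552⟩ [true, true, true, true]
      [false, true] = true := by
  decide +kernel

theorem order_fifteen_three :
    orderCheck kerFifteen ⟨1, 0, 1, -126, -552⟩
      [true, false, true]
      [830429784031044374, 55845808900275194, -15127539411396191, -978318562038310]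
      30000000000000000 = true := by
  decide +kernel

theorem order_fifteen_five :
    orderCheck kerFifteen ⟨1, 0, 1, -126, -552⟩
      [true, true]
      [525520127, 35335551, -9572775, -619063]
      40000000 = true := by
  decide +kernel

/-- The lower coefficients of the kernel polynomial for `16`. -/
def kerSixteen : List ℤ :=
  [1, 2, -6, -7]

theorem cycle_sixteen :
    cycleCheck kerSixteen ⟨1, 1, 1, 0, 0⟩ [false, false, false, false, true]
      [true, true] = true := by
  decide +kernel

theorem order_sixteen_two :
    orderCheck kerSixteen ⟨1, 1, 1, 0, 0⟩
      [false, false, false, true]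
      [3968454178255906052, -4644295910854175453, -9127003728429965254, 1248219131630403722]
      10509453369140625 = true := by
  decide +kernel

/-- The lower coefficients of the kernel polynomial for `18`. -/
def kerEighteen : List ℤ :=
  [1, -1, -9]

theorem cycle_eighteen :
    cycleCheck kerEighteen ⟨1, 0, 1, -1, 0⟩ [false, true, false, false, true]
      [true, false, true] = true := by
  decide +kernel

theorem order_eighteen_two :
    orderCheck kerEighteen ⟨1, 0, 1, -1, 0⟩
      [true, false, false, true]
      [129177542704167083980516422508, 322163452653499192299098415440,
        -36971672648390752047913095451]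
      1790459685731090532269031424 = true := by
  decide +kernel

theorem order_eighteen_three :
    orderCheck kerEighteen ⟨1, 0, 1, -1, 0⟩
      [false, true, true]
      [6485017011357, 16149787605744, -1853473605932]
      1511207993344 = true := by
  decide +kernel

/-- The lower coefficients of the kernel polynomial for `21`. -/
def kerTwentyOne : List ℤ :=
  [-153, 648, -477, -48, 117, -24]

theorem cycle_twentyOne :
    cycleCheck kerTwentyOne ⟨1, -1, 1, -5, 5⟩ [true, false, true, false, true]
      [false, true] = true := by
  decide +kernel

theorem order_twentyOne_three :
    orderCheck kerTwentyOne ⟨1, -1, 1, -5, 5⟩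
      [true, true, true]
      [-746224941074317692894, 2684025007006397815608, -612741853728008059239,
        -625343099288705008638, 171366305032316885216, -7638747935781475578]
      214883849968552823878582272 = true := by
  decide +kernel

theorem order_twentyOne_seven :
    orderCheck kerTwentyOne ⟨1, -1, 1, -5, 5⟩
      [true, true]
      [-474465, 1726203, -327990, -387454, 102343, -4525]
      4478976 = true := by
  decide +kernel

/-- The lower coefficients of the kernel polynomial for `25`. -/
def kerTwentyFive : List ℤ :=
  [1, -4, -17, 90, -41, -331, 653, -500, 174, -25]

theorem cycle_twentyFive :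
    cycleCheck kerTwentyFive ⟨0, -1, 1, 0, 0⟩ [true, false, false, true, true]
      [false, true] = true := by
  decide +kernel

theorem order_twentyFive_five :
    orderCheck kerTwentyFive ⟨0, -1, 1, 0, 0⟩
      [true, false, true]
      [2150477822, -6885487260, -42068250106, 168244066217, 79714511662, -692294217243,
        744659649595, -305220192924, 47639323137, -1966354852]
      19487171 = true := by
  decide +kernel

/-- The lower coefficients of the kernel polynomial for `27`. -/
def kerTwentySeven : List ℤ :=
  [450577, -1028853, 941688, -433644, 96678, -3789, -2859, 603, -45]

theorem cycle_twentySeven :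
    cycleCheck kerTwentySeven ⟨0, 0, 1, -30, 63⟩ [true, true, false, true, true]
      [false, true] = true := by
  decide +kernel

theorem order_twentySeven_three :
    orderCheck kerTwentySeven ⟨0, 0, 1, -30, 63⟩
      [true, false, false, true]
      [-134925148650966153240899895787425349228089501484204767,
        265333509518619149318888610228202635183816684334473687,
        -197907078483350311224789789832786733466140809255411546,
        67140108038969075722853111845918217527995533299423035,
        -7674276465588510877640471070066439718787738997313136,
        -1297274324036883020112006612303669724740693345706937,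
        445035506165645906171411229765521115651462565374411,
        -39541578010526265601197014356774063616497834869120,
        944968940750823161181577913453401632668121959888]
      278128389443693511257285776231761 = true := by
  decide +kernel

end FA.KerPoly

end
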