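import Fermat.Agent.IsogenyDegrees.DescentTwenty

/-!
# The rational points of `v² = x (x² + 21 x + 112)`

The only one is `(0, 0)`: descent on `r⁴ + 21 r² e² + 112 e⁴ = z²`, where `e` is even for reasons
modulo `8` and one factorisation, and two more factorisations give a smaller solution.
-/

set_option autoImplicit false
set_option maxHeartbeats 1600000

namespace FA.X0Composite

theorem mod_eight_six : ∀ a b c : ZMod 8,
    (2 * a + 1) ^ 4 + 21 * (2 * a + 1) ^ 2 * (2 * b + 1) ^ 2 + 112 * (2 * b + 1) ^ 4 ≠ c ^ 2 := by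
  decide +kernel

theorem mod_eight_five : ∀ a b c : ZMod 8,
    4 * (2 * a + 1) ^ 4 + 21 * (2 * a + 1) ^ 2 * (2 * b + 1) ^ 2 + 28 * (2 * b + 1) ^ 4 ≠
      c ^ 2 := by
  decide +kernel

theorem mod_eight_seven : ∀ a b c : ZMod 8,
    16 * (2 * a) ^ 4 + 21 * (2 * a) ^ 2 * (2 * b + 1) ^ 2 + 7 * (2 * b + 1) ^ 4 ≠ c ^ 2 := by
  decide +kernel

theorem mod_eight_q : ∀ a b c : ZMod 8,
    2 * ((2 * a + 1) ^ 2) ^ 2 + 21 * (2 * a + 1) ^ 2 * (2 * b + 1) ^ 2 +
      56 * ((2 * b + 1) ^ 2) ^ 2 ≠ c ^ 2 := by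
  decide +kernel

theorem mod_eight_k : ∀ a b c : ZMod 8,
    8 * ((2 * a + 1) ^ 2) ^ 2 + 21 * (2 * a + 1) ^ 2 * (2 * b + 1) ^ 2 +
      14 * ((2 * b + 1) ^ 2) ^ 2 ≠ c ^ 2 := by
  decide +kernel

theorem mod_eight_half : ∀ m n : ZMod 8,
    (2 * n + 1) ^ 2 - 21 * (2 * m + 1) ^ 2 = 4 := by decide +kernel

theorem mod_seven_sum : ∀ a b : ZMod 7, a ^ 2 + b ^ 4 = 0 → a = 0 := by decide +kernel

theorem mod_seven_sum_two : ∀ a b : ZMod 7, a ^ 2 + 2 * b ^ 4 = 0 → a = 0 := by decide +kernel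

/-- Modulo `7` minus a square is no square. -/
theorem seven_dvd_of_sum {a b m : ℤ} (h : a ^ 2 + b ^ 4 = 7 * m ∨ a ^ 2 + 2 * b ^ 4 = 7 * m) :
    (7 : ℤ) ∣ a := by
  refine (ZMod.intCast_zmod_eq_zero_iff_dvd a 7).1 ?_
  rcases h with h | h <;> have := congrArg (Int.cast : ℤ → ZMod 7) h <;> push_cast at this <;>
    rw [show (7 : ZMod 7) = 0 from rfl, zero_mul] at this
  exacts [mod_seven_sum _ _ this, mod_seven_sum_two _ _ this]

theorem prime_seven_int : Prime (7 : ℤ) := by norm_num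

/-- Coprime nonnegative factors of `7 k⁴`. -/
theorem split_seven {p q k : ℤ} (hp : 0 ≤ p) (hq : 0 ≤ q) (hpq : IsCoprime p q)
    (h : p * q = 7 * k ^ 4) : ∃ a b : ℤ, k ^ 4 = (a * b) ^ 4 ∧ IsCoprime (7 * a) b ∧
      (p = 7 * a ^ 4 ∧ q = b ^ 4 ∨ q = 7 * a ^ 4 ∧ p = b ^ 4) := by
  wlog hd : (7 : ℤ) ∣ p generalizing p q
  · obtain ⟨a, b, e1, e2, e3⟩ := this hq hp hpq.symm (by linear_combination h)
      ((prime_seven_int.dvd_or_dvd (a := p) (b := q) ⟨k ^ 4, h⟩).resolve_left hd)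
    exact ⟨a, b, e1, e2, e3.symm⟩
  obtain ⟨P, rfl⟩ := hd
  obtain ⟨a, b, rfl, rfl⟩ := eq_fourth_powers (u := P) (v := q) (y := k)
    (nonneg_of_mul_nonneg_right hp (by norm_num)) hq hpq.of_mul_left_right (by linarith)
  exact ⟨a, b, mul_left_cancel₀ (show (7 : ℤ) ≠ 0 by norm_num) (by linear_combination -h),
    ((IsCoprime.pow_right_iff (by norm_num)).1 hpq.of_mul_left_left).mul_left
      ((IsCoprime.pow_iff (by norm_num) (by norm_num)).1 hpq.of_mul_left_right),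
    Or.inl ⟨rfl, rfl⟩⟩

/-- `7` does not divide the first variable. -/
theorem seven_not_dvd {r e z : ℤ} (hre : IsCoprime r e)
    (h : r ^ 4 + 21 * r ^ 2 * e ^ 2 + 112 * e ^ 4 = z ^ 2) : ¬ (7 : ℤ) ∣ r := by
  rintro ⟨k, rfl⟩
  obtain ⟨w, rfl⟩ : (7 : ℤ) ∣ z := prime_seven_int.dvd_of_dvd_pow (n := 2)
    ⟨343 * k ^ 4 + 147 * k ^ 2 * e ^ 2 + 16 * e ^ 4, by rw [← h]; ring⟩
  have : (7 : ℤ) ∣ 16 * e ^ 4 := ⟨w ^ 2 - 49 * k ^ 4 - 21 * k ^ 2 * e ^ 2, by linarith⟩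
  refine prime_seven_int.not_isUnit (hre.isUnit_of_dvd' (dvd_mul_right 7 k)
    (prime_seven_int.dvd_of_dvd_pow ((prime_seven_int.dvd_or_dvd this).resolve_left (by decide))))

/-- The second variable is even. -/
theorem quartic_e_even {r e z : ℤ} (hre : IsCoprime r e)
    (h : r ^ 4 + 21 * r ^ 2 * e ^ 2 + 112 * e ^ 4 = z ^ 2) : Even e := by
  have h7r := seven_not_dvd hre h
  by_contra he
  obtain ⟨i, hi⟩ := Int.not_even_iff_odd.1 he
  rcases Int.even_or_odd r with ⟨k, hk⟩ | ⟨k, hk⟩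
  swap
  · have := congrArg (Int.cast : ℤ → ZMod 8) h
    rw [hk, hi] at this
    push_cast at this
    exact mod_eight_six _ _ _ this
  rw [← two_mul] at hk
  subst hk
  obtain ⟨z₁, rfl⟩ : (2 : ℤ) ∣ z := Int.prime_two.dvd_of_dvd_pow (n := 2)
    ⟨8 * k ^ 4 + 42 * k ^ 2 * e ^ 2 + 56 * e ^ 4, by rw [← h]; ring⟩
  have h1 : 4 * k ^ 4 + 21 * k ^ 2 * e ^ 2 + 28 * e ^ 4 = z₁ ^ 2 :=
    mul_left_cancel₀ four_ne_zero (by linear_combination h)
  rcases Int.even_or_odd k with ⟨l, hl⟩ | ⟨l, hl⟩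
  swap
  · have := congrArg (Int.cast : ℤ → ZMod 8) h1
    rw [hl, hi] at this
    push_cast at this
    exact mod_eight_five _ _ _ this
  rw [← two_mul] at hl
  subst hl
  obtain ⟨z₂, rfl⟩ : (2 : ℤ) ∣ z₁ := Int.prime_two.dvd_of_dvd_pow (n := 2)
    ⟨32 * l ^ 4 + 42 * l ^ 2 * e ^ 2 + 14 * e ^ 4, by rw [← h1]; ring⟩
  have h2 : 16 * l ^ 4 + 21 * l ^ 2 * e ^ 2 + 7 * e ^ 4 = z₂ ^ 2 :=
    mul_left_cancel₀ four_ne_zero (by linear_combination h1)
  rcases Int.even_or_odd l with ⟨n, hn⟩ | hlo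
  · have := congrArg (Int.cast : ℤ → ZMod 8) h2
    rw [hn, ← two_mul, hi] at this
    push_cast at this
    exact mod_eight_seven _ _ _ this
  set A := 32 * l ^ 2 + 21 * e ^ 2 with hA
  have heo : Odd e := ⟨i, hi⟩
  have he0 : e ≠ 0 := fun e0 => by simp [e0] at heo
  have he2 : 0 < e ^ 2 := by positivity
  have hA0 : 0 < A := by rw [hA]; positivity
  have hAo : Odd A := by
    rw [hA]
    exact (show Even (32 * l ^ 2) from ⟨16 * l ^ 2, by ring⟩).add_odd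
      ((show Odd (21 : ℤ) by decide).mul heo.pow)
  have key : (8 * |z₂| - A) * (8 * |z₂| + A) = 7 * e ^ 4 := by
    rw [hA]; linear_combination 64 * sq_abs z₂ - 64 * h2
  have hpos : 0 ≤ 8 * |z₂| - A ∧ 0 ≤ 8 * |z₂| + A := by
    have := abs_nonneg z₂
    have : 0 < 7 * e ^ 4 := by positivity
    constructor <;> nlinarith
  have hl7 : ¬ (7 : ℤ) ∣ l := fun hl => h7r ((hl.mul_left 2).mul_left 2)
  have hcA : IsCoprime A (7 * e ^ 4) := by
    have hA7 : IsCoprime A 7 := by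
      rw [isCoprime_comm, prime_seven_int.coprime_iff_not_dvd, hA]
      intro hd
      have h32 : (7 : ℤ) ∣ 32 * l ^ 2 := by
        obtain ⟨c, hc⟩ := hd
        exact ⟨c - 3 * e ^ 2, by linarith⟩
      exact hl7 (prime_seven_int.dvd_of_dvd_pow
        ((prime_seven_int.dvd_or_dvd h32).resolve_left (by decide)))
    refine hA7.mul_right (IsCoprime.pow_right ?_)
    rw [hA, show 32 * l ^ 2 + 21 * e ^ 2 = 32 * l ^ 2 + e * (21 * e) by ring]
    have h2e : IsCoprime (2 : ℤ) e := ⟨-i, 1, by rw [hi]; ring⟩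
    have hle : IsCoprime l e := hre.of_mul_left_right.of_mul_left_right
    exact (((show (32 : ℤ) = 2 ^ 5 by norm_num) ▸ h2e.pow_left).mul_left
      hle.pow_left).add_mul_left_left _
  have h27 : IsCoprime (2 : ℤ) (7 * e ^ 4) :=
    (show IsCoprime (2 : ℤ) 7 from ⟨-3, 1, by norm_num⟩).mul_right
      (show IsCoprime (2 : ℤ) e from ⟨-i, 1, by rw [hi]; ring⟩).pow_right
  have hco : IsCoprime (8 * |z₂| - A) (8 * |z₂| + A) :=
    coprime_of_sum (C := 2 * A) (Or.inr (by ring)) key (h27.mul_left hcA)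
  obtain ⟨m, n, hmn, -, hcase⟩ := split_seven hpos.1 hpos.2 hco key
  have hmn2 : e ^ 2 = m ^ 2 * n ^ 2 := by
    refine (sq_eq_sq₀ (sq_nonneg e) (mul_nonneg (sq_nonneg m) (sq_nonneg n))).1 ?_
    linear_combination hmn
  obtain ⟨⟨j, hj⟩, ⟨k, hk⟩⟩ : Odd m ∧ Odd n := by
    refine Int.odd_mul.1 ((Int.odd_pow' two_ne_zero).1 ?_)
    rw [mul_pow, ← hmn2]
    exact heo.pow
  rcases hcase with ⟨hP, hQ⟩ | ⟨hQ, hP⟩
  · have hl64 : 64 * l ^ 2 = (n ^ 2 - 21 * m ^ 2) ^ 2 - 448 * m ^ 4 := by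
      linear_combination -hP + hQ - 2 * hA - 42 * hmn2
    obtain ⟨q, hq⟩ : (8 : ℤ) ∣ n ^ 2 - 21 * m ^ 2 - 4 := by
      refine (ZMod.intCast_zmod_eq_zero_iff_dvd _ 8).1 ?_
      push_cast
      rw [hj, hk]
      push_cast
      rw [mod_eight_half, sub_self]
    have hq' : n ^ 2 - 21 * m ^ 2 = 8 * q + 4 := by linarith
    rw [hq'] at hl64
    have hpar : (2 * q + 1) ^ 2 = 4 * l ^ 2 + 28 * m ^ 4 :=
      mul_left_cancel₀ (show (16 : ℤ) ≠ 0 by norm_num) (by linear_combination -hl64)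
    have h0 := congrArg (Int.cast : ℤ → ZMod 2) hpar
    push_cast at h0
    rw [show (2 : ZMod 2) = 0 from rfl, show (4 : ZMod 2) = 0 from rfl,
      show (28 : ZMod 2) = 0 from rfl] at h0
    simp at h0
  · refine hl7 ((prime_seven_int.dvd_or_dvd (seven_dvd_of_sum (a := 8 * l) (b := n)
      (m := m ^ 4 - 6 * (m ^ 2 * n ^ 2)) (Or.inl ?_))).resolve_left (by decide))
    linear_combination hQ - hP - 2 * hA - 42 * hmn2

/-- **The quartic**: `r⁴ + 21 r² e² + 112 e⁴` is a square only for `e = 0`. -/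
theorem quartic_fortyNine : ∀ (N : ℕ) (r e z : ℤ), e.natAbs = N → IsCoprime r e →
    r ^ 4 + 21 * r ^ 2 * e ^ 2 + 112 * e ^ 4 = z ^ 2 → e = 0 := by
  intro N
  induction N using Nat.strong_induction_on with
  | _ N ih =>
    intro r e z hN hre h
    by_contra he
    have hee := quartic_e_even hre h
    obtain ⟨f, rfl⟩ := hee.two_dvd
    have hr7 := seven_not_dvd hre h
    have hro : Odd r := Int.not_even_iff_odd.1 fun hr =>
      Int.prime_two.not_isUnit (hre.isUnit_of_dvd' hr.two_dvd (dvd_mul_right 2 f))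
    have hf : f ≠ 0 := right_ne_zero_of_mul he
    have hrf : IsCoprime r f := hre.of_mul_right_right
    have hr2 : IsCoprime r 2 := hre.of_mul_right_left
    have hr7' : IsCoprime r 7 := (prime_seven_int.coprime_iff_not_dvd.2 hr7).symm
    set X := r ^ 2 + 42 * f ^ 2 with hX
    have hX0 : 0 < X := by rw [hX]; positivity
    have hXo : Odd X := hX ▸ hro.pow.add_even ⟨21 * f ^ 2, by ring⟩
    obtain ⟨C, hC, hC2⟩ : ∃ C : ℤ, 0 ≤ C ∧ C ^ 2 = X ^ 2 + 28 * f ^ 4 :=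
      ⟨|z|, abs_nonneg z, by rw [sq_abs, hX, ← h]; ring⟩
    have hCo : Odd C := (Int.odd_pow' two_ne_zero).1
      (hC2 ▸ hXo.pow.add_even ⟨14 * f ^ 4, by ring⟩)
    obtain ⟨P, hP⟩ := (hCo.sub_odd hXo).two_dvd
    obtain ⟨Q, hQ⟩ := (hCo.add_odd hXo).two_dvd
    have hPQ : P * Q = 7 * f ^ 4 := by
      have h4 : 4 * (P * Q) = 4 * (7 * f ^ 4) := by
        linear_combination hC2 - (C + X) * hP - 2 * P * hQ
      linarith
    have hpos : 0 ≤ P ∧ 0 ≤ Q := by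
      have : 0 ≤ 7 * f ^ 4 := by positivity
      constructor <;> nlinarith
    have hXP : IsCoprime X (7 * f ^ 4) := by
      refine IsCoprime.mul_right ?_ (IsCoprime.pow_right ?_)
      · rw [hX, show r ^ 2 + 42 * f ^ 2 = r ^ 2 + 7 * (6 * f ^ 2) by ring]
        exact hr7'.pow_left.add_mul_left_left _
      · rw [hX, show r ^ 2 + 42 * f ^ 2 = r ^ 2 + f * (42 * f) by ring]
        exact hrf.pow_left.add_mul_left_left _
    have hc : IsCoprime P Q := coprime_of_sum (Or.inr (show Q - P = X by omega)) hPQ hXP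
    obtain ⟨m, n, hmn, hmn7, hcase⟩ := split_seven hpos.1 hpos.2 hc hPQ
    have hf2 : f ^ 2 = m ^ 2 * n ^ 2 := by
      refine (sq_eq_sq₀ (sq_nonneg f) (mul_nonneg (sq_nonneg m) (sq_nonneg n))).1 ?_
      linear_combination hmn
    have hm0 : m ≠ 0 := fun e0 => hf (eq_zero_of_pow_eq_zero (n := 2) (by rw [hf2, e0]; ring))
    have hn0 : n ≠ 0 := fun e0 => hf (eq_zero_of_pow_eq_zero (n := 2) (by rw [hf2, e0]; ring))
    have hn7 : ¬ (7 : ℤ) ∣ n := fun hd =>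
      prime_seven_int.not_isUnit (hmn7.of_mul_left_left.isUnit_of_dvd' dvd_rfl hd)
    rcases hcase with ⟨e1, e2⟩ | ⟨e2, e1⟩
    swap
    · exact hr7 (seven_dvd_of_sum (b := n) (m := m ^ 4 - 6 * (m ^ 2 * n ^ 2))
        (Or.inl (by linarith)))
    have ea : r ^ 2 = (n ^ 2 - 21 * m ^ 2) ^ 2 - 448 * m ^ 4 := by
      have hQP : Q - P = X := by omega
      linear_combination -hQP + e2 - e1 - hX - 42 * hf2
    set Y := |n ^ 2 - 21 * m ^ 2| with hY
    have hY2 : Y ^ 2 = r ^ 2 + 448 * m ^ 4 := by rw [hY, sq_abs]; linear_combination -ea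
    have hYo : Odd Y := (Int.odd_pow' two_ne_zero).1
      (hY2 ▸ hro.pow.add_even ⟨224 * m ^ 4, by ring⟩)
    obtain ⟨P', hP'⟩ := (hYo.sub_odd hro).two_dvd
    obtain ⟨Q', hQ'⟩ := (hYo.add_odd hro).two_dvd
    have hPQ' : P' * Q' = 7 * (2 * m) ^ 4 := by
      have h4 : 4 * (P' * Q') = 4 * (7 * (2 * m) ^ 4) := by
        linear_combination hY2 - (Y + r) * hP' - 2 * P' * hQ'
      linarith
    have hrm : IsCoprime r m := IsCoprime.of_isCoprime_of_dvd_right (hrf.pow_right (n := 2))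
      (show m ∣ f ^ 2 from ⟨m * n ^ 2, by rw [hf2]; ring⟩)
    have hc' : IsCoprime P' Q' := coprime_of_sum (Or.inr (show Q' - P' = r by omega)) hPQ'
      (hr7'.mul_right (hr2.mul_right hrm).pow_right)
    have hpos' : 0 ≤ P' ∧ 0 ≤ Q' := by
      have : 0 ≤ 7 * (2 * m) ^ 4 := by positivity
      have : 0 ≤ Y := hY ▸ abs_nonneg _
      constructor <;> nlinarith
    obtain ⟨a, b, hab, habc, hcase'⟩ := split_seven hpos'.1 hpos'.2 hc' hPQ'
    have hab2 : 4 * m ^ 2 = a ^ 2 * b ^ 2 := by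
      refine (sq_eq_sq₀ (by positivity) (mul_nonneg (sq_nonneg a) (sq_nonneg b))).1 ?_
      linear_combination hab
    have hYsum : Y = 7 * a ^ 4 + b ^ 4 := by
      rcases hcase' with ⟨f1, f2⟩ | ⟨f1, f2⟩ <;> linarith
    have hco : IsCoprime a b := habc.of_mul_left_right
    rcases Int.even_or_odd a with ⟨a', ha'⟩ | ha
    · rw [← two_mul] at ha'
      subst ha'
      have hm2 : m ^ 2 = a' ^ 2 * b ^ 2 :=
        mul_left_cancel₀ four_ne_zero (by linear_combination hab2)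
      rcases abs_choice (n ^ 2 - 21 * m ^ 2) with q | q <;> rw [← hY, hYsum] at q
      · have hb0 : b ≠ 0 := fun b0 => hm0 (eq_zero_of_pow_eq_zero (n := 2)
          (by rw [hm2, b0]; ring))
        have ha0 : a' ≠ 0 := fun a0 => hm0 (eq_zero_of_pow_eq_zero (n := 2)
          (by rw [hm2, a0]; ring))
        refine ha0 (ih _ ?_ b a' n rfl hco.symm.of_mul_right_right
          (by linear_combination q - 21 * hm2))
        rw [← hN, Int.natAbs_lt_iff_sq_lt, mul_pow, hf2, hm2]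
        have h1 : ∀ x : ℤ, x ≠ 0 → 1 ≤ x ^ 2 := fun x hx => by
          have : 0 < x ^ 2 := by positivity
          omega
        have : 1 ≤ b ^ 2 * n ^ 2 := by nlinarith [h1 b hb0, h1 n hn0]
        nlinarith [h1 a' ha0]
      · exact hn7 (seven_dvd_of_sum (b := b) (m := 3 * m ^ 2 - (2 * a') ^ 4) (Or.inl (by linarith)))
    · obtain ⟨b', hb'⟩ : (2 : ℤ) ∣ b := by
        have h4 : (2 : ℤ) ∣ a ^ 2 * b ^ 2 := ⟨2 * m ^ 2, by linarith⟩
        rcases Int.prime_two.dvd_or_dvd h4 with h | h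
        · exact absurd (even_iff_two_dvd.2 (Int.prime_two.dvd_of_dvd_pow h))
            (Int.not_even_iff_odd.2 ha)
        · exact Int.prime_two.dvd_of_dvd_pow h
      subst hb'
      have hm2 : m ^ 2 = a ^ 2 * b' ^ 2 :=
        mul_left_cancel₀ four_ne_zero (by linear_combination hab2)
      rcases abs_choice (n ^ 2 - 21 * m ^ 2) with q | q <;> rw [← hY, hYsum] at q
      · have hco4 : IsCoprime (4 * b') a := by
          refine IsCoprime.mul_left ?_ hco.symm.of_mul_left_right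
          rw [show (4 : ℤ) = 2 ^ 2 by norm_num]
          exact (hco.symm.of_mul_left_left).pow_left
        exact Int.not_even_iff_odd.2 ha (quartic_e_even (r := 4 * b') (z := 4 * n) hco4
          (by linear_combination 16 * q - 336 * hm2))
      · exact hn7 (seven_dvd_of_sum (b := b') (m := 3 * m ^ 2 - a ^ 4 - 2 * b' ^ 4)
          (Or.inr (by linarith)))

/-- **The rational points of `v² = x (x² + 21 x + 112)`.** -/
theorem eq_zero_of_cubic_fortyNine {x v : ℚ} (h : v ^ 2 = x * (x ^ 2 + 21 * x + 112)) :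
    x = 0 := by
  by_contra hx
  suffices H : ∀ x v : ℚ, v ^ 2 = x * (x ^ 2 + 21 * x + 112) → x ≠ 0 → (7 : ℤ) ∣ x.num by
    have h1 := H x v h hx
    have h2 := H (112 / x) (112 * v / x ^ 2) (by field_simp; linear_combination h)
      (div_ne_zero (by norm_num) hx)
    have hprod : (112 / x).num * x.num = 112 * ((112 / x).den * (x.den : ℤ)) := by
      have : ((112 / x : ℚ).num : ℚ) * x.num = 112 * ((112 / x : ℚ).den * (x.den : ℚ)) := by
        rw [← Rat.mul_den_eq_num (112 / x), ← Rat.mul_den_eq_num x]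
        field_simp
      exact_mod_cast this
    obtain ⟨a, ha⟩ := h1
    obtain ⟨b, hb⟩ := h2
    have hd : (7 : ℤ) ∣ 16 * ((112 / x).den * (x.den : ℤ)) := ⟨a * b, by
      rw [ha, hb] at hprod
      linarith⟩
    rcases prime_seven_int.dvd_or_dvd hd with hd | hd
    · norm_num at hd
    rcases prime_seven_int.dvd_or_dvd hd with hd | hd
    · exact prime_seven_int.not_isUnit
        ((Int.isCoprime_iff_gcd_eq_one.2 (112 / x).reduced :
          IsCoprime (112 / x).num ((112 / x).den : ℤ)).isUnit_of_dvd' ⟨b, hb⟩ hd)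
    · exact prime_seven_int.not_isUnit
        ((Int.isCoprime_iff_gcd_eq_one.2 x.reduced :
          IsCoprime x.num (x.den : ℤ)).isUnit_of_dvd' ⟨a, ha⟩ hd)
  intro x v h hx
  by_contra h7
  set p := x.num
  set d : ℤ := (x.den : ℤ)
  have hd : 0 < d := Int.natCast_pos.2 x.den_pos
  have hp0 : p ≠ 0 := Rat.num_ne_zero.2 hx
  have hpd : IsCoprime p d := Int.isCoprime_iff_gcd_eq_one.2 x.reduced
  have hxd : x * (d : ℚ) = p := by exact_mod_cast x.mul_den_eq_num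
  obtain ⟨w, hw⟩ : IsSquare (p * d * (p ^ 2 + 21 * p * d + 112 * d ^ 2)) := by
    rw [← Rat.isSquare_intCast_iff]
    refine ⟨v * (d : ℚ) ^ 2, ?_⟩
    push_cast
    rw [← hxd]
    linear_combination -((d : ℚ) ^ 4) * h
  have hQ : ∀ a b : ℤ, b ≠ 0 → 0 < a ^ 2 + 21 * a * b + 112 * b ^ 2 := fun a b hb => by
    have : 0 < b ^ 2 := by positivity
    nlinarith [sq_nonneg (2 * a + 21 * b)]
  have hdp : IsCoprime d (p * (p ^ 2 + 21 * p * d + 112 * d ^ 2)) := hpd.symm.mul_right (by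
    rw [show p ^ 2 + 21 * p * d + 112 * d ^ 2 = p ^ 2 + d * (21 * p + 112 * d) by ring]
    exact (hpd.symm.pow_right (n := 2)).add_mul_left_right _)
  obtain ⟨⟨W, hW⟩, ⟨e, he⟩⟩ := split_square (w := w) hdp.symm hd (by linear_combination hw)
  rw [he] at hW hpd
  have he0 : e ≠ 0 := fun e0 => hd.ne' (by rw [he, e0]; ring)
  have he2 : 0 < e ^ 2 := by positivity
  have hpe : IsCoprime p e := (IsCoprime.pow_right_iff two_pos).1 hpd
  have h7p : IsCoprime p 7 := (prime_seven_int.coprime_iff_not_dvd.2 h7).symm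
  -- coprimality of a part of `p` with the rest
  have hgen : ∀ q a b c : ℤ, q ∣ p → IsCoprime q c →
      IsCoprime q (a * q ^ 2 + b * q * e ^ 2 + c * (e ^ 2) ^ 2) := fun q a b c hq hqc => by
    rw [show a * q ^ 2 + b * q * e ^ 2 + c * (e ^ 2) ^ 2 =
      c * (e ^ 2) ^ 2 + q * (a * q + b * e ^ 2) by ring]
    exact (hqc.mul_right (hpe.of_isCoprime_of_dvd_left hq).pow_right.pow_right
      ).add_mul_left_right _
  have hodd2 : ∀ {q : ℤ}, Odd q → IsCoprime q 2 := fun {q} ⟨j, hj⟩ =>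
    ⟨1, -j, by rw [hj]; ring⟩
  rcases Int.even_or_odd p with hpe2 | hpo
  swap
  · obtain ⟨⟨r, hr⟩, s, hs⟩ := split_square
      (p := p) (R := 1 * p ^ 2 + 21 * p * e ^ 2 + 112 * (e ^ 2) ^ 2) (w := W)
      (hgen p 1 21 112 dvd_rfl (by
        rw [show (112 : ℤ) = 2 ^ 4 * 7 by norm_num]; exact (hodd2 hpo).pow_right.mul_right h7p))
      (by linarith [hQ p (e ^ 2) he2.ne']) (by linarith)
    rw [hr] at hs hpe
    exact he0 (quartic_fortyNine _ r e s rfl ((IsCoprime.pow_left_iff two_pos).1 hpe)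
      (by linear_combination hs))
  obtain ⟨i, hi⟩ : Odd e := Int.not_even_iff_odd.1 fun hee =>
    Int.prime_two.not_isUnit (hpe.isUnit_of_dvd' hpe2.two_dvd hee.two_dvd)
  obtain ⟨q, hq⟩ := hpe2.two_dvd
  obtain ⟨W₁, rfl⟩ : (2 : ℤ) ∣ W := Int.prime_two.dvd_of_dvd_pow (n := 2)
    ⟨q * (p ^ 2 + 21 * p * e ^ 2 + 112 * (e ^ 2) ^ 2), by rw [← hW, hq]; ring⟩
  rw [hq] at hW
  have hW1 : q * (2 * q ^ 2 + 21 * q * e ^ 2 + 56 * (e ^ 2) ^ 2) = W₁ ^ 2 :=
    mul_left_cancel₀ four_ne_zero (by linear_combination hW)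
  rcases Int.even_or_odd q with hqe | hqo
  swap
  · obtain ⟨⟨r, hr⟩, s, hs⟩ := split_square (w := W₁)
      (hgen q 2 21 56 ⟨2, by rw [hq]; ring⟩ (by
        rw [show (56 : ℤ) = 2 ^ 3 * 7 by norm_num]
        exact (hodd2 hqo).pow_right.mul_right
          (h7p.of_isCoprime_of_dvd_left ⟨2, by rw [hq]; ring⟩)))
      (by nlinarith [hQ (2 * q) (e ^ 2) he2.ne']) hW1
    obtain ⟨j, hj⟩ : Odd r := (Int.odd_pow' two_ne_zero).1 (hr ▸ hqo)
    have := congrArg (Int.cast : ℤ → ZMod 8) hs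
    rw [hr, hj, hi] at this
    push_cast at this
    exact mod_eight_q _ _ _ this
  obtain ⟨h', hh⟩ := hqe.two_dvd
  obtain ⟨W₂, rfl⟩ : (2 : ℤ) ∣ W₁ := Int.prime_two.dvd_of_dvd_pow (n := 2)
    ⟨h' * (2 * q ^ 2 + 21 * q * e ^ 2 + 56 * (e ^ 2) ^ 2), by rw [← hW1, hh]; ring⟩
  rw [hh] at hW1
  have hW2 : h' * (4 * h' ^ 2 + 21 * h' * e ^ 2 + 28 * (e ^ 2) ^ 2) = W₂ ^ 2 :=
    mul_left_cancel₀ four_ne_zero (by linear_combination hW1)
  rcases Int.even_or_odd h' with hhe | hho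
  swap
  · obtain ⟨⟨r, hr⟩, s, hs⟩ := split_square (w := W₂)
      (hgen h' 4 21 28 ⟨4, by rw [hq, hh]; ring⟩ (by
        rw [show (28 : ℤ) = 2 ^ 2 * 7 by norm_num]
        exact (hodd2 hho).pow_right.mul_right
          (h7p.of_isCoprime_of_dvd_left ⟨4, by rw [hq, hh]; ring⟩)))
      (by nlinarith [hQ (4 * h') (e ^ 2) he2.ne']) hW2
    obtain ⟨j, hj⟩ : Odd r := (Int.odd_pow' two_ne_zero).1 (hr ▸ hho)
    have := congrArg (Int.cast : ℤ → ZMod 8) hs
    rw [hr, hj, hi] at this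
    push_cast at this
    exact mod_eight_five j i s (by linear_combination this)
  obtain ⟨k, hk⟩ := hhe.two_dvd
  obtain ⟨W₃, rfl⟩ : (2 : ℤ) ∣ W₂ := Int.prime_two.dvd_of_dvd_pow (n := 2)
    ⟨k * (4 * h' ^ 2 + 21 * h' * e ^ 2 + 28 * (e ^ 2) ^ 2), by rw [← hW2, hk]; ring⟩
  rw [hk] at hW2
  have hW3 : k * (8 * k ^ 2 + 21 * k * e ^ 2 + 14 * (e ^ 2) ^ 2) = W₃ ^ 2 :=
    mul_left_cancel₀ four_ne_zero (by linear_combination hW2)
  rcases Int.even_or_odd k with hke | hko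
  swap
  · obtain ⟨⟨r, hr⟩, s, hs⟩ := split_square (w := W₃)
      (hgen k 8 21 14 ⟨8, by rw [hq, hh, hk]; ring⟩ (by
        rw [show (14 : ℤ) = 2 * 7 by norm_num]
        exact (hodd2 hko).mul_right
          (h7p.of_isCoprime_of_dvd_left ⟨8, by rw [hq, hh, hk]; ring⟩)))
      (by nlinarith [hQ (8 * k) (e ^ 2) he2.ne']) hW3
    obtain ⟨j, hj⟩ : Odd r := (Int.odd_pow' two_ne_zero).1 (hr ▸ hko)
    have := congrArg (Int.cast : ℤ → ZMod 8) hs
    rw [hr, hj, hi] at this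
    push_cast at this
    exact mod_eight_k _ _ _ this
  obtain ⟨l, hl⟩ := hke.two_dvd
  obtain ⟨W₄, rfl⟩ : (2 : ℤ) ∣ W₃ := Int.prime_two.dvd_of_dvd_pow (n := 2)
    ⟨l * (8 * k ^ 2 + 21 * k * e ^ 2 + 14 * (e ^ 2) ^ 2), by rw [← hW3, hl]; ring⟩
  rw [hl] at hW3
  have hW4 : l * (16 * l ^ 2 + 21 * l * e ^ 2 + 7 * (e ^ 2) ^ 2) = W₄ ^ 2 :=
    mul_left_cancel₀ four_ne_zero (by linear_combination hW3)
  obtain ⟨⟨r, hr⟩, s, hs⟩ := split_square (w := W₄)
    (hgen l 16 21 7 ⟨16, by rw [hq, hh, hk, hl]; ring⟩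
      (h7p.of_isCoprime_of_dvd_left ⟨16, by rw [hq, hh, hk, hl]; ring⟩))
    (by nlinarith [hQ (16 * l) (e ^ 2) he2.ne']) hW4
  rw [hr] at hs
  have hre : IsCoprime (4 * r) e := by
    refine IsCoprime.mul_left ?_ ?_
    · rw [show (4 : ℤ) = 2 ^ 2 by norm_num]
      exact (hodd2 ⟨i, hi⟩).symm.pow_left
    · exact (IsCoprime.pow_left_iff two_pos).1
        (hr ▸ hpe.of_isCoprime_of_dvd_left ⟨16, by rw [hq, hh, hk, hl]; ring⟩)
  exact Int.not_even_iff_odd.2 ⟨i, hi⟩ (quartic_e_even hre (z := 4 * s)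
    (by linear_combination 16 * hs))

end FA.X0Composite
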