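import Fermat.Agent.IsogenyDegrees.DescentTwentyFour
import Fermat.Agent.Torsion.X21Descent

/-!
# The rational points of `z² = u⁴ - 58 u² + 9`

They have `u = 0`. For coprime `m`, `n` the identity `(m² + 3 n²)² - 64 (m n)² = z²` gives
`m n = r s` with `m² + 3 n² = 16 r² + s²`; four numbers and two more Pythagorean splittings give
a smaller pair of the same kind.
-/

set_option autoImplicit false

namespace FA.X0Composite

theorem mod_eight_thirtyNine : ∀ a i j : ZMod 8,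
    16 * a ^ 2 - 3 * (2 * i + 1) ^ 2 ≠ (2 * j + 1) ^ 2 ∧
    16 * a ^ 2 - 3 * (2 * i + 1) ^ 2 ≠ -(2 * j + 1) ^ 2 ∧
    16 * a ^ 2 - 3 * (2 * i + 1) ^ 2 ≠ -13 * (2 * j + 1) ^ 2 := by decide +kernel

theorem odd_sq_sub_three : ∀ a i j : ZMod 8, a ^ 2 ≠ (2 * i + 1) ^ 2 - 3 * (2 * j + 1) ^ 2 := by
  decide +kernel

theorem odd_sq_sub_four : ∀ i j k : ZMod 8, (2 * i + 1) ^ 2 - 4 * (2 * j + 1) ^ 2 ≠ k ^ 2 := by
  decide +kernel

/-- Nonnegative coprime numbers with product three times a square. -/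
theorem split_three {D S e : ℤ} (hD : 0 < D) (hS : 0 < S) (hco : IsCoprime D S)
    (h : D * S = 3 * e ^ 2) :
    ∃ i j : ℤ, D + S = 3 * i ^ 2 + j ^ 2 ∧ e = i * j ∧ IsCoprime i j := by
  wlog h3 : (3 : ℤ) ∣ D generalizing D S
  · obtain ⟨i, j, e1, e2, e3⟩ := this hS hD hco.symm (by linarith)
      ((Int.prime_three.dvd_or_dvd ⟨e ^ 2, h⟩).resolve_left h3)
    exact ⟨i, j, by rw [add_comm, e1], e2, e3⟩
  obtain ⟨T, rfl⟩ := h3
  obtain ⟨⟨i, rfl⟩, j, rfl⟩ := split_square (p := T) (R := S) (w := e)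
    hco.of_mul_left_right hS (by linarith)
  have hij : IsCoprime i j :=
    (IsCoprime.pow_iff two_pos two_pos).1 hco.of_mul_left_right
  rcases sq_eq_sq_iff_eq_or_eq_neg.1 (show e ^ 2 = (i * j) ^ 2 by linarith) with rfl | rfl
  · exact ⟨i, j, rfl, rfl, hij⟩
  · exact ⟨-i, j, by ring, by ring, hij.neg_left⟩

/-- In a product `M N = 4 w` with `M + N` odd the even factor is a multiple of four. -/
theorem split_four {M N w : ℤ} (hpar : Even M ∧ Odd N ∨ Odd M ∧ Even N) (h : M * N = 4 * w) :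
    ∃ r s : ℤ, Odd s ∧ r * s = w ∧ M ^ 2 + N ^ 2 = 16 * r ^ 2 + s ^ 2 := by
  wlog hN : Odd N generalizing M N
  · obtain ⟨r, s, h1, h2, h3⟩ := this (M := N) (N := M) (by tauto) (by linarith) (by tauto)
    exact ⟨r, s, h1, h2, by rw [add_comm, h3]⟩
  obtain ⟨k, hk⟩ := hN
  obtain ⟨r, rfl⟩ : (4 : ℤ) ∣ M :=
    (show IsCoprime (4 : ℤ) N from ⟨-(k * k + k), N, by rw [hk]; ring⟩).dvd_of_dvd_mul_right
      ⟨w, h⟩
  exact ⟨r, N, ⟨k, hk⟩, by linarith, by ring⟩

/-- **The descent**: `m n = r s`, `m² + 3 n² = 16 r² + s²`, `s` odd. -/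
theorem pair_thirtyNine : ∀ (K : ℕ) (m n r s : ℤ), (m * n).natAbs = K → IsCoprime m n → Odd s →
    m * n = r * s → m ^ 2 + 3 * n ^ 2 = 16 * r ^ 2 + s ^ 2 → m * n = 0 := by
  intro K
  induction K using Nat.strong_induction_on with
  | _ K ih =>
    intro m n r s hK hmn hs hprod hsum
    by_contra hne
    have hr0 : r ≠ 0 := fun h => hne (by rw [hprod, h, zero_mul])
    obtain ⟨a, b, c, d, rfl, rfl, rfl, rfl⟩ := four_numbers hr0 hprod.symm
    have had : IsCoprime a d := hmn.of_mul_left_left.of_mul_right_right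
    have hbc : IsCoprime b c := hmn.of_mul_left_right.of_mul_right_left
    obtain ⟨hbo, hdo⟩ := Int.odd_mul.1 hs
    have hb0 : b ≠ 0 := fun h => by simp [h] at hbo
    have hd0 : d ≠ 0 := fun h => by simp [h] at hdo
    obtain ⟨ha0, hc0⟩ := mul_ne_zero_iff.1 hr0
    obtain ⟨k, hk1, hk2⟩ := FA.Torsion.X21.split_square hb0 hbc
      (A := a ^ 2 - d ^ 2) (B := 16 * a ^ 2 - 3 * d ^ 2) (by linear_combination hsum)
    have h13 : k ∣ 13 := by
      obtain ⟨x, y, hxy⟩ := had.pow (m := 2) (n := 2)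
      exact ⟨x * (b ^ 2 - 3 * c ^ 2) + y * (b ^ 2 - 16 * c ^ 2),
        by linear_combination (x + y) * hk1 - (3 * x + 16 * y) * hk2 - 13 * hxy⟩
    obtain ⟨i, hi⟩ := hdo
    obtain ⟨j, hj⟩ := hbo
    have h8 := congrArg (Int.cast : ℤ → ZMod 8) hk1
    rw [hi, hj] at h8
    push_cast at h8
    obtain rfl : k = 13 := by
      obtain ⟨g1, g2, g3⟩ := mod_eight_thirtyNine a i j
      have h1 : k.natAbs ∣ 13 := Int.natAbs_dvd_natAbs.2 h13
      rcases (Nat.dvd_prime (by norm_num : Nat.Prime 13)).1 h1 with e | e <;>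
        rcases Int.natAbs_eq k with f | f <;> rw [e] at f <;> subst f
      · exact absurd (by simpa using h8) g1
      · exact absurd (by simpa using h8) g2
      · rfl
      · exact absurd (by simpa using h8) g3
    have hA : a ^ 2 + 3 * c ^ 2 = b ^ 2 := by linarith
    have hD : d ^ 2 + (4 * c) ^ 2 = b ^ 2 := by linarith
    obtain ⟨e, rfl⟩ : (2 : ℤ) ∣ c := by
      rcases Int.even_or_odd c with hc | ⟨l, hl⟩
      · exact hc.two_dvd
      · exfalso
        have h := congrArg (Int.cast : ℤ → ZMod 8) (show a ^ 2 = b ^ 2 - 3 * c ^ 2 by linarith)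
        rw [hj, hl] at h
        push_cast at h
        exact odd_sq_sub_three _ _ _ h
    have hdo : Odd d := ⟨i, hi⟩
    have hdc : IsCoprime d (4 * (2 * e)) := by
      have h1 : IsCoprime d (2 * e) := (IsCoprime.pow_left_iff two_pos).1 (by
        rw [show d ^ 2 = b ^ 2 + (2 * e) * (-16 * (2 * e)) by linarith]
        exact hbc.pow_left.add_mul_left_left _)
      exact (show IsCoprime d 4 from ⟨d, -(i * i + i), by rw [hi]; ring⟩).mul_right h1
    obtain ⟨M, N, hdM, hcM, -, hpar⟩ := FA.Torsion.pythagorean_odd_leg hdo hdc hD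
    obtain ⟨R, S, hSo, hRS, hB⟩ := split_four hpar (w := e) (by linarith)
    set B := M ^ 2 + N ^ 2
    have hB2 : B ^ 2 = b ^ 2 := by rw [← hD, hdM, hcM]; ring
    have hBo : Odd B := (Int.odd_pow' two_ne_zero).1 (hB2 ▸ Odd.pow ⟨j, hj⟩)
    have hao : Odd a := (Int.odd_pow' two_ne_zero).1 (by
      rw [show a ^ 2 = b ^ 2 - 2 * (6 * e ^ 2) by linarith]
      exact (Odd.pow ⟨j, hj⟩).sub_even (even_two_mul _))
    obtain ⟨D, hD'⟩ := (hBo.sub_odd hao).two_dvd
    obtain ⟨T, hT⟩ := (hBo.add_odd hao).two_dvd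
    have he0 : e ≠ 0 := right_ne_zero_of_mul hc0
    have hDT : D * T = 3 * e ^ 2 := by
      have : 4 * (D * T) = 4 * (3 * e ^ 2) := by
        linear_combination hB2 - hA - (B + a) * hD' - 2 * D * hT
      linarith
    have hb3 : IsCoprime b 3 := (Int.prime_three.coprime_iff_not_dvd.2 fun h3 => by
      obtain ⟨b', rfl⟩ := h3
      obtain ⟨a', rfl⟩ : (3 : ℤ) ∣ a :=
        Int.prime_three.dvd_of_dvd_pow (n := 2) ⟨3 * b' ^ 2 - (2 * e) ^ 2, by linarith⟩
      exact Int.prime_three.not_isUnit (hbc.isUnit_of_dvd' (dvd_mul_right 3 b')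
        (Int.prime_three.dvd_of_dvd_pow (n := 2) ⟨b' ^ 2 - a' ^ 2, by linarith⟩))).symm
    have hBP : IsCoprime B (3 * e ^ 2) := (IsCoprime.pow_left_iff two_pos).1 (by
      rw [hB2]
      exact (hb3.mul_right hbc.of_mul_right_right.pow_right).pow_left)
    have hco : IsCoprime D T := coprime_of_sum (Or.inl (show D + T = B by omega)) hDT hBP
    have hpos : 0 < D ∧ 0 < T := by
      have hB0 : 0 ≤ B := add_nonneg (sq_nonneg M) (sq_nonneg N)
      rcases pos_and_pos_or_neg_and_neg_of_mul_pos (show 0 < D * T by rw [hDT]; positivity) with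
        h | ⟨h1, h2⟩
      · exact h
      · omega
    obtain ⟨p, q, hpq, he, hpqco⟩ := split_three hpos.1 hpos.2 hco hDT
    refine he0 ?_
    rw [he, mul_comm]
    refine ih (q * p).natAbs ?_ q p R S rfl hpqco.symm hSo (by rw [mul_comm, ← he, hRS]) ?_
    · rw [← hK, Int.natAbs_lt_iff_sq_lt, mul_comm q, ← he]
      have h2 : ∀ x : ℤ, x ≠ 0 → 1 ≤ x ^ 2 := fun x hx => by
        have : 0 < x ^ 2 := by positivity
        omega
      rw [show (a * b * (2 * e * d)) ^ 2 = 4 * e ^ 2 * (a * b * d) ^ 2 by ring]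
      nlinarith [h2 e he0, h2 (a * b * d) (mul_ne_zero (mul_ne_zero ha0 hb0) hd0)]
    · rw [← hB, ← show D + T = B by omega, hpq]; ring

/-- The quartic on coprime integers, the first prime to `3`. -/
theorem quartic_thirtyNine_int {m n Z : ℤ} (hmn : IsCoprime m n) (h3 : ¬ (3 : ℤ) ∣ m)
    (h : Z ^ 2 = m ^ 4 - 58 * m ^ 2 * n ^ 2 + 9 * n ^ 4) : m * n = 0 := by
  set S := m ^ 2 + 3 * n ^ 2 with hS
  have hid : Z ^ 2 + (8 * (m * n)) ^ 2 = S ^ 2 := by rw [hS]; linear_combination h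
  have hSQ : IsCoprime S (m * n) := by
    refine IsCoprime.mul_right ?_ ?_
    · rw [hS, add_comm, sq m]
      exact ((((Int.prime_three.coprime_iff_not_dvd.2 h3)).mul_left hmn.symm.pow_left)
        ).add_mul_left_left _
    · rw [hS, show 3 * n ^ 2 = n * (3 * n) by ring]
      exact hmn.pow_left.add_mul_left_left _
  by_cases hpar : Odd (m + n)
  · have hSo : Odd S := by
      rw [hS, show m ^ 2 + 3 * n ^ 2 = (m + n) ^ 2 + 2 * (n ^ 2 - m * n) by ring]
      exact hpar.pow.add_even (even_two_mul _)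
    have hZo : Odd Z := (Int.odd_pow' two_ne_zero).1 (by
      rw [show Z ^ 2 = S ^ 2 - 2 * (32 * (m * n) ^ 2) by linarith]
      exact hSo.pow.sub_even (even_two_mul _))
    have hco : IsCoprime Z (8 * (m * n)) := by
      obtain ⟨i, hi⟩ := hZo
      refine IsCoprime.mul_right ?_ ((IsCoprime.pow_left_iff two_pos).1 ?_)
      · rw [show (8 : ℤ) = 2 ^ 3 by norm_num]
        exact IsCoprime.pow_right ⟨1, -i, by rw [hi]; ring⟩
      · rw [show Z ^ 2 = S ^ 2 + (m * n) * (-64 * (m * n)) by linarith]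
        exact hSQ.pow_left.add_mul_left_left _
    obtain ⟨M, N, hZM, hMN, -, hpar'⟩ := FA.Torsion.pythagorean_odd_leg hZo hco hid
    obtain ⟨r, s, hs, hrs, hsum⟩ := split_four hpar' (w := m * n) (by linarith)
    refine pair_thirtyNine _ m n r s rfl hmn hs hrs.symm ?_
    rw [← hsum]
    exact (sq_eq_sq₀ (by positivity) (by positivity)).1 (by rw [← hid, hZM, hMN]; ring)
  · exfalso
    rw [Int.not_odd_iff_even] at hpar
    obtain ⟨i, hi⟩ : Odd m := by
      rcases Int.even_or_odd m with hm | hm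
      · exact absurd (hmn.isUnit_of_dvd' hm.two_dvd ((Int.even_add.1 hpar).1 hm).two_dvd)
          (by decide)
      · exact hm
    obtain ⟨j, hj⟩ : Odd n := by
      rcases Int.even_or_odd n with hn | hn
      · exact absurd ((Int.even_add.1 hpar).2 hn) (Int.not_even_iff_odd.2 ⟨i, hi⟩)
      · exact hn
    obtain ⟨u, hu⟩ := (Int.even_mul_succ_self i).two_dvd
    obtain ⟨v, hv⟩ := (Int.even_mul_succ_self j).two_dvd
    have hS4 : S = 4 * (2 * (u + 3 * v) + 1) := by
      rw [hS, hi, hj]; linear_combination 4 * hu + 12 * hv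
    obtain ⟨z, rfl⟩ : (4 : ℤ) ∣ Z := by
      rw [← Int.pow_dvd_pow_iff two_ne_zero]
      exact ⟨(2 * (u + 3 * v) + 1) ^ 2 - 4 * (m * n) ^ 2, by rw [hS4] at hid; linarith⟩
    have := congrArg (Int.cast : ℤ → ZMod 8)
      (show (2 * (u + 3 * v) + 1) ^ 2 - 4 * (2 * (2 * i * j + i + j) + 1) ^ 2 = z ^ 2 by
        rw [hS4, hi, hj] at hid
        linarith)
    push_cast at this
    exact odd_sq_sub_four _ _ _ this

/-- **The rational points of `z² = u⁴ - 58 u² + 9`.** -/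
theorem quartic_thirtyNine {u z : ℚ} (h : z ^ 2 = u ^ 4 - 58 * u ^ 2 + 9) : u = 0 := by
  set p := u.num
  set q : ℤ := (u.den : ℤ)
  have hq : 0 < q := Int.natCast_pos.2 u.den_pos
  have huq : u * (q : ℚ) = p := by exact_mod_cast u.mul_den_eq_num
  have hpq : IsCoprime p q := Int.isCoprime_iff_gcd_eq_one.2 u.reduced
  obtain ⟨W, hW⟩ : IsSquare (p ^ 4 - 58 * p ^ 2 * q ^ 2 + 9 * q ^ 4) := by
    rw [← Rat.isSquare_intCast_iff]
    refine ⟨z * (q : ℚ) ^ 2, ?_⟩
    push_cast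
    rw [← huq]
    linear_combination -((q : ℚ) ^ 4) * h
  refine Rat.num_eq_zero.1 ?_
  by_cases h3 : (3 : ℤ) ∣ p
  · obtain ⟨k, hk⟩ := h3
    show p = 0
    rw [hk] at hW hpq ⊢
    obtain ⟨V, rfl⟩ : (3 : ℤ) ∣ W :=
      Int.prime_three.dvd_of_dvd_pow (n := 2)
        ⟨27 * k ^ 4 - 174 * k ^ 2 * q ^ 2 + 3 * q ^ 4, by linarith⟩
    have := quartic_thirtyNine_int (Z := V) hpq.of_mul_left_right.symm
      (fun h => Int.prime_three.not_isUnit (hpq.isUnit_of_dvd' (dvd_mul_right 3 k) h))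
      (by linarith)
    rw [(mul_eq_zero.1 this).resolve_left hq.ne', mul_zero]
  · exact (mul_eq_zero.1 (quartic_thirtyNine_int (Z := W) hpq h3 (by rw [hW, sq]))).resolve_right
      hq.ne'

/-- **The rational points of the octic**: only those over `x = 0`. -/
theorem octic_thirtyNine_eq_zero {x y : ℚ} (h : y ^ 2 = x ^ 8 - 6 * x ^ 7 + 3 * x ^ 6 +
    12 * x ^ 5 - 23 * x ^ 4 + 12 * x ^ 3 + 3 * x ^ 2 - 6 * x + 1) : x = 0 := by
  by_contra hx
  have := quartic_thirtyNine (u := 2 * (x + 1 / x) - 3) (z := 4 * y / x ^ 2) (by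
    field_simp
    linear_combination 16 * h)
  field_simp at this
  nlinarith [sq_nonneg (4 * x - 3)]

end FA.X0Composite
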