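import Mathlib

/-!
# The rational points of `v² = t (t² + 22 t + 125)`

The only one is `(0, 0)`: the classes of `t` lead to `x⁴ + 22 x² y² + 125 y⁴ = z²`, and two
factorisations make a smaller solution of the same equation.
-/

set_option autoImplicit false
set_option maxHeartbeats 1600000

namespace FA.X0Composite

/-- A product of coprime nonnegative integers that is a fourth power consists of fourth powers. -/
theorem eq_fourth_powers {u v y : ℤ} (hu : 0 ≤ u) (hv : 0 ≤ v) (hc : IsCoprime u v)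
    (h : u * v = y ^ 4) : ∃ m n : ℤ, u = m ^ 4 ∧ v = n ^ 4 := by
  have hc' : Nat.Coprime u.natAbs v.natAbs := Int.isCoprime_iff_gcd_eq_one.1 hc
  have e : u.natAbs * v.natAbs = y.natAbs ^ 4 := by
    rw [← Int.natAbs_mul, h, Int.natAbs_pow]
  obtain ⟨m, hm⟩ := exists_eq_pow_of_mul_eq_pow (Nat.isUnit_iff.2 hc') e
  obtain ⟨n, hn⟩ := exists_eq_pow_of_mul_eq_pow (Nat.isUnit_iff.2 hc'.symm)
    (by rwa [mul_comm] at e)
  refine ⟨m, n, ?_, ?_⟩
  · rw [← Int.natAbs_of_nonneg hu, hm]; push_cast; rfl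
  · rw [← Int.natAbs_of_nonneg hv, hn]; push_cast; rfl

/-- Coprime halves of a sum and a difference. -/
theorem coprime_of_sum {u v C P : ℤ} (hC : u + v = C ∨ v - u = C) (hP : u * v = P)
    (h : IsCoprime C P) : IsCoprime u v := by
  obtain ⟨s, t, hst⟩ := h
  rcases hC with rfl | rfl <;> subst hP
  · exact ⟨s, s + t * u, by linear_combination hst⟩
  · exact ⟨-s, s + t * u, by linear_combination hst⟩

/-- Coprime nonnegative integers with sum `S` and product `125 k⁴`. -/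
theorem split_125 {p q k : ℤ} (hp : 0 ≤ p) (hq : 0 ≤ q) (hpq : IsCoprime p q)
    (h : p * q = 125 * k ^ 4) :
    ∃ a b : ℤ, p + q = 125 * a ^ 4 + b ^ 4 ∧ k ^ 4 = (a * b) ^ 4 ∧ IsCoprime a b := by
  have h5 : Prime (5 : ℤ) := by norm_num
  wlog hd : (5 : ℤ) ∣ p generalizing p q
  · obtain ⟨a, b, e1, e2, e3⟩ := this hq hp hpq.symm (by linear_combination h)
      ((h5.dvd_or_dvd (a := p) (b := q) ⟨25 * k ^ 4, by linear_combination h⟩).resolve_left hd)
    exact ⟨a, b, by rw [add_comm, e1], e2, e3⟩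
  have hq5 : ¬ (5 : ℤ) ∣ q := fun e => h5.not_isUnit (hpq.isUnit_of_dvd' hd e)
  have hco : IsCoprime ((5 : ℤ) ^ 3) q := ((h5.coprime_iff_not_dvd).2 hq5).pow_left
  obtain ⟨P, rfl⟩ : (5 : ℤ) ^ 3 ∣ p :=
    hco.dvd_of_dvd_mul_right ⟨k ^ 4, by linear_combination h⟩
  obtain ⟨a', b', rfl, rfl⟩ := eq_fourth_powers (u := P) (v := q) (y := k)
    (nonneg_of_mul_nonneg_right hp (by norm_num)) hq hpq.of_mul_left_right
    (by linarith)
  exact ⟨a', b', by norm_num, mul_left_cancel₀ (show (125 : ℤ) ≠ 0 by norm_num)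
    (by linear_combination -h), (IsCoprime.pow_iff (by norm_num) (by norm_num)).1
      hpq.of_mul_left_right⟩

theorem odd_odd_ne : ∀ a b c : ZMod 32, (2 * a + 1) ^ 4 + 22 * (2 * a + 1) ^ 2 * (2 * b + 1) ^ 2 +
    125 * (2 * b + 1) ^ 4 ≠ c ^ 2 := by decide +kernel

theorem minus_ne : ∀ i a b : ZMod 16, (2 * i + 1) ^ 2 ≠
    22 * a ^ 2 * b ^ 2 - (125 * a ^ 4 + b ^ 4) := by decide +kernel

theorem both_odd_ne : ∀ i j c : ZMod 8,
    (2 * j + 1) ^ 4 - (2 * i + 1) ^ 4 - 11 * (2 * i + 1) ^ 2 * (2 * j + 1) ^ 2 ≠ c ^ 2 := by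
  decide +kernel

theorem n_even_ne : ∀ i j c : ZMod 4,
    (2 * j) ^ 4 - (2 * i + 1) ^ 4 - 11 * (2 * i + 1) ^ 2 * (2 * j) ^ 2 ≠ (2 * c + 1) ^ 2 := by
  decide +kernel

theorem five_sq : ∀ a b : ZMod 5, a ^ 2 = 2 * b ^ 2 → a = 0 ∧ b = 0 := by decide +kernel

/-- **The quartic**: `x⁴ + 22 x² y² + 125 y⁴` is a square only for `y = 0`. -/
theorem quartic_square : ∀ N : ℕ, ∀ x y z : ℤ, y.natAbs = N → IsCoprime x y → 0 ≤ z →
    x ^ 4 + 22 * x ^ 2 * y ^ 2 + 125 * y ^ 4 = z ^ 2 → y = 0 := by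
  intro N
  induction N using Nat.strong_induction_on with
  | _ N ih =>
  intro x y z hN hxy hz h
  by_contra hy
  have hy2 : 0 < y ^ 2 := by positivity
  set A := x ^ 2 + 11 * y ^ 2 with hA
  have hA0 : 0 < A := by rw [hA]; positivity
  have key : (z - A) * (z + A) = 4 * y ^ 4 := by rw [hA]; linear_combination -h
  have hzA : A ≤ z := (pow_le_pow_iff_left₀ hA0.le hz two_ne_zero).1 (by
    nlinarith [sq_nonneg (y ^ 2)])
  -- not both odd
  have hpar : Odd A := by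
    rcases Int.even_or_odd x with ⟨a, ha⟩ | ⟨a, ha⟩ <;>
      rcases Int.even_or_odd y with ⟨b, hb⟩ | ⟨b, hb⟩
    · exact absurd (hxy.isUnit_of_dvd' (x := (2 : ℤ)) ⟨a, by omega⟩ ⟨b, by omega⟩) (by decide)
    · exact ⟨2 * a ^ 2 + 22 * b ^ 2 + 22 * b + 5, by rw [hA, ha, hb]; ring⟩
    · exact ⟨2 * a ^ 2 + 2 * a + 22 * b ^ 2, by rw [hA, ha, hb]; ring⟩
    · exfalso
      refine odd_odd_ne a b z ?_
      have := congrArg (fun t : ℤ => (t : ZMod 32)) h
      rw [ha, hb] at this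
      push_cast at this
      exact this
  have hzodd : Odd z := by
    rcases Int.even_or_odd z with hze | hzo
    · exfalso
      have : Even ((z - A) * (z + A)) := by rw [key]; exact ⟨2 * y ^ 4, by ring⟩
      rcases Int.even_mul.1 this with e | e
      · exact (Int.not_even_iff_odd.2 (hze.sub_odd hpar)) e
      · exact (Int.not_even_iff_odd.2 (hze.add_odd hpar)) e
    · exact hzo
  obtain ⟨u, hu⟩ := hzodd.sub_odd hpar
  obtain ⟨v, hv⟩ := hzodd.add_odd hpar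
  have huv : u * v = y ^ 4 := by
    rw [hu, hv] at key
    linarith [show (u + u) * (v + v) = 4 * (u * v) by ring]
  have hAy : IsCoprime A y := by
    rw [hA, show x ^ 2 + 11 * y ^ 2 = x ^ 2 + y * (11 * y) by ring]
    exact (hxy.pow_left (m := 2)).add_mul_left_left _
  obtain ⟨m, n, rfl, rfl⟩ := eq_fourth_powers (u := u) (v := v) (by omega) (by omega)
    (coprime_of_sum (Or.inr (by omega)) huv hAy.pow_right) huv
  have hmn : IsCoprime m n := (IsCoprime.pow_iff (by norm_num) (by norm_num)).1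
    (coprime_of_sum (Or.inr (show n ^ 4 - m ^ 4 = A by omega)) huv hAy.pow_right)
  have hy_mn : y ^ 2 = m ^ 2 * n ^ 2 := by
    refine (sq_eq_sq₀ (sq_nonneg y) (mul_nonneg (sq_nonneg m) (sq_nonneg n))).1 ?_
    linear_combination -huv
  have hx : x ^ 2 = n ^ 4 - m ^ 4 - 11 * m ^ 2 * n ^ 2 := by
    have : n ^ 4 - m ^ 4 = x ^ 2 + 11 * y ^ 2 := by rw [← hA]; omega
    linear_combination -this - 11 * hy_mn
  rcases Int.even_or_odd m with ⟨k, hk⟩ | ⟨i, hi⟩
  swap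
  · rcases Int.even_or_odd n with ⟨j, hj⟩ | ⟨j, hj⟩
    · have hxo : Odd x := by
        rcases Int.even_or_odd x with hxe | hxo
        · exfalso
          have hye : Even y := (Int.even_pow' two_ne_zero).1 (by
            rw [hy_mn, hj]; exact ⟨2 * m ^ 2 * j ^ 2, by ring⟩)
          exact absurd (hxy.isUnit_of_dvd' (x := (2 : ℤ)) hxe.two_dvd hye.two_dvd) (by decide)
        · exact hxo
      obtain ⟨c, hc⟩ := hxo
      have := congrArg (fun t : ℤ => (t : ZMod 4)) hx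
      rw [hi, hj, hc, ← two_mul] at this
      push_cast at this
      exact n_even_ne i j c this.symm
    · have := congrArg (fun t : ℤ => (t : ZMod 8)) hx
      rw [hi, hj] at this
      push_cast at this
      exact both_odd_ne i j x this.symm
  obtain ⟨j, hj⟩ : Odd n := by
    rcases Int.even_or_odd n with hne | hno
    · exact absurd (hmn.isUnit_of_dvd' (x := (2 : ℤ)) ⟨k, by omega⟩ hne.two_dvd) (by decide)
    · exact hno
  rw [hk] at hx hy_mn hmn
  set C := n ^ 2 - 22 * k ^ 2 with hC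
  have key2 : (C - x) * (C + x) = 500 * k ^ 4 := by rw [hC]; linear_combination -hx
  have hCo : Odd C :=
    ⟨2 * j ^ 2 + 2 * j - 11 * k ^ 2, by rw [hC, hj]; ring⟩
  have hxo : Odd x := by
    rcases Int.even_or_odd x with hxe | hxo
    · exfalso
      have : Even ((C - x) * (C + x)) := by rw [key2]; exact ⟨250 * k ^ 4, by ring⟩
      rcases Int.even_mul.1 this with e | e
      · exact (Int.not_even_iff_odd.2 (hCo.sub_even hxe)) e
      · exact (Int.not_even_iff_odd.2 (hCo.add_even hxe)) e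
    · exact hxo
  obtain ⟨u', hu'⟩ := hCo.sub_odd hxo
  obtain ⟨v', hv'⟩ := hCo.add_odd hxo
  have huv' : u' * v' = 125 * k ^ 4 := by
    rw [hu', hv'] at key2
    linarith [show (u' + u') * (v' + v') = 4 * (u' * v') by ring]
  have hkn : IsCoprime k n := IsCoprime.of_mul_left_right (x := 2) (by rwa [two_mul])
  have hC5 : IsCoprime C 5 := by
    rw [isCoprime_comm, (show Prime (5 : ℤ) by norm_num).coprime_iff_not_dvd]
    intro e
    replace e := (ZMod.intCast_zmod_eq_zero_iff_dvd C 5).2 e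
    rw [hC] at e
    push_cast at e
    obtain ⟨en, ek⟩ := five_sq n k (by
      rw [show (22 : ZMod 5) = 2 from rfl] at e; linear_combination e)
    rw [ZMod.intCast_zmod_eq_zero_iff_dvd] at en ek
    exact absurd (hkn.isUnit_of_dvd' ek en) (by decide)
  have hCk : IsCoprime C k := by
    rw [hC, show n ^ 2 - 22 * k ^ 2 = n ^ 2 + k * (-22 * k) by ring]
    exact (hkn.symm.pow_left (m := 2)).add_mul_left_left _
  have hcop : IsCoprime u' v' := coprime_of_sum (Or.inl (show u' + v' = C by omega)) huv'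
    ((hC5.pow_right (n := 3)).mul_right hCk.pow_right)
  have hk0 : k ≠ 0 := fun e => hy2.ne' (by rw [hy_mn, e]; ring)
  have hpos : 0 < u' * v' := by rw [huv']; positivity
  obtain ⟨a, b, hab, hkab, habco⟩ : ∃ a b : ℤ, (C = 125 * a ^ 4 + b ^ 4 ∨
      -C = 125 * a ^ 4 + b ^ 4) ∧ k ^ 4 = (a * b) ^ 4 ∧ IsCoprime a b := by
    rcases pos_and_pos_or_neg_and_neg_of_mul_pos hpos with ⟨h1, h2⟩ | ⟨h1, h2⟩
    · obtain ⟨a, b, e1, e2, e3⟩ := split_125 h1.le h2.le hcop huv'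
      exact ⟨a, b, Or.inl (by omega), e2, e3⟩
    · obtain ⟨a, b, e1, e2, e3⟩ := split_125 (k := k) (neg_nonneg.2 h1.le) (neg_nonneg.2 h2.le)
        hcop.neg_neg (by linear_combination huv')
      exact ⟨a, b, Or.inr (by omega), e2, e3⟩
  have hk2 : k ^ 2 = a ^ 2 * b ^ 2 := by
    refine (sq_eq_sq₀ (sq_nonneg k) (mul_nonneg (sq_nonneg a) (sq_nonneg b))).1 ?_
    linear_combination hkab
  rcases hab with e | e
  · have ha0 : a ≠ 0 := fun ha => hk0 (eq_zero_of_pow_eq_zero (n := 2) (by rw [hk2, ha]; ring))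
    have hb0 : b ≠ 0 := fun hb => hk0 (eq_zero_of_pow_eq_zero (n := 2) (by rw [hk2, hb]; ring))
    have hlt : a.natAbs < N := by
      rw [← hN, Int.natAbs_lt_iff_sq_lt, hy_mn]
      have hb1 : 1 ≤ b ^ 2 := by
        have : 0 < b ^ 2 := by positivity
        omega
      have hn1 : 1 ≤ n ^ 2 := by
        have : n ≠ 0 := by omega
        have : 0 < n ^ 2 := by positivity
        omega
      have ha1 : 0 < a ^ 2 := by positivity
      have : (k + k) ^ 2 * n ^ 2 = 4 * a ^ 2 * (b ^ 2 * n ^ 2) := by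
        linear_combination 4 * n ^ 2 * hk2
      rw [this]
      nlinarith [mul_le_mul hb1 hn1 zero_le_one (by positivity)]
    exact ha0 (ih _ hlt b a |n| rfl habco.symm (abs_nonneg n) (by
      rw [sq_abs]; linear_combination -e - 22 * hk2))
  · have e' : n ^ 2 = 22 * a ^ 2 * b ^ 2 - (125 * a ^ 4 + b ^ 4) := by
      linear_combination -e + 22 * hk2
    have := congrArg (fun t : ℤ => (t : ZMod 16)) e'
    rw [hj] at this
    push_cast at this
    exact minus_ne j a b this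

/-- A square product of coprime factors, one of them positive. -/
theorem split_square {p R w : ℤ} (hc : IsCoprime p R) (hR : 0 < R) (h : p * R = w ^ 2) :
    (∃ r, p = r ^ 2) ∧ ∃ s, R = s ^ 2 := by
  have hp : 0 ≤ p := nonneg_of_mul_nonneg_left (h ▸ sq_nonneg w) hR
  refine ⟨?_, ?_⟩
  · obtain ⟨r, hr | hr⟩ := Int.sq_of_isCoprime hc h
    · exact ⟨r, hr⟩
    · exact ⟨0, by nlinarith [sq_nonneg r]⟩
  · obtain ⟨s, hs | hs⟩ := Int.sq_of_isCoprime hc.symm (by rw [mul_comm]; exact h)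
    · exact ⟨s, hs⟩
    · exact absurd hs (by nlinarith [sq_nonneg s])

/-- Modulo `5` twice a nonzero square is no square. -/
theorem not_five_sq {r e s : ℤ} (hr : ¬ (5 : ℤ) ∣ r) (he : ¬ (5 : ℤ) ∣ e)
    (h : (5 : ℤ) ∣ s ^ 2 - 2 * (r * e) ^ 2) : False := by
  have : Fact (Nat.Prime 5) := ⟨by norm_num⟩
  have h' := (ZMod.intCast_zmod_eq_zero_iff_dvd _ 5).2 h
  push_cast at h'
  obtain ⟨-, h2⟩ := five_sq (s : ZMod 5) ((r : ZMod 5) * e) (sub_eq_zero.1 h')
  rcases mul_eq_zero.1 h2 with h | h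
  · exact hr ((ZMod.intCast_zmod_eq_zero_iff_dvd _ 5).1 h)
  · exact he ((ZMod.intCast_zmod_eq_zero_iff_dvd _ 5).1 h)

/-- **The rational points of `v² = t (t² + 22 t + 125)`.** -/
theorem eq_zero_of_cubic_square {t v : ℚ} (h : v ^ 2 = t * (t ^ 2 + 22 * t + 125)) : t = 0 := by
  by_contra ht
  have h5 : Prime (5 : ℤ) := by norm_num
  set p := t.num
  set d : ℤ := (t.den : ℤ)
  have hd : 0 < d := Int.natCast_pos.2 t.den_pos
  have hp0 : p ≠ 0 := Rat.num_ne_zero.2 ht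
  have hpd : IsCoprime p d := Int.isCoprime_iff_gcd_eq_one.2 t.reduced
  have htd : t * (d : ℚ) = p := by exact_mod_cast t.mul_den_eq_num
  obtain ⟨w, hw⟩ : IsSquare (p * d * (p ^ 2 + 22 * p * d + 125 * d ^ 2)) := by
    rw [← Rat.isSquare_intCast_iff]
    refine ⟨v * (d : ℚ) ^ 2, ?_⟩
    push_cast
    rw [← htd]
    linear_combination -((d : ℚ) ^ 4) * h
  have hQ : ∀ a b : ℤ, b ≠ 0 → 0 < a ^ 2 + 22 * a * b + 125 * b ^ 2 := fun a b hb => by
    have : 0 < b ^ 2 := by positivity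
    nlinarith [sq_nonneg (a + 11 * b)]
  have hdp : IsCoprime d (p * (p ^ 2 + 22 * p * d + 125 * d ^ 2)) := hpd.symm.mul_right (by
    rw [show p ^ 2 + 22 * p * d + 125 * d ^ 2 = p ^ 2 + d * (22 * p + 125 * d) by ring]
    exact (hpd.symm.pow_right (n := 2)).add_mul_left_right _)
  obtain ⟨⟨W, hW⟩, ⟨e, he⟩⟩ := split_square (w := w) hdp.symm hd (by linear_combination hw)
  rw [he] at hW hpd
  have he0 : e ≠ 0 := fun e0 => hd.ne' (by rw [he, e0]; ring)
  have hpe : IsCoprime p e := (IsCoprime.pow_right_iff two_pos).1 hpd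
  have hQd := hQ p d hd.ne'
  rw [he] at hQd
  have hW' : p * (p ^ 2 + 22 * p * e ^ 2 + 125 * e ^ 4) = W ^ 2 := by
    rw [← hW]; ring
  have he4 : 0 < e ^ 2 := by positivity
  by_cases h1 : (5 : ℤ) ∣ p
  swap
  · have hc : IsCoprime p (p ^ 2 + 22 * p * e ^ 2 + 125 * e ^ 4) := by
      rw [show p ^ 2 + 22 * p * e ^ 2 + 125 * e ^ 4 = 5 ^ 3 * e ^ 4 + p * (p + 22 * e ^ 2) by ring]
      exact ((((h5.coprime_iff_not_dvd).2 h1).symm.pow_right (n := 3)).mul_right
        hpe.pow_right).add_mul_left_right _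
    obtain ⟨⟨r, hr⟩, s, hs⟩ := split_square hc (by linear_combination hQd) hW'
    rw [hr] at hs hpe
    exact he0 (quartic_square _ r e |s| rfl ((IsCoprime.pow_left_iff two_pos).1 hpe) (abs_nonneg s)
      (by rw [sq_abs]; linear_combination hs))
  have h5e : ¬ (5 : ℤ) ∣ e := fun e5 => h5.not_isUnit (hpe.isUnit_of_dvd' h1 e5)
  obtain ⟨q, hq⟩ := h1
  obtain ⟨W', hW5⟩ : (5 : ℤ) ∣ W := h5.dvd_of_dvd_pow (n := 2)
    ⟨q * (p ^ 2 + 22 * p * e ^ 2 + 125 * e ^ 4), by rw [← hW', hq]; ring⟩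
  have hW2 : q * (5 * q ^ 2 + 22 * q * e ^ 2 + 25 * e ^ 4) = W' ^ 2 :=
    mul_left_cancel₀ (show (25 : ℤ) ≠ 0 by norm_num) (by
      rw [hW5, hq] at hW'; linear_combination hW')
  have hqe : IsCoprime q e := by rw [hq] at hpe; exact hpe.of_mul_left_right
  by_cases h2 : (5 : ℤ) ∣ q
  swap
  · have hc : IsCoprime q (5 * q ^ 2 + 22 * q * e ^ 2 + 25 * e ^ 4) := by
      rw [show 5 * q ^ 2 + 22 * q * e ^ 2 + 25 * e ^ 4 = 5 ^ 2 * e ^ 4 + q * (5 * q + 22 * e ^ 2) by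
        ring]
      exact ((((h5.coprime_iff_not_dvd).2 h2).symm.pow_right (n := 2)).mul_right
        hqe.pow_right).add_mul_left_right _
    obtain ⟨⟨r, hr⟩, s, hs⟩ := split_square hc (by
      nlinarith [hQ (5 * q) (e ^ 2) he4.ne']) hW2
    refine not_five_sq (fun h => h2 (hr ▸ dvd_pow h two_ne_zero)) h5e (s := s)
      ⟨r ^ 4 + 4 * r ^ 2 * e ^ 2 + 5 * e ^ 4, ?_⟩
    rw [← hs, hr]; ring
  obtain ⟨q', hq'⟩ := h2
  obtain ⟨W'', hW55⟩ : (5 : ℤ) ∣ W' := h5.dvd_of_dvd_pow (n := 2)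
    ⟨q' * (5 * q ^ 2 + 22 * q * e ^ 2 + 25 * e ^ 4), by rw [← hW2, hq']; ring⟩
  have hW3 : q' * (25 * q' ^ 2 + 22 * q' * e ^ 2 + 5 * e ^ 4) = W'' ^ 2 :=
    mul_left_cancel₀ (show (25 : ℤ) ≠ 0 by norm_num) (by
      rw [hW55, hq'] at hW2; linear_combination hW2)
  have hqe' : IsCoprime q' e := by rw [hq'] at hqe; exact hqe.of_mul_left_right
  by_cases h3 : (5 : ℤ) ∣ q'
  swap
  · have hc : IsCoprime q' (25 * q' ^ 2 + 22 * q' * e ^ 2 + 5 * e ^ 4) := by
      rw [show 25 * q' ^ 2 + 22 * q' * e ^ 2 + 5 * e ^ 4 = 5 * e ^ 4 + q' * (25 * q' + 22 * e ^ 2)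
        by ring]
      exact ((((h5.coprime_iff_not_dvd).2 h3).symm).mul_right hqe'.pow_right).add_mul_left_right _
    obtain ⟨⟨r, hr⟩, s, hs⟩ := split_square hc (by
      nlinarith [hQ (25 * q') (e ^ 2) he4.ne']) hW3
    refine not_five_sq (fun h => h3 (hr ▸ dvd_pow h two_ne_zero)) h5e (s := s)
      ⟨5 * r ^ 4 + 4 * r ^ 2 * e ^ 2 + e ^ 4, ?_⟩
    rw [← hs, hr]; ring
  obtain ⟨u, hu⟩ := h3
  obtain ⟨X, hX⟩ : (5 : ℤ) ∣ W'' := h5.dvd_of_dvd_pow (n := 2)
    ⟨u * (25 * q' ^ 2 + 22 * q' * e ^ 2 + 5 * e ^ 4), by rw [← hW3, hu]; ring⟩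
  have hW4 : u * (125 * u ^ 2 + 22 * u * e ^ 2 + e ^ 4) = X ^ 2 :=
    mul_left_cancel₀ (show (25 : ℤ) ≠ 0 by norm_num) (by
      rw [hX, hu] at hW3; linear_combination hW3)
  have hue : IsCoprime u e := by rw [hu] at hqe'; exact hqe'.of_mul_left_right
  obtain ⟨⟨r, hr⟩, s, hs⟩ := split_square (p := u) (by
    rw [show 125 * u ^ 2 + 22 * u * e ^ 2 + e ^ 4 = e ^ 4 + u * (125 * u + 22 * e ^ 2) by ring]
    exact hue.pow_right.add_mul_left_right _)
    (by nlinarith [hQ (125 * u) (e ^ 2) he4.ne']) hW4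
  rw [hr] at hs hue
  have hr0 : r ≠ 0 := fun r0 => hp0 (by rw [hq, hq', hu, hr, r0]; ring)
  exact hr0 (quartic_square _ e r |s| rfl ((IsCoprime.pow_left_iff two_pos).1 hue).symm
    (abs_nonneg s) (by rw [sq_abs]; linear_combination hs))

end FA.X0Composite
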