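import Fermat.Agent.IsogenyDegrees.DescentTwenty
import Fermat.Agent.Torsion.TwoTwelveDescent

/-!
# The rational points of `w² = (h² - 1) (h² - 9)`

They have `h ∈ {0, ±1, ±3}`: every other one would make `P² - Q²` and `P² - 9 Q²` squares with
`P` odd, `Q` even and nonzero, and two factorisations make a smaller pair of the same kind.
-/

set_option autoImplicit false
set_option maxHeartbeats 800000

namespace FA.X0Composite

theorem three_dvd_left : ∀ p v : ZMod 3, p ^ 2 + v ^ 2 = 0 → p = 0 := by decide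

theorem odd_sq_add_odd_sq : ∀ a b c : ZMod 4, (2 * a + 1) ^ 2 + (2 * b + 1) ^ 2 ≠ c ^ 2 := by
  decide

/-- The even leg of a square sum with an odd leg. -/
theorem even_of_sq_add {a b c : ℤ} (ha : Odd a) (h : a ^ 2 + b ^ 2 = c ^ 2) : Even b ∧ Odd c := by
  obtain ⟨i, hi⟩ := ha
  rcases Int.even_or_odd b with hb | ⟨j, hj⟩
  · refine ⟨hb, (Int.odd_pow' two_ne_zero).1 (h ▸ ?_)⟩
    exact (Odd.pow ⟨i, hi⟩).add_even (hb.pow_of_ne_zero two_ne_zero)
  · exfalso
    have := congrArg (Int.cast : ℤ → ZMod 4) h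
    rw [hi, hj] at this
    push_cast at this
    exact odd_sq_add_odd_sq _ _ _ this

/-- Positive coprime numbers with product twice a square. -/
theorem split_two {D S Q : ℤ} (hD : 0 < D) (hS : 0 < S) (hco : IsCoprime D S)
    (h : D * S = 2 * Q ^ 2) : ∃ i j : ℤ, D + S = 2 * i ^ 2 + j ^ 2 ∧ Q ^ 2 = (i * j) ^ 2 := by
  wlog h2 : (2 : ℤ) ∣ D generalizing D S
  · obtain ⟨i, j, e1, e2⟩ := this hS hD hco.symm (by linarith)
      ((Int.prime_two.dvd_or_dvd ⟨Q ^ 2, h⟩).resolve_left h2)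
    exact ⟨i, j, by rw [add_comm, e1], e2⟩
  obtain ⟨T, rfl⟩ := h2
  obtain ⟨⟨i, rfl⟩, j, rfl⟩ := split_square (p := T) (R := S) (w := Q)
    hco.of_mul_left_right hS (by linarith)
  exact ⟨i, j, rfl, by linarith⟩

/-- A product written in two ways. -/
theorem four_numbers {i j m n : ℤ} (hi : i ≠ 0) (h : i * j = m * n) :
    ∃ a b c d : ℤ, i = a * c ∧ m = a * b ∧ n = c * d ∧ j = b * d := by
  obtain ⟨a, c, ⟨b, hb⟩, ⟨d, hd⟩, hac⟩ := exists_dvd_and_dvd_of_dvd_mul ⟨j, h.symm⟩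
  refine ⟨a, b, c, d, hac, hb, hd, mul_left_cancel₀ hi ?_⟩
  rw [h, hb, hd, hac]; ring

/-- **The core**: for odd `P`, even `Q` both `P² - Q²` and `P² - 9 Q²` are squares only for
`Q = 0`. -/
theorem two_differences : ∀ (N : ℕ) (P Q A B : ℤ), Q.natAbs = N → Odd P → Even Q → IsCoprime P Q →
    P ^ 2 - Q ^ 2 = A ^ 2 → P ^ 2 - 9 * Q ^ 2 = B ^ 2 → Q = 0 := by
  intro N
  induction N using Nat.strong_induction_on with
  | _ N ih =>
    intro P Q A B hN hP hQe hPQ hA hB
    by_contra hQ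
    have hAo : Odd A := (Int.odd_pow' two_ne_zero).1
      (hA ▸ hP.pow.sub_even (hQe.pow_of_ne_zero two_ne_zero))
    have hBo : Odd B := (Int.odd_pow' two_ne_zero).1
      (hB ▸ hP.pow.sub_even ((hQe.pow_of_ne_zero two_ne_zero).mul_left 9))
    have hAQ : IsCoprime A Q := (IsCoprime.pow_left_iff two_pos).1 (by
      rw [← hA, show P ^ 2 - Q ^ 2 = P ^ 2 + Q * (-Q) by ring]
      exact hPQ.pow_left.add_mul_left_left _)
    obtain ⟨m, n, hAm, hQm, hmn, -⟩ := FA.Torsion.pythagorean_odd_leg hAo hAQ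
      (z := P) (by linear_combination -hA)
    obtain ⟨D, hD⟩ := (hAo.sub_odd hBo).two_dvd
    obtain ⟨S, hS⟩ := (hAo.add_odd hBo).two_dvd
    have hDS : D * S = 2 * Q ^ 2 := by
      have : 4 * (D * S) = 4 * (2 * Q ^ 2) := by
        linear_combination hB - hA - (A + B) * hD - 2 * D * hS
      linarith
    have hco : IsCoprime D S := coprime_of_sum (Or.inl (show D + S = A by omega)) hDS
      ((show IsCoprime A 2 by obtain ⟨k, hk⟩ := hAo; exact ⟨1, -k, by rw [hk]; ring⟩).mul_right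
        hAQ.pow_right)
    -- up to signs `A = 2 i² + j² = m² - n²`, `i j = 2 m n`
    obtain ⟨i, j, m', n', hjo, hij, hsum, hmn', hQ'⟩ : ∃ i j m' n' : ℤ, Odd j ∧
        i * j = 2 * (m' * n') ∧ 2 * i ^ 2 + j ^ 2 = m' ^ 2 - n' ^ 2 ∧ IsCoprime m' n' ∧
        Q ^ 2 = (i * j) ^ 2 := by
      have key : ∀ i j e : ℤ, Q ^ 2 = (i * j) ^ 2 → e = 1 ∨ e = -1 →
          2 * i ^ 2 + j ^ 2 = e * A → ∃ i j m' n' : ℤ, Odd j ∧ i * j = 2 * (m' * n') ∧
            2 * i ^ 2 + j ^ 2 = m' ^ 2 - n' ^ 2 ∧ IsCoprime m' n' ∧ Q ^ 2 = (i * j) ^ 2 := by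
        intro i j e h1 he h3
        have hj : Odd j := (Int.odd_pow' two_ne_zero).1 (by
          rw [show j ^ 2 = e * A - 2 * i ^ 2 by linarith]
          exact (Odd.mul (by rcases he with rfl | rfl <;> decide) hAo).sub_even (even_two_mul _))
        obtain ⟨u, v, huv, hA', hc⟩ : ∃ u v : ℤ, Q = 2 * (u * v) ∧ e * A = u ^ 2 - v ^ 2 ∧
            IsCoprime u v := by
          rcases he with rfl | rfl
          · exact ⟨m, n, by rw [hQm]; ring, by rw [hAm]; ring, hmn⟩
          · exact ⟨n, m, by rw [hQm]; ring, by rw [hAm]; ring, hmn.symm⟩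
        rcases sq_eq_sq_iff_eq_or_eq_neg.1 h1 with q | q
        · exact ⟨i, j, u, v, hj, by rw [← q, huv], by rw [h3, hA'], hc, h1⟩
        · exact ⟨i, j, u, -v, hj, by linear_combination q - huv, by rw [h3, hA']; ring,
            hc.neg_right, h1⟩
      have hQ2 : 0 < Q ^ 2 := by positivity
      rcases pos_and_pos_or_neg_and_neg_of_mul_pos (show 0 < D * S by rw [hDS]; positivity) with
        ⟨h1, h2⟩ | ⟨h1, h2⟩
      · obtain ⟨i, j, e1, e2⟩ := split_two h1 h2 hco hDS
        exact key i j 1 e2 (Or.inl rfl) (by omega)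
      · obtain ⟨i, j, e1, e2⟩ := split_two (Q := Q) (neg_pos.2 h1) (neg_pos.2 h2) hco.neg_neg
          (by linarith)
        exact key i j (-1) e2 (Or.inr rfl) (by omega)
    obtain ⟨i', rfl⟩ : (2 : ℤ) ∣ i :=
      (Int.prime_two.dvd_or_dvd ⟨m' * n', hij⟩).resolve_right fun h =>
        Int.not_even_iff_odd.2 hjo (even_iff_two_dvd.2 h)
    have hi0 : i' ≠ 0 := fun h => hQ (eq_zero_of_pow_eq_zero (n := 2) (by rw [hQ', h]; ring))
    obtain ⟨a, b, c, d, rfl, rfl, rfl, rfl⟩ := four_numbers hi0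
      (j := j) (m := m') (n := n') (by linarith)
    have hac : IsCoprime a c := hmn'.of_mul_left_left.of_mul_right_left
    have had : IsCoprime a d := hmn'.of_mul_left_left.of_mul_right_right
    have hbc : IsCoprime b c := hmn'.of_mul_left_right.of_mul_right_left
    have ha0 : a ≠ 0 := left_ne_zero_of_mul hi0
    have hc0 : c ≠ 0 := right_ne_zero_of_mul hi0
    obtain ⟨hbo, hdo⟩ := Int.odd_mul.1 hjo
    have e0 : a ^ 2 * (b ^ 2 - 8 * c ^ 2) = d ^ 2 * (b ^ 2 + c ^ 2) := by linear_combination -hsum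
    obtain ⟨k, hk⟩ : a ^ 2 ∣ b ^ 2 + c ^ 2 :=
      (had.pow (m := 2) (n := 2)).dvd_of_dvd_mul_left ⟨_, e0.symm⟩
    have hk' : b ^ 2 - 8 * c ^ 2 = d ^ 2 * k :=
      mul_left_cancel₀ (pow_ne_zero 2 ha0) (by rw [e0, hk]; ring)
    obtain rfl : k = 1 := by
      have hc2 : 0 < c ^ 2 := by positivity
      have hkpos : 0 < k := (pos_iff_pos_of_mul_pos
        (show 0 < a ^ 2 * k by rw [← hk]; linarith [sq_nonneg b])).1 (by positivity)
      have h9 : k ∣ 9 := by
        obtain ⟨x, y, hxy⟩ := hbc.pow (m := 2) (n := 2)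
        exact ⟨x * (8 * a ^ 2 + d ^ 2) + y * (a ^ 2 - d ^ 2), by
          linear_combination -9 * hxy + x * (8 * hk + hk') + y * (hk - hk')⟩
      have h3 : ¬ (3 : ℤ) ∣ k := fun h3 => by
        have h : ((b : ZMod 3)) ^ 2 + (c : ZMod 3) ^ 2 = 0 := by
          have := congrArg (Int.cast : ℤ → ZMod 3) hk
          push_cast at this
          rw [this, (ZMod.intCast_zmod_eq_zero_iff_dvd k 3).2 h3, mul_zero]
        exact Int.prime_three.not_isUnit (hbc.isUnit_of_dvd'
          ((ZMod.intCast_zmod_eq_zero_iff_dvd b 3).1 (three_dvd_left _ _ h))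
          ((ZMod.intCast_zmod_eq_zero_iff_dvd c 3).1 (three_dvd_left _ _ (by rwa [add_comm]))))
      have := ((Int.prime_three.coprime_iff_not_dvd.2 h3).pow_left (m := 2)).isUnit_of_dvd'
        (show k ∣ (3 : ℤ) ^ 2 by norm_num; exact h9) dvd_rfl
      rcases Int.isUnit_iff.1 this with h | h <;> omega
    rw [mul_one] at hk hk'
    obtain ⟨hce, hao⟩ := even_of_sq_add hbo hk
    refine hc0 (ih c.natAbs ?_ a c b d rfl hao hce hac (by linarith) (by linarith))
    rw [← hN, Int.natAbs_lt_iff_sq_lt, hQ']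
    have h2 : ∀ x : ℤ, x ≠ 0 → 1 ≤ x ^ 2 := fun x hx => by
      have : 0 < x ^ 2 := by positivity
      omega
    have hb0 : b ≠ 0 := fun h => by simp [h] at hbo
    have hd0 : d ≠ 0 := fun h => by simp [h] at hdo
    rw [show (2 * (a * c) * (b * d)) ^ 2 = 4 * c ^ 2 * (a * b * d) ^ 2 by ring]
    nlinarith [h2 c hc0, h2 (a * b * d) (mul_ne_zero (mul_ne_zero ha0 hb0) hd0)]

/-- The signs of two coprime numbers with square product. -/
theorem eq_sign_squares {x y w : ℤ} (hc : IsCoprime x y) (hx : x ≠ 0) (hy : y ≠ 0)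
    (h : x * y = w ^ 2) :
    ∃ e u v : ℤ, (e = 1 ∨ e = -1) ∧ x = e * u ^ 2 ∧ y = e * v ^ 2 := by
  have hpos : 0 < x * y := lt_of_le_of_ne (h ▸ sq_nonneg w) (mul_ne_zero hx hy).symm
  rcases pos_and_pos_or_neg_and_neg_of_mul_pos hpos with ⟨h1, h2⟩ | ⟨h1, h2⟩
  · obtain ⟨⟨u, hu⟩, v, hv⟩ := split_square hc h2 h
    exact ⟨1, u, v, Or.inl rfl, by rw [hu, one_mul], by rw [hv, one_mul]⟩
  · obtain ⟨⟨u, hu⟩, v, hv⟩ := split_square (w := w) hc.neg_neg (neg_pos.2 h2)
      (by linear_combination h)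
    exact ⟨-1, u, v, Or.inr rfl, by linarith, by linarith⟩

/-- **The rational points of `w² = (h² - 1) (h² - 9)`.** -/
theorem quartic_four_terms {h w : ℚ} (hw : w ^ 2 = (h ^ 2 - 1) * (h ^ 2 - 9)) :
    h = 0 ∨ h ^ 2 = 1 ∨ h ^ 2 = 9 := by
  by_contra hcon
  push Not at hcon
  obtain ⟨h0, h1, h9⟩ := hcon
  set p := h.num
  set q : ℤ := (h.den : ℤ)
  have hq : 0 < q := Int.natCast_pos.2 h.den_pos
  have hhq : h * (q : ℚ) = p := by exact_mod_cast h.mul_den_eq_num
  have hp0 : p ≠ 0 := Rat.num_ne_zero.2 h0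
  have hpq : IsCoprime p q := Int.isCoprime_iff_gcd_eq_one.2 h.reduced
  obtain ⟨W, hW⟩ : IsSquare ((p ^ 2 - q ^ 2) * (p ^ 2 - 9 * q ^ 2)) := by
    rw [← Rat.isSquare_intCast_iff]
    refine ⟨w * (q : ℚ) ^ 2, ?_⟩
    push_cast
    rw [← hhq]
    linear_combination -((q : ℚ) ^ 4) * hw
  have hA : p ^ 2 - q ^ 2 ≠ 0 := fun e => h1 (by
    have : ((p : ℚ)) ^ 2 = (q : ℚ) ^ 2 := by exact_mod_cast sub_eq_zero.1 e
    rw [← hhq, mul_pow] at this
    exact (mul_eq_right₀ (pow_ne_zero 2 (by exact_mod_cast hq.ne'))).1 this)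
  have hB : p ^ 2 - 9 * q ^ 2 ≠ 0 := fun e => h9 (by
    have : ((p : ℚ)) ^ 2 = 9 * (q : ℚ) ^ 2 := by exact_mod_cast sub_eq_zero.1 e
    rw [← hhq, mul_pow] at this
    exact mul_right_cancel₀ (pow_ne_zero 2 (by exact_mod_cast hq.ne')) this)
  obtain ⟨x, y, hxy⟩ := hpq.pow (m := 2) (n := 2)
  by_cases hpar : Odd (p + q)
  · have hco : IsCoprime (p ^ 2 - q ^ 2) (p ^ 2 - 9 * q ^ 2) := by
      obtain ⟨t, ht⟩ : Odd (p ^ 2 - q ^ 2) := by
        rw [show p ^ 2 - q ^ 2 = (p + q) * (p + q - 2 * q) by ring]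
        exact hpar.mul (hpar.sub_even (even_two_mul q))
      have h2 : IsCoprime (p ^ 2 - q ^ 2) 8 := by
        rw [show (8 : ℤ) = 2 ^ 3 by norm_num]
        exact IsCoprime.pow_right ⟨1, -t, by rw [ht]; ring⟩
      have hqq : IsCoprime (p ^ 2 - q ^ 2) (q ^ 2) := ⟨x, x + y, by linear_combination hxy⟩
      rw [show p ^ 2 - 9 * q ^ 2 = (-1) * (8 * q ^ 2) + (p ^ 2 - q ^ 2) * 1 by ring]
      exact (isCoprime_one_right.neg_right.mul_right (h2.mul_right hqq)).add_mul_left_right _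
    obtain ⟨e, u, v, he, hu, hv⟩ := eq_sign_squares hco hA hB (w := W) (by rw [hW, sq])
    rcases he with rfl | rfl
    · obtain ⟨hqe, hpo⟩ : Even q ∧ Odd p := by
        rcases Int.even_or_odd q with hqe | hqo
        · exact ⟨hqe, by simpa [Int.odd_add, hqe] using hpar⟩
        · exfalso
          obtain ⟨-, hpo⟩ := even_of_sq_add hqo (b := u) (c := p) (by linarith)
          exact Int.not_even_iff_odd.2 hpar (hpo.add_odd hqo)
      exact hq.ne' (two_differences _ p q u v rfl hpo hqe hpq (by linarith) (by linarith))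
    · have h3 : (3 : ℤ) ∣ p := by
        refine (ZMod.intCast_zmod_eq_zero_iff_dvd p 3).1 (three_dvd_left _ (v : ZMod 3) ?_)
        have := congrArg (Int.cast : ℤ → ZMod 3) hv
        push_cast at this
        rw [show (9 : ZMod 3) = 0 from rfl] at this
        linear_combination this
      obtain ⟨r, hr⟩ := h3
      rw [hr] at hu hv hpq hp0 hpar
      obtain ⟨v', rfl⟩ : (3 : ℤ) ∣ v := Int.prime_three.dvd_of_dvd_pow (n := 2)
        ⟨3 * q ^ 2 - 3 * r ^ 2, by linarith⟩
      have hqo : Odd q := by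
        rcases Int.even_or_odd q with hqe | hqo
        · exfalso
          have h3r : Odd (3 * r) := by simpa [Int.odd_add, hqe] using hpar
          obtain ⟨-, hqo⟩ := even_of_sq_add h3r (b := u) (c := q) (by linarith)
          exact Int.not_even_iff_odd.2 hqo hqe
        · exact hqo
      have hre : Even r := by
        have h3r : Even (3 * r) := by
          rcases Int.even_or_odd (3 * r) with h | h
          · exact h
          · exact absurd (h.add_odd hqo) (Int.not_even_iff_odd.2 hpar)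
        exact (Int.even_mul.1 h3r).resolve_left (by decide)
      exact right_ne_zero_of_mul hp0
        (two_differences _ q r v' u rfl hqo hre hpq.of_mul_left_right.symm (by linarith)
          (by linarith))
  · rw [Int.not_odd_iff_even] at hpar
    have hqo : Odd q := by
      rcases Int.even_or_odd q with hqe | hqo
      · exact absurd (hpq.isUnit_of_dvd' (x := (2 : ℤ))
          ((Int.even_add.1 hpar).2 hqe).two_dvd hqe.two_dvd) (by decide)
      · exact hqo
    obtain ⟨M, hM⟩ : (8 : ℤ) ∣ p ^ 2 - q ^ 2 := by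
      obtain ⟨i, hi⟩ : Odd p := by
        rcases Int.even_or_odd p with hpe | hpo
        · exact absurd ((Int.even_add.1 hpar).1 hpe) (Int.not_even_iff_odd.2 hqo)
        · exact hpo
      obtain ⟨j, hj⟩ := hqo
      obtain ⟨a, ha⟩ := (Int.even_mul_succ_self i).two_dvd
      obtain ⟨b, hb⟩ := (Int.even_mul_succ_self j).two_dvd
      exact ⟨a - b, by rw [hi, hj]; linear_combination 4 * ha - 4 * hb⟩
    obtain ⟨R, hR⟩ : ∃ R, p ^ 2 - 9 * q ^ 2 = 8 * R := ⟨M - q ^ 2, by linarith⟩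
    obtain ⟨W', rfl⟩ : (8 : ℤ) ∣ W := by
      rw [← Int.pow_dvd_pow_iff two_ne_zero, sq, sq, ← hW, hM, hR]
      exact ⟨M * R, by ring⟩
    have hMR : M * R = W' ^ 2 := mul_left_cancel₀ (show (64 : ℤ) ≠ 0 by norm_num) (by
      rw [hM, hR] at hW; linear_combination hW)
    have hco : IsCoprime M R := ⟨9 * x + y, -(x + y), by
      have hq2 : q ^ 2 = M - R := by linarith
      have : p ^ 2 = 9 * M - R := by linarith
      linear_combination hxy - x * this - y * hq2⟩
    have hM0 : M ≠ 0 := fun e => hA (by rw [hM, e, mul_zero])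
    obtain ⟨e, U, V, he, hU, hV⟩ := eq_sign_squares hco hM0
      (fun e => hB (by rw [hR, e, mul_zero])) hMR
    have hU0 : U ≠ 0 := fun h => hM0 (by rw [hU, h]; ring)
    have hV0 : V ≠ 0 := fun h => hB (by rw [hR, hV, h]; ring)
    rw [hU, hV] at hco
    have hUV : IsCoprime U V := (IsCoprime.pow_iff two_pos two_pos).1
      hco.of_mul_left_right.of_mul_right_right
    rcases he with rfl | rfl
    · obtain ⟨hVe, hUo⟩ := even_of_sq_add hqo (b := V) (c := U) (by linarith)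
      by_cases h3 : (3 : ℤ) ∣ V
      · obtain ⟨V', rfl⟩ := h3
        obtain ⟨p', hp'⟩ : (3 : ℤ) ∣ p := Int.prime_three.dvd_of_dvd_pow (n := 2)
          ⟨3 * q ^ 2 + 24 * V' ^ 2, by linarith⟩
        have hp2 : p ^ 2 = 9 * p' ^ 2 := by rw [hp']; ring
        exact hV0 (by rw [two_differences _ U V' p' q rfl hUo
          ((Int.even_mul.1 hVe).resolve_left (by decide)) hUV.of_mul_right_right
          (by linarith) (by linarith), mul_zero])
      · refine hV0 (two_differences _ (3 * U) V p (3 * q) rfl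
          ((show Odd (3 : ℤ) by decide).mul hUo) hVe
          ((Int.prime_three.coprime_iff_not_dvd.2 h3).mul_left hUV) (by linarith) (by linarith))
    · obtain ⟨hUe, hVo⟩ := even_of_sq_add hqo (b := U) (c := V) (by linarith)
      exact hU0 (two_differences _ V U q p rfl hVo hUe hUV.symm (by linarith) (by linarith))

end FA.X0Composite
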