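import Fermat.Agent.IsogenyDegrees.Kernel
import Fermat.Agent.Root.SummaryCMIsogeny

/-!
# Stable subgroups of order `11` for `j = -121` and `j = -11 · 131³`

`y² = x³ - 38907 x - 2953962` and `y² = x³ - 3267 x - 280962` are models of the curves of conductor
`121` with these invariants; the kernel checks their kernel polynomials, and every curve with the
same invariant is a quadratic twist.
-/

set_option autoImplicit false
set_option linter.style.haveILetI false

noncomputable section

open WeierstrassCurve
open scoped WeierstrassCurve.Affine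

namespace FA.KerPoly

local notation "Qb" => AlgebraicClosure ℚ
local notation "GQ" => AlgebraicClosure ℚ ≃ₐ[ℚ] AlgebraicClosure ℚ

/-- The lower coefficients of a kernel polynomial for `j = -11 · 131³`. -/
def kerElevenA : List ℤ := [-20349931239, -424530315, -134838, 53658, 429]

/-- The lower coefficients of a kernel polynomial for `j = -121`. -/
def kerElevenB : List ℤ := [1480352841, -56169531, -2829222, 10890, 429]

theorem check_eleven_a :
    kernelCheck kerElevenA ⟨0, 0, 0, -38907, -2953962⟩ [true, false, true] [false, true] =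
      true := by
  decide +kernel

theorem check_eleven_b :
    kernelCheck kerElevenB ⟨0, 0, 0, -3267, -280962⟩ [true, false, true] [false, true] =
      true := by
  decide +kernel

/-- A checked short equation gives a stable subgroup on every curve with its invariant. -/
theorem exists_stable_of_short {a b : ℤ} (ha : a ≠ 0) (hb : b ≠ 0)
    (hab : 4 * a ^ 3 + 27 * b ^ 2 ≠ 0) {r : List ℤ} (hr : r.length = 5)
    (hc : kernelCheck r ⟨0, 0, 0, a, b⟩ [true, false, true] [false, true] = true)
    (E : WeierstrassCurve ℚ) [E.IsElliptic]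
    (hj : E.j = 6912 * (a : ℚ) ^ 3 / (4 * (a : ℚ) ^ 3 + 27 * (b : ℚ) ^ 2)) :
    ∃ G : AddSubgroup (E.toAffine⁄Qb).Point, Nat.card G = 11 ∧
      ∀ σ : GQ, ∀ P ∈ G, Affine.Point.map σ.toAlgHom P ∈ G := by
  haveI := Fact.mk (show Nat.Prime 11 by norm_num)
  obtain ⟨d, hd, htw⟩ := FA.CM.ClassOne.exists_quadTwist_eq_short (Int.cast_ne_zero.2 ha)
    (Int.cast_ne_zero.2 hb) (by exact_mod_cast hab) E hj
  set W : WeierstrassCurve ℤ := ⟨0, 0, 0, a, b⟩
  have hW : FA.Twists.quadTwist E d = W.map (Int.castRingHom ℚ) := by
    rw [htw]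
    ext <;> simp [W]
  haveI : (W.map (Int.castRingHom ℚ)).IsElliptic := hW ▸ FA.Root.quadTwist_isElliptic E hd
  obtain ⟨G, hcard, hcyc, hst⟩ := exists_stable_of_check (p := 11) (g := 2) (W := W) (r := r)
    (by norm_num) (by norm_num) (by norm_num) (by norm_num) (by rw [hr]) rfl rfl hc
    (by rw [hr]; decide +kernel)
  obtain ⟨⟨v, hv⟩, hgen⟩ := hcyc.exists_generator
  have hord : addOrderOf v = 11 := by
    rw [← AddSubgroup.addOrderOf_mk v hv,
      addOrderOf_eq_card_of_forall_mem_zmultiples hgen, hcard]
  refine FA.CM.ClassOne.exists_stable_subgroup_of_twist E hd hW hord fun σ => ?_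
  obtain ⟨c, hc⟩ := AddSubgroup.mem_zmultiples_iff.1 (hgen ⟨_, hst σ v hv⟩)
  exact ⟨c, congrArg Subtype.val hc⟩

/-- **`j = -121` and `j = -11 · 131³` give stable subgroups of order `11`.** -/
theorem exists_stable_eleven (E : WeierstrassCurve ℚ) [E.IsElliptic]
    (hj : E.j = -121 ∨ E.j = -24729001) :
    ∃ G : AddSubgroup (E.toAffine⁄Qb).Point, Nat.card G = 11 ∧
      ∀ σ : GQ, ∀ P ∈ G, Affine.Point.map σ.toAlgHom P ∈ G := by
  rcases hj with hj | hj
  · exact exists_stable_of_short (by norm_num) (by norm_num) (by norm_num) rfl check_eleven_b E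
      (hj.trans (by norm_num))
  · exact exists_stable_of_short (by norm_num) (by norm_num) (by norm_num) rfl check_eleven_a E
      (hj.trans (by norm_num))

end FA.KerPoly

end
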