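import Fermat.Agent.IsogenyDegrees.Kernel

/-!
# Stable subgroups of orders `13`, `17`, `37`

`y² + y = x³ + x² - 114 x + 473`, `y² + x y + y = x³ - 3041 x + 64278` and
`y² + x y + y = x³ + x² - 8 x + 6`, of conductors `147`, `14450`, `1225`, have rational isogenies
of degree `13`, `17`, `37`: the kernel checks their kernel polynomials.
-/

set_option autoImplicit false

noncomputable section

open WeierstrassCurve
open scoped WeierstrassCurve.Affine

namespace FA.KerPoly

/-- The lower coefficients of the kernel polynomial for `13`. -/
def kerThirteen : List ℤ := [128143, 61051, -43363, 4761, 263, -47]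

/-- The lower coefficients of the kernel polynomial for `17`. -/
def kerSeventeen : List ℤ :=
  [-2252576338909, 437271444481, -33006143963, 1127218758, -9242705, -543828, 18372, -226]

/-- The lower coefficients of the kernel polynomial for `37`. -/
def kerThirtySeven : List ℤ :=
  [-1953125, 19531250, -36328125, -57031250, 233203125, -193046875, -80500000, 197015625,
    -69743750, -35140625, 28002500, -1902500, -2773750, 668500, 39775, -28850, 3170, -115]

theorem check_thirteen :
    kernelCheck kerThirteen ⟨0, 1, 1, -114, 473⟩ [false, true, true] [false, true] = true := by
  decide +kernel

theorem check_seventeen :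
    kernelCheck kerSeventeen ⟨1, 0, 1, -3041, 64278⟩ [false, false, false, true] [true, true] =
      true := by
  decide +kernel

theorem check_thirtySeven :
    kernelCheck kerThirtySeven ⟨1, 1, 1, -8, 6⟩ [false, true, false, false, true] [false, true] =
      true := by
  decide +kernel

end FA.KerPoly

end
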