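import Fermat.Agent.EC.TorsionCard
import Mathlib.FieldTheory.IsAlgClosed.AlgebraicClosure
import Mathlib.GroupTheory.OrderOfElement
import Fermat.Prelude.Def_FLTPrelim_GaloisRep

/-!
# Stable subgroups from kernel polynomials

For an equation over `ℤ` and a monic `h` of degree `d` the kernel computes `ΨSq_N` and
`h (Φ_g / ΨSq_g)` modulo `h`, on lists of integers, by the ladder of the identities for `(Φ, ΨSq)`
at `2 m` and `2 m + 1`. If both vanish, no `ΨSq_(N / q)` vanishes at a root of `h` and the powers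
`g^i`, `i < d`, are distinct up to sign modulo `N`, the points over the roots of `h` are multiples
of one point of order `N`, so it spans a Galois stable cyclic subgroup of that order. For
`N = p = 2 d + 1` prime the order needs no check.
-/

set_option autoImplicit false

noncomputable section

open Polynomial WeierstrassCurve
open scoped WeierstrassCurve.Affine

namespace FA.KerPoly

/-! ### Arithmetic modulo a monic polynomial, given by its lower coefficients -/

/-- The sum. -/
def addL : List ℤ → List ℤ → List ℤ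
  | [], m => m
  | a :: l, [] => a :: l
  | a :: l, b :: m => (a + b) :: addL l m

/-- A multiple. -/
def scaleL (c : ℤ) : List ℤ → List ℤ
  | [] => []
  | a :: l => c * a :: scaleL c l

/-- The product. -/
def mulL : List ℤ → List ℤ → List ℤ
  | [], _ => []
  | a :: l, m => addL (scaleL a m) (0 :: mulL l m)

/-- The difference. -/
def subL (l m : List ℤ) : List ℤ := addL l (scaleL (-1) m)

/-- One reduction by `X ^ d + r`, `d` the length of `r`. -/
def red (r w : List ℤ) : List ℤ :=
  addL (w.take r.length) (mulL (scaleL (-1) r) (w.drop r.length))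

/-- `k n`, the kernel handing over a numeral in the place of `n`. -/
def forceNat {α : Type} : ℕ → (ℕ → α) → α
  | 0, k => k 0
  | m + 1, k => k (m + 1)

/-- `k c`, the kernel handing over a numeral in the place of `c`. -/
def forceInt {α : Type} : ℤ → (ℤ → α) → α
  | .ofNat n, k => forceNat n fun n => k (.ofNat n)
  | .negSucc n, k => forceNat n fun n => k (.negSucc n)

/-- `k l`, the kernel handing over numerals in the place of the entries. -/
def forceL {α : Type} : List ℤ → (List ℤ → α) → α
  | [], k => k []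
  | a :: l, k => forceInt a fun a => forceL l fun l => k (a :: l)

theorem forceInt_eq {α : Type} (c : ℤ) (k : ℤ → α) : forceInt c k = k c := by
  rcases c with n | n <;> cases n <;> rfl

theorem forceL_eq {α : Type} : ∀ (l : List ℤ) (k : List ℤ → α), forceL l k = k l
  | [], _ => rfl
  | a :: l, k => by simp [forceL, forceInt_eq, forceL_eq l]

/-- The product modulo `X ^ d + r` of numerals. -/
def mulModAux (r : List ℤ) : List ℤ → List ℤ → List ℤ
  | [], _ => []
  | a :: l, m => forceL (mulModAux r l m) fun w => addL (scaleL a m) (red r (0 :: w))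

/-- The product modulo `X ^ d + r`. -/
def mulMod (r l m : List ℤ) : List ℤ := forceL l fun l => forceL m fun m => mulModAux r l m

/-- Whether all coefficients vanish. -/
def zeroL : List ℤ → Bool
  | [] => true
  | a :: l => decide (a = 0) && zeroL l

section eval

variable {F : Type*} [Field F] (x : F)

/-- The value at `x`. -/
def ev : List ℤ → F
  | [] => 0
  | a :: l => (a : F) + x * ev l

theorem ev_addL : ∀ l m : List ℤ, ev x (addL l m) = ev x l + ev x m
  | [], m => by simp [addL, ev]
  | a :: l, [] => by simp [addL, ev]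
  | a :: l, b :: m => by simp only [addL, ev, ev_addL l m, Int.cast_add]; ring

theorem ev_scaleL (c : ℤ) : ∀ l : List ℤ, ev x (scaleL c l) = c * ev x l
  | [] => by simp [scaleL, ev]
  | a :: l => by simp only [scaleL, ev, ev_scaleL c l, Int.cast_mul]; ring

theorem ev_subL (l m : List ℤ) : ev x (subL l m) = ev x l - ev x m := by
  simp [subL, ev_addL, ev_scaleL, sub_eq_add_neg]

theorem ev_mulL : ∀ l m : List ℤ, ev x (mulL l m) = ev x l * ev x m
  | [], m => by simp [mulL, ev]
  | a :: l, m => by simp only [mulL, ev, ev_addL, ev_scaleL, ev_mulL l m]; push_cast; ring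

theorem ev_take_drop : ∀ (n : ℕ) (w : List ℤ),
    ev x w = ev x (w.take n) + x ^ n * ev x (w.drop n)
  | 0, w => by simp [ev]
  | n + 1, [] => by simp [ev]
  | n + 1, a :: w => by
    simp only [List.take_succ_cons, List.drop_succ_cons, ev]
    rw [ev_take_drop n w, pow_succ]; ring

theorem ev_eq_zero_of_zeroL : ∀ l : List ℤ, zeroL l = true → ev x l = 0
  | [], _ => rfl
  | a :: l, h => by
    simp only [zeroL, Bool.and_eq_true, decide_eq_true_eq] at h
    simp [ev, h.1, ev_eq_zero_of_zeroL l h.2]

variable {x} {r : List ℤ} (hx : ev x r + x ^ r.length = 0)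
include hx

theorem ev_red (w : List ℤ) : ev x (red r w) = ev x w := by
  rw [red, ev_addL, ev_mulL, ev_scaleL, ev_take_drop x r.length w]
  push_cast
  linear_combination -(ev x (List.drop r.length w)) * hx

theorem ev_mulModAux : ∀ l m : List ℤ, ev x (mulModAux r l m) = ev x l * ev x m
  | [], m => by simp [mulModAux, ev]
  | a :: l, m => by
    simp only [mulModAux, forceL_eq, ev_addL, ev_scaleL, ev_red hx, ev, ev_mulModAux l m]
    push_cast; ring

theorem ev_mulMod (l m : List ℤ) : ev x (mulMod r l m) = ev x l * ev x m := by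
  rw [mulMod, forceL_eq, forceL_eq, ev_mulModAux hx]

end eval

/-! ### Division polynomials of an equation modulo `h` -/

/-- `(Φ, ΨSq)` at `2 m` from those at `m`, handed over to `f`. -/
def withDouble {α : Type} (r : List ℤ) (W : WeierstrassCurve ℤ) (P D : List ℤ)
    (f : List ℤ → List ℤ → α) : α :=
  forceL (mulMod r P P) fun s₀ => forceL (scaleL 2 (mulMod r P D)) fun s₁ =>
    forceL (mulMod r D D) fun s₂ => forceL (mulMod r s₀ s₂) fun t₀₂ =>
      forceL (mulMod r s₁ s₂) fun t₁₂ => forceL (mulMod r s₂ s₂) fun t₂₂ =>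
        forceL (subL (subL (subL (mulMod r s₀ s₀) (scaleL W.b₄ t₀₂)) (scaleL W.b₆ t₁₂))
          (scaleL W.b₈ t₂₂)) fun A =>
          forceL (addL (addL (addL (scaleL 2 (mulMod r s₁ s₀)) (scaleL W.b₂ t₀₂))
            (scaleL W.b₄ t₁₂)) (scaleL W.b₆ t₂₂)) fun B => f A B

/-- `(Φ, ΨSq)` at `2 m + 1` from those at `m` and `m + 1`, handed over to `f`. -/
def withOdd {α : Type} (r : List ℤ) (W : WeierstrassCurve ℤ) (P D P' D' : List ℤ)
    (f : List ℤ → List ℤ → α) : α :=
  forceL (mulMod r P' P) fun s₀ => forceL (addL (mulMod r P' D) (mulMod r D' P)) fun s₁ =>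
    forceL (mulMod r D' D) fun s₂ => forceL (mulMod r s₀ s₂) fun t₀₂ =>
      forceL (subL (mulMod r s₁ s₁) (scaleL 4 t₀₂)) fun B =>
        forceL (subL (addL (addL (addL (scaleL 2 (mulMod r s₁ s₀)) (scaleL W.b₂ t₀₂))
          (scaleL W.b₄ (mulMod r s₁ s₂))) (scaleL W.b₆ (mulMod r s₂ s₂))) (red r (0 :: B)))
          fun A => f A B

/-- The number with the binary digits `bs`, the lowest first. -/
def valBits : List Bool → ℕ
  | [] => 0
  | c :: bs => 2 * valBits bs + if c then 1 else 0

/-- `(Φ, ΨSq)` at `valBits bs` and at its successor, handed over to `f`. -/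
def withLadder {α : Type} (r : List ℤ) (W : WeierstrassCurve ℤ) :
    List Bool → (List ℤ → List ℤ → List ℤ → List ℤ → α) → α
  | [], f => f [1] [] (red r [0, 1]) [1]
  | c :: bs, f => withLadder r W bs fun P D P' D' => withOdd r W P D P' D' fun A B =>
    if c then withDouble r W P' D' fun A' B' => f A B A' B'
    else withDouble r W P D fun A' B' => f A' B' A B

/-- Horner's rule in homogeneous form at `(P : D)`, from the leading coefficient down. -/
def homR (r P D : List ℤ) : List ℤ → List ℤ → List ℤ → List ℤ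
  | [], v, _ => v
  | c :: l, v, p => forceL (addL (scaleL c p) (mulMod r P v)) fun v' =>
    forceL (mulMod r D p) fun p' => homR r P D l v' p'

/-- **The check**, for the binary digits of `d` and of `g`: `ΨSq (2 d + 1)` and `h (Φ_g / ΨSq_g)`
vanish modulo `h = X ^ d + r`. -/
def kernelCheck (r : List ℤ) (W : WeierstrassCurve ℤ) (bd bg : List Bool) : Bool :=
  withLadder r W bd (fun P D P' D' => zeroL (subL (mulMod r P' D) (mulMod r P D'))) &&
    withLadder r W bg (fun P D _ _ => zeroL (homR r P D (r ++ [1]).reverse [] [1]))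

/-- **The check for any `N`**, for the binary digits of `N` and `g`: `ΨSq N` and `h (Φ_g / ΨSq_g)`
vanish modulo `h = X ^ d + r`. -/
def cycleCheck (r : List ℤ) (W : WeierstrassCurve ℤ) (bn bg : List Bool) : Bool :=
  withLadder r W bn (fun _ D _ _ => zeroL D) &&
    withLadder r W bg (fun P D _ _ => zeroL (homR r P D (r ++ [1]).reverse [] [1]))

/-- The check that `ΨSq m` has no root in common with `h`: a supplied multiple of it is a nonzero
constant `c` modulo `h`. -/
def orderCheck (r : List ℤ) (W : WeierstrassCurve ℤ) (bm : List Bool) (u : List ℤ) (c : ℤ) : Bool :=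
  withLadder r W bm (fun _ D _ _ => decide (c ≠ 0) && zeroL (subL (mulMod r D u) [c]))

/-- The powers `g ^ i`, `i < d`, are distinct up to sign modulo `p`. -/
def powCheck (p g d : ℕ) : Bool :=
  (List.range d).all fun i => (List.range d).all fun j =>
    decide (i = j) || (decide (g ^ i % p ≠ g ^ j % p) && decide ((g ^ i + g ^ j) % p ≠ 0))

section sound

variable {F : Type*} [Field F] {x : F} {r : List ℤ} (hx : ev x r + x ^ r.length = 0)
  {W : WeierstrassCurve ℤ}
include hx

theorem exists_ladder {α : Type} : ∀ (bs : List Bool) (f : List ℤ → List ℤ → List ℤ → List ℤ → α),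
    let V : WeierstrassCurve F := W.map (Int.castRingHom F)
    ∃ P D P' D' : List ℤ, withLadder r W bs f = f P D P' D' ∧
      ![ev x P, ev x D] = FA.EC.numDen V (valBits bs : ℕ) x ∧
      ![ev x P', ev x D'] = FA.EC.numDen V (valBits bs + 1 : ℕ) x
  | [], f => ⟨_, _, _, _, rfl, by simp [FA.EC.numDen, valBits, ev],
      by simp [FA.EC.numDen, valBits, ev, ev_red hx]⟩
  | c :: bs, f => by
    intro V
    simp only [withLadder]
    obtain ⟨P, D, P', D', h, h₁, h₂⟩ := exists_ladder bs (fun P D P' D' =>
      withOdd r W P D P' D' fun A B => if c then withDouble r W P' D' fun A' B' => f A B A' B'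
        else withDouble r W P D fun A' B' => f A' B' A B)
    have hb : V.b₂ = (W.b₂ : F) ∧ V.b₄ = (W.b₄ : F) ∧ V.b₆ = (W.b₆ : F) ∧ V.b₈ = (W.b₈ : F) := by
      simp [V]
    obtain ⟨hb₂, hb₄, hb₆, hb₈⟩ := hb
    have heven : ∀ (m : ℕ) (A B : List ℤ), ![ev x A, ev x B] = FA.EC.numDen V m x →
        ∀ g : List ℤ → List ℤ → α, ∃ A' B', withDouble r W A B g = g A' B' ∧
          ![ev x A', ev x B'] = FA.EC.numDen V (2 * m : ℕ) x := fun m A B hm g => by
      simp only [withDouble, forceL_eq]
      refine ⟨_, _, rfl, ?_⟩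
      have k := FA.EC.numDen_two_mul V x m
      rw [← hm] at k
      generalize FA.EC.numDen V ((2 * m : ℕ) : ℤ) x = u at k ⊢
      have k0 := congrFun k 0
      have k1 := congrFun k 1
      simp [FA.EC.asub, FA.EC.symPair, hb₂, hb₄, hb₆, hb₈] at k0 k1
      funext i
      fin_cases i <;> simp [ev_addL, ev_subL, ev_scaleL, ev_mulMod hx,
        ← k0, ← k1] <;> ring
    have hodd : ∀ g : List ℤ → List ℤ → α, ∃ A B, withOdd r W P D P' D' g = g A B ∧
        ![ev x A, ev x B] = FA.EC.numDen V (2 * valBits bs + 1 : ℕ) x := fun g => by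
      simp only [withOdd, forceL_eq]
      refine ⟨_, _, rfl, ?_⟩
      have k := FA.EC.numDen_two_mul_add_one V x (valBits bs)
      rw [← h₁, ← h₂] at k
      generalize FA.EC.numDen V ((2 * valBits bs + 1 : ℕ) : ℤ) x = u at k ⊢
      have k1 := congrFun k 1
      have k2 := congrFun k 2
      simp [FA.EC.asub, FA.EC.symPair, hb₂, hb₄, hb₆] at k1 k2
      funext i
      fin_cases i <;> simp [ev, ev_red hx, ev_addL, ev_subL, ev_scaleL, ev_mulMod hx,
        ← k2]
      · rw [← k2] at k1; linear_combination k1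
      · ring
    obtain ⟨A, B, hAB, hAB'⟩ := hodd (fun A B =>
      if c then withDouble r W P' D' fun A' B' => f A B A' B'
        else withDouble r W P D fun A' B' => f A' B' A B)
    cases c
    · obtain ⟨A', B', h', h''⟩ := heven _ P D h₁ (fun A' B' => f A' B' A B)
      exact ⟨A', B', A, B, by rw [h, hAB]; exact h', by simpa [valBits] using h'',
        by simpa [valBits] using hAB'⟩
    · obtain ⟨A', B', h', h''⟩ := heven _ P' D' h₂ (fun A' B' => f A B A' B')
      exact ⟨A, B, A', B', by rw [h, hAB]; exact h', by simpa [valBits] using hAB',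
        by rw [h'']; congr 1⟩

theorem homR_spec (P D : List ℤ) (hD : ev x D ≠ 0) : ∀ l v p : List ℤ,
    ev x (homR r P D l v p) * ev x D = ev x D ^ l.length *
      (ev x v * ev x D * (ev x P / ev x D) ^ l.length + ev x p * ev (ev x P / ev x D) l.reverse)
  | [], v, p => by simp [homR, ev]
  | c :: l, v, p => by
    rw [homR, forceL_eq, forceL_eq, homR_spec P D hD l, ev_addL, ev_scaleL, ev_mulMod hx,
      ev_mulMod hx, List.reverse_cons, ev_take_drop _ l.length (l.reverse ++ [c]),
      List.take_left' (List.length_reverse ..), List.drop_left' (List.length_reverse ..)]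
    simp only [ev, List.length_cons, pow_succ]
    field_simp
    ring

/-- The closure: `h` vanishes at `Φ_g / ΨSq_g`. -/
theorem closed_of_homR {g : ℕ} {bg : List Bool} (hg : valBits bg = g)
    (h : withLadder r W bg (fun P D _ _ => zeroL (homR r P D (r ++ [1]).reverse [] [1])) = true)
    (hden : ((W.map (Int.castRingHom F)).ΨSq (g : ℕ)).eval x ≠ 0) :
    let V : WeierstrassCurve F := W.map (Int.castRingHom F)
    ev ((V.Φ (g : ℕ)).eval x / (V.ΨSq (g : ℕ)).eval x) r +
      ((V.Φ (g : ℕ)).eval x / (V.ΨSq (g : ℕ)).eval x) ^ r.length = 0 := by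
  intro V
  obtain ⟨P, D, P', D', hT, h₁, -⟩ := exists_ladder hx (W := W) bg
    (fun P D _ _ => zeroL (homR r P D (r ++ [1]).reverse [] [1]))
  rw [hT] at h
  rw [hg] at h₁
  have hn : ev x P = (V.Φ (g : ℕ)).eval x := congrFun h₁ 0
  have hd : ev x D = (V.ΨSq (g : ℕ)).eval x := congrFun h₁ 1
  have e := ev_eq_zero_of_zeroL x _ h
  have e' := homR_spec hx P D (by rw [hd]; exact hden) (r ++ [1]).reverse [] [1]
  rw [e, zero_mul, eq_comm, mul_eq_zero, hd, hn, List.reverse_reverse] at e'
  have e'' := e'.resolve_left (pow_ne_zero _ hden)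
  simp only [ev, zero_mul, zero_add, Int.cast_one, mul_zero, add_zero, one_mul] at e''
  rw [ev_take_drop _ r.length, List.take_left, List.drop_left] at e''
  simpa [ev] using e''

/-- What the check says at a root of `h`. -/
theorem of_kernelCheck {p g : ℕ} {bd bg : List Bool} (hp : 2 * valBits bd + 1 = p)
    (hg : valBits bg = g) (h : kernelCheck r W bd bg = true) :
    ((W.map (Int.castRingHom F)).ΨSq (p : ℕ)).eval x = 0 ∧
      let V : WeierstrassCurve F := W.map (Int.castRingHom F)
      ((V.ΨSq (g : ℕ)).eval x ≠ 0 →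
        ev ((V.Φ (g : ℕ)).eval x / (V.ΨSq (g : ℕ)).eval x) r +
          ((V.Φ (g : ℕ)).eval x / (V.ΨSq (g : ℕ)).eval x) ^ r.length = 0) := by
  set V : WeierstrassCurve F := W.map (Int.castRingHom F) with hV
  simp only [kernelCheck, Bool.and_eq_true] at h
  refine ⟨?_, fun hden => ?_⟩
  · obtain ⟨P, D, P', D', hT, h₁, h₂⟩ := exists_ladder hx (W := W) bd
      (fun P D P' D' => zeroL (subL (mulMod r P' D) (mulMod r P D')))
    rw [hT] at h
    rw [← hV] at h₁ h₂
    have e := ev_eq_zero_of_zeroL x _ h.1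
    rw [ev_subL, ev_mulMod hx, ev_mulMod hx] at e
    have k := congrFun (FA.EC.numDen_two_mul_add_one V x (valBits bd)) 2
    rw [← h₁, ← h₂] at k
    simp [FA.EC.asub, FA.EC.symPair] at k
    have hu : FA.EC.numDen V (2 * valBits bd + 1 : ℕ) x 1 = (V.ΨSq (p : ℕ)).eval x := by
      rw [← hp]; rfl
    push_cast at hu
    rw [← hu]
    linear_combination -k + (ev x P' * ev x D - ev x P * ev x D') * e
  · exact closed_of_homR hx hg h.2 hden

/-- What the general check says at a root of `h`. -/
theorem of_cycleCheck {N g : ℕ} {bn bg : List Bool} (hn : valBits bn = N) (hg : valBits bg = g)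
    (h : cycleCheck r W bn bg = true) :
    ((W.map (Int.castRingHom F)).ΨSq (N : ℕ)).eval x = 0 ∧
      let V : WeierstrassCurve F := W.map (Int.castRingHom F)
      ((V.ΨSq (g : ℕ)).eval x ≠ 0 →
        ev ((V.Φ (g : ℕ)).eval x / (V.ΨSq (g : ℕ)).eval x) r +
          ((V.Φ (g : ℕ)).eval x / (V.ΨSq (g : ℕ)).eval x) ^ r.length = 0) := by
  simp only [cycleCheck, Bool.and_eq_true] at h
  refine ⟨?_, closed_of_homR hx hg h.2⟩
  obtain ⟨P, D, P', D', hT, h₁, -⟩ := exists_ladder hx (W := W) bn (fun _ D _ _ => zeroL D)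
  rw [hT] at h
  rw [hn] at h₁
  exact (congrFun h₁ 1).symm.trans (ev_eq_zero_of_zeroL x _ h.1)

/-- What the check of the order says at a root of `h`. -/
theorem of_orderCheck {m : ℕ} {bm : List Bool} {u : List ℤ} {c : ℤ} [CharZero F]
    (hm : valBits bm = m) (h : orderCheck r W bm u c = true) :
    ((W.map (Int.castRingHom F)).ΨSq (m : ℕ)).eval x ≠ 0 := by
  obtain ⟨P, D, P', D', hT, h₁, -⟩ := exists_ladder hx (W := W) bm
    (fun _ D _ _ => decide (c ≠ 0) && zeroL (subL (mulMod r D u) [c]))
  rw [orderCheck, hT, Bool.and_eq_true, decide_eq_true_eq] at h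
  rw [hm] at h₁
  intro e
  have e' := ev_eq_zero_of_zeroL x _ h.2
  rw [ev_subL, ev_mulMod hx, show ev x D = 0 from (congrFun h₁ 1).trans e] at e'
  simp [ev, h.1] at e'

end sound

local notation "Qb" => AlgebraicClosure ℚ

/-- A list as a polynomial. -/
def polyL : List ℤ → Qb[X]
  | [] => 0
  | a :: l => C (a : Qb) + X * polyL l

theorem eval_polyL (x : Qb) : ∀ l : List ℤ, (polyL l).eval x = ev x l
  | [] => by simp [polyL, ev]
  | a :: l => by simp [polyL, ev, eval_polyL x l]

theorem degree_polyL_lt : ∀ l : List ℤ, (polyL l).degree < (l.length : ℕ)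
  | [] => by simp [polyL]
  | a :: l => by
    rw [polyL, List.length_cons]
    refine (degree_add_le _ _).trans_lt (max_lt ?_ ?_)
    · exact degree_C_le.trans_lt (by exact_mod_cast Nat.succ_pos _)
    · rcases eq_or_ne (polyL l) 0 with e | e
      · rw [e, mul_zero, degree_zero]; exact WithBot.bot_lt_coe _
      · rw [degree_mul, degree_X, degree_eq_natDegree e]
        have h := degree_polyL_lt l
        rw [degree_eq_natDegree e, Nat.cast_lt] at h
        exact_mod_cast (by omega : 1 + (polyL l).natDegree < l.length + 1)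

/-- An automorphism fixes the value of a list. -/
theorem map_ev (σ : Qb ≃ₐ[ℚ] Qb) (x : Qb) : ∀ l : List ℤ, σ (ev x l) = ev (σ x) l
  | [] => by simp [ev]
  | a :: l => by simp [ev, map_ev σ x l]

/-- **A kernel polynomial gives a stable cyclic subgroup**: `h` has as many roots as there are
classes `± g ^ i` modulo `N`, its roots are closed under `g`, and the points over them have exact
order `N`. -/
theorem exists_cyclic_of_roots {N g : ℕ} (hN : 2 ≤ N) (hcop : g.Coprime N)
    {W : WeierstrassCurve ℤ} {r : List ℤ} (hr0 : r ≠ [])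
    [(W.map (Int.castRingHom ℚ)).IsElliptic]
    (hcl : ∀ x : Qb, ev x r + x ^ r.length = 0 →
      ((W.map (Int.castRingHom Qb)).ΨSq (N : ℕ)).eval x = 0 ∧
        (((W.map (Int.castRingHom Qb)).ΨSq (g : ℕ)).eval x ≠ 0 →
          ev (((W.map (Int.castRingHom Qb)).Φ (g : ℕ)).eval x /
              ((W.map (Int.castRingHom Qb)).ΨSq (g : ℕ)).eval x) r +
            (((W.map (Int.castRingHom Qb)).Φ (g : ℕ)).eval x /
              ((W.map (Int.castRingHom Qb)).ΨSq (g : ℕ)).eval x) ^ r.length = 0))
    (hordN : ∀ x : Qb, ev x r + x ^ r.length = 0 → ∀ q : ℕ, q.Prime → q ∣ N →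
      ((W.map (Int.castRingHom Qb)).ΨSq (N / q : ℕ)).eval x ≠ 0)
    (hpow : powCheck N g r.length = true) :
    ∃ G : AddSubgroup ((W.map (Int.castRingHom ℚ)).toAffine⁄Qb).Point,
      Nat.card G = N ∧ IsAddCyclic G ∧
        ∀ σ : Qb ≃ₐ[ℚ] Qb, ∀ P ∈ G, Affine.Point.map σ.toAlgHom P ∈ G := by
  set E : WeierstrassCurve ℚ := W.map (Int.castRingHom ℚ) with hE
  set V := E.toAffine⁄Qb with hV
  have : V.IsElliptic := inferInstanceAs (E.map (algebraMap ℚ Qb)).IsElliptic
  have hVe : (V : WeierstrassCurve Qb) = W.map (Int.castRingHom Qb) := by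
    simp [hV, hE, WeierstrassCurve.baseChange, WeierstrassCurve.map_map,
      RingHom.ext_int ((algebraMap ℚ Qb).comp (Int.castRingHom ℚ)) (Int.castRingHom Qb)]
  set d := r.length with hdd
  set h : Qb[X] := X ^ d + polyL r with hh
  have hdeg : h.degree = d := by
    rw [hh, degree_add_eq_left_of_degree_lt (by rw [degree_X_pow]; exact degree_polyL_lt r),
      degree_X_pow]
  have h0 : h ≠ 0 := fun e => by rw [e, degree_zero] at hdeg; exact WithBot.bot_ne_coe hdeg
  have hroot : ∀ x : Qb, h.IsRoot x ↔ ev x r + x ^ d = 0 := fun x => by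
    rw [IsRoot.def, hh, eval_add, eval_pow, eval_X, eval_polyL, add_comm]
  -- over a root sits a point of order `p`, and `g` moves it to a point over a root
  have key : ∀ P : V.Point, P ≠ 0 → h.IsRoot (FA.EC.xc P) →
      N • P = 0 ∧ (g • P ≠ 0 → h.IsRoot (FA.EC.xc (g • P))) := fun P hP hr => by
    obtain ⟨x, y, hns, rfl⟩ := FA.EC.exists_some_of_ne_zero hP
    obtain ⟨h1, h2⟩ := hcl x ((hroot x).mp hr)
    rw [← hVe] at h1
    simp only [← hVe] at h2
    refine ⟨(FA.EC.nsmul_eq_zero_iff hns N).mpr h1, fun hne => ?_⟩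
    have hne' : (g : ℤ) • Affine.Point.some x y hns ≠ 0 := by rwa [natCast_zsmul]
    have e := FA.EC.xc_zsmul hns (g : ℤ) hne'
    rw [natCast_zsmul] at e
    rw [hroot, e]
    exact h2 fun e0 => hne ((FA.EC.nsmul_eq_zero_iff hns g).mpr e0)
  obtain ⟨x₀, hx₀⟩ := IsAlgClosed.exists_root h (by
    rw [hdeg]; exact_mod_cast (show d ≠ 0 from fun e => hr0 (List.eq_nil_of_length_eq_zero e)))
  obtain ⟨y₀, hns⟩ := FA.EC.exists_nonsingular V x₀
  set P : V.Point := .some x₀ y₀ hns with hPdef
  have hP0 : P ≠ 0 := Affine.Point.some_ne_zero hns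
  have hord : addOrderOf P = N := addOrderOf_eq_of_nsmul_and_div_prime_nsmul (by omega)
    (key P hP0 hx₀).1 fun q hq hqN e => by
      have h' := hordN x₀ ((hroot x₀).mp hx₀) q hq hqN
      rw [← hVe] at h'
      exact h' ((FA.EC.nsmul_eq_zero_iff hns (N / q)).mp e)
  have hne : ∀ i, g ^ i • P ≠ 0 := fun i e => by
    have h' := Nat.eq_one_of_dvd_coprimes (hcop.pow_left i)
      (hord ▸ addOrderOf_dvd_of_nsmul_eq_zero e) dvd_rfl
    omega
  have hX : ∀ i, h.IsRoot (FA.EC.xc (g ^ i • P)) := by
    intro i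
    induction i with
    | zero => rw [pow_zero, one_nsmul]; exact hx₀
    | succ i ih =>
      rw [pow_succ', mul_nsmul']
      exact (key _ (hne i) ih).2 (by rw [← mul_nsmul', ← pow_succ']; exact hne _)
  -- these are all the roots
  have hinj : Set.InjOn (fun i => FA.EC.xc (g ^ i • P)) (Finset.range d : Set ℕ) := by
    intro i hi j hj e
    simp only [Finset.coe_range, Set.mem_Iio] at hi hj
    by_contra hij
    simp only [powCheck, List.all_eq_true, List.mem_range, Bool.or_eq_true, decide_eq_true_eq,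
      Bool.and_eq_true] at hpow
    obtain ⟨h1, h2⟩ := (hpow i hi j hj).resolve_left hij
    rcases FA.EC.eq_or_eq_neg_of_xc_eq (hne i) (hne j) e with e | e
    · rw [nsmul_eq_nsmul_iff_modEq, hord] at e
      exact h1 e
    · rw [eq_neg_iff_add_eq_zero, ← add_nsmul] at e
      exact h2 (Nat.mod_eq_zero_of_dvd (hord ▸ addOrderOf_dvd_of_nsmul_eq_zero e))
  have hall : (Finset.range d).image (fun i => FA.EC.xc (g ^ i • P)) = h.roots.toFinset := by
    refine Finset.eq_of_subset_of_card_le (fun z hz => ?_) ?_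
    · obtain ⟨i, -, rfl⟩ := Finset.mem_image.mp hz
      exact Multiset.mem_toFinset.mpr ((mem_roots h0).mpr (hX i))
    · rw [Finset.card_image_of_injOn hinj, Finset.card_range]
      refine (Multiset.toFinset_card_le _).trans ((card_roots' h).trans ?_)
      rw [natDegree_eq_of_degree_eq_some hdeg]
  refine ⟨AddSubgroup.zmultiples P, by rw [Nat.card_zmultiples, hord], inferInstance,
    fun σ Q hQ => ?_⟩
  obtain ⟨k, rfl⟩ := AddSubgroup.mem_zmultiples_iff.mp hQ
  rw [map_zsmul]
  refine AddSubgroup.zsmul_mem _ ?_ k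
  set Q := Affine.Point.map σ.toAlgHom P with hQdef
  have hQ0 : Q ≠ 0 := fun e => hP0 (Affine.Point.map_injective σ.toAlgHom
    (e.trans (map_zero _).symm))
  have hrQ : h.IsRoot (FA.EC.xc Q) := by
    have e : FA.EC.xc Q = σ x₀ := by rw [hQdef, hPdef, Affine.Point.map_some]; rfl
    rw [e, hroot, ← map_ev, ← map_pow, ← map_add, (hroot x₀).mp hx₀, map_zero]
  obtain ⟨i, -, hi⟩ := Finset.mem_image.mp
    (hall ▸ Multiset.mem_toFinset.mpr ((mem_roots h0).mpr hrQ))
  rcases FA.EC.eq_or_eq_neg_of_xc_eq hQ0 (hne i) hi.symm with e | e <;> rw [e]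
  · exact AddSubgroup.nsmul_mem _ (AddSubgroup.mem_zmultiples P) _
  · exact neg_mem (AddSubgroup.nsmul_mem _ (AddSubgroup.mem_zmultiples P) _)

/-- **A checked kernel polynomial gives a stable subgroup of order `p`.** -/
theorem exists_stable_of_check {p g : ℕ} (hp : p.Prime) (h5 : 5 ≤ p) (hg : 1 ≤ g) (hgp : g < p)
    {W : WeierstrassCurve ℤ} {r : List ℤ} (hd : 2 * r.length + 1 = p) {bd bg : List Bool}
    (hbd : 2 * valBits bd + 1 = p) (hbg : valBits bg = g) (hc : kernelCheck r W bd bg = true)
    (hpow : powCheck p g r.length = true)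
    [(W.map (Int.castRingHom ℚ)).IsElliptic] :
    ∃ G : AddSubgroup ((W.map (Int.castRingHom ℚ)).toAffine⁄Qb).Point,
      Nat.card G = p ∧ IsAddCyclic G ∧
        ∀ σ : Qb ≃ₐ[ℚ] Qb, ∀ P ∈ G, Affine.Point.map σ.toAlgHom P ∈ G :=
  exists_cyclic_of_roots hp.two_le
    ((hp.coprime_iff_not_dvd.mpr fun e => by have := Nat.le_of_dvd (by omega) e; omega).symm)
    (fun e => by rw [e] at hd; simp at hd; omega) (fun x hx => of_kernelCheck hx hbd hbg hc)
    (fun x _ q hq hqp => by
      rw [(Nat.prime_dvd_prime_iff_eq hq hp).mp hqp, Nat.div_self hp.pos]; simp) hpow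

end FA.KerPoly

end
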