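import Fermat.Agent.IsogenyDegrees.DescentFortyNine

/-!
# The quotient of the Klein quartic by the cyclic permutation

At a point `(X : Y : 1)` of `x³ y + y³ z + z³ x = 0` the symmetric ratios `u = (X Y + X + Y) / S²`,
`v = X Y / S³`, `S = X + Y + 1`, satisfy `7 v² + v (u² - 5 u + 1) + u⁴ = 0`, a model of `X₀(49)`,
whose only rational points with `v ≠ 0` are `(0, -1/7)`.
-/

set_option autoImplicit false

namespace FA.X0Composite

/-- **The quotient relation**. -/
theorem klein_quotient {K : Type*} [Field K] {X Y : K} (hF : X ^ 3 * Y + Y ^ 3 + X = 0)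
    (hS : X + Y + 1 ≠ 0) :
    7 * (X * Y / (X + Y + 1) ^ 3) ^ 2 + X * Y / (X + Y + 1) ^ 3 *
      (((X * Y + X + Y) / (X + Y + 1) ^ 2) ^ 2 - 5 * ((X * Y + X + Y) / (X + Y + 1) ^ 2) + 1) +
        ((X * Y + X + Y) / (X + Y + 1) ^ 2) ^ 4 = 0 := by
  field_simp
  linear_combination (X * Y ^ 3 + Y + X ^ 3) * hF

/-- **The rational points of the quotient.** -/
theorem klein_quotient_points {u v : ℚ} (h : 7 * v ^ 2 + v * (u ^ 2 - 5 * u + 1) + u ^ 4 = 0)
    (hv : v ≠ 0) : u = 0 ∧ v = -1 / 7 := by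
  suffices hu : u = 0 by
    subst hu
    refine ⟨rfl, mul_left_cancel₀ hv ?_⟩
    linear_combination h / 7
  by_contra hu
  obtain ⟨q, hq⟩ : ∃ q, (14 * v + (u ^ 2 - 5 * u + 1)) / u ^ 2 = q := ⟨_, rfl⟩
  obtain ⟨r, hr⟩ : ∃ r, (u ^ 2 - 5 * u + 1) / u ^ 2 = r := ⟨_, rfl⟩
  have hrq : (r - q) * (r + q) = 28 := by
    rw [← hr, ← hq]
    field_simp
    linear_combination -28 * h
  obtain ⟨k, hk⟩ : ∃ k, r - q = 2 * k := ⟨(r - q) / 2, by ring⟩
  have hk0 : k ≠ 0 := fun h0 => by rw [hk, h0] at hrq; norm_num at hrq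
  have hsum : r + q = 14 / k := by
    rw [eq_div_iff hk0]
    rw [hk] at hrq
    linear_combination hrq / 2
  have hr2 : (2 / u - 5) ^ 2 = 21 + 4 * r := by
    rw [← hr]
    field_simp
    ring
  refine hk0 ?_
  have := eq_zero_of_cubic_fortyNine (x := 4 * k) (v := 4 * k * (2 / u - 5)) (by
    rw [mul_pow, hr2, show r = k + 7 / k by
      linear_combination hk / 2 + hsum / 2]
    field_simp
    ring)
  linarith

end FA.X0Composite
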