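import Fermat.Agent.Torsion.Order27Field
import Fermat.Agent.Torsion.Order49

/-!
# A point of order `49` over any field

If `P` has order `49`, the ratio `d` of the differences of the abscissae of `7 P`, `14 P`, `21 P` is
Kubert's parameter of the point `7 P` of order `7`; `d³ - 8 d² + 5 d + 1` is not zero, as it divides
the discriminant, and `d⁴ (d - 1)` is a seventh power.
-/

set_option autoImplicit false
set_option linter.unusedSectionVars false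

noncomputable section

open WeierstrassCurve
open FA.Thirteen (tateCurve add_eq_some eq_or_eq_neg_of_X_eq)

namespace FA.Torsion

variable {K : Type*} [Field K] [DecidableEq K] {W : WeierstrassCurve K} [W.IsElliptic]

/-- **The data of a point of order `49`.** -/
theorem order_49_data (P : W.toAffine.Point) (hP : addOrderOf P = 49) :
    ∃ (x₁ y₁ x₂ y₂ x₃ y₃ : K) (h₁ : W.toAffine.Nonsingular x₁ y₁)
      (h₂ : W.toAffine.Nonsingular x₂ y₂) (h₃ : W.toAffine.Nonsingular x₃ y₃) (d z : K),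
      7 • P = Affine.Point.some x₁ y₁ h₁ ∧ 2 • 7 • P = Affine.Point.some x₂ y₂ h₂ ∧
      3 • 7 • P = Affine.Point.some x₃ y₃ h₃ ∧
      x₃ - x₁ ≠ 0 ∧ d * (x₃ - x₁) = x₂ - x₁ ∧ d ≠ 0 ∧ d - 1 ≠ 0 ∧
      d ^ 3 - 8 * d ^ 2 + 5 * d + 1 ≠ 0 ∧ z ^ 7 = d ^ 4 * (d - 1) := by
  have hk : ∀ k, ¬ 49 ∣ k → k • P ≠ 0 := fun k hk h =>
    hk (hP ▸ addOrderOf_dvd_iff_nsmul_eq_zero.mpr h)
  obtain ⟨b, c, h0, hE, e, s, t, he, -, hs, hx⟩ := exists_tate_coord (7 • P)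
    (by rw [← mul_nsmul']; exact hk _ (by norm_num))
    (by rw [← mul_nsmul']; exact hk _ (by norm_num))
  obtain ⟨Q, hQ⟩ : ∃ Q, e.symm P = Q := ⟨_, rfl⟩
  have hQP : addOrderOf Q = 49 := by rw [← hQ, AddEquiv.addOrderOf_eq, hP]
  have hT : 7 • Q = Affine.Point.some 0 0 h0 := by
    rw [← hQ, ← map_nsmul, ← he, AddEquiv.symm_apply_apply]
  have hQ0 : ∀ k, ¬ 49 ∣ k → k • Q ≠ 0 := fun k hk h =>
    hk (hQP ▸ addOrderOf_dvd_iff_nsmul_eq_zero.mpr h)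
  have h49 : 49 • Q = 0 := hQP ▸ addOrderOf_nsmul_eq_zero Q
  have hmul : ∀ k, k • Affine.Point.some 0 0 h0 = (k * 7) • Q := fun k => by
    rw [← hT, mul_nsmul']
  obtain ⟨hN, eN⟩ := tate_neg (b := b) (c := c) (h0 := h0)
  obtain ⟨hT2, eT2⟩ := tate_two (b := b) (c := c) (h0 := h0)
  obtain ⟨hT3, eT3⟩ := tate_three (b := b) (c := c) (h0 := h0)
  have hb := tate_b_ne_zero b c
  have hc : c ≠ 0 := fun hc => hQ0 28 (by norm_num) (by
    rw [← show 4 * 7 = 28 from rfl, ← hmul, succ_nsmul, eT3]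
    simp only [hc, sub_zero, ← eN, neg_add_cancel])
  obtain ⟨d, hd⟩ : ∃ d, b / c = d := ⟨_, rfl⟩
  have hbd : b = d * c := by rw [← hd, div_mul_cancel₀ _ hc]
  have hcd : c = d ^ 2 - d := by
    obtain ⟨hT4, eT4⟩ := tate_four (b := b) (c := c) (h0 := h0) hc
    have h7 : (4 : ℕ) • Affine.Point.some 0 0 h0 = -((3 : ℕ) • Affine.Point.some 0 0 h0) :=
      eq_neg_of_add_eq_zero_left (by rw [← add_nsmul, hmul]; exact h49)
    rw [eT4, eT3, Affine.Point.neg_some, Affine.Point.some.injEq] at h7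
    rw [← h7.1, hd]
    ring
  have hd0 : d ≠ 0 := fun h => hb (by rw [hbd, h, zero_mul])
  have hd1 : d - 1 ≠ 0 := fun h => hc (by rw [hcd, sub_eq_zero.mp h]; ring)
  have hgood : ∀ k, 1 ≤ k → k ≤ 6 → ∃ x y h,
      k • Q = Affine.Point.some (W' := (tateCurve b c).toAffine) x y h ∧
        x ≠ 0 ∧ x ≠ b ∧ x ≠ c := by
    intro k h1 h6
    rcases hh : k • Q with _ | ⟨x, y, h⟩
    · exact absurd hh (hQ0 k (by omega))
    have key : ∀ {x' y' : K} {h' : (tateCurve b c).toAffine.Nonsingular x' y'} (j : ℕ), j * 7 < 43 →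
        7 ≤ j * 7 → (j * 7) • Q = Affine.Point.some x' y' h' → x ≠ x' := by
      intro x' y' h' j hj hj' e'
      rintro rfl
      rcases eq_or_eq_neg_of_X_eq (h₁ := h) (h₂ := h') with e'' | e'' <;>
        rw [← e', ← hh] at e''
      · have := nsmul_eq_nsmul_iff_modEq.mp e''
        rw [hQP] at this
        unfold Nat.ModEq at this
        omega
      · exact hQ0 (k + j * 7) (by omega) (by rw [add_nsmul, e'', neg_add_cancel])
    exact ⟨x, y, h, rfl, key 1 (by norm_num) (by norm_num) hT,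
      key 2 (by norm_num) (by norm_num) (by rw [← hmul, eT2]),
      key 3 (by norm_num) (by norm_num) (by rw [← hmul, eT3])⟩
  have hne : ∀ {x y : K}, (tateCurve b c).toAffine.Equation x y → x ≠ 0 → x ≠ b → x ≠ c →
      kubertFun7 b c d x y ≠ 0 := fun {x y} h h0' hb' hc' hz => by
    have := kubertFun7_mul_neg hcd hbd hb' hc' h
    rw [hz, zero_mul] at this
    exact pow_ne_zero 7 (neg_ne_zero.mpr h0') this.symm
  obtain ⟨x₀, y₀, hQ1, eQ, g0, gb, gc⟩ := hgood 1 le_rfl (by norm_num)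
  rw [one_nsmul] at eQ
  obtain ⟨u, hu0, hu⟩ := val_nsmul (W := tateCurve b c) (n := 7)
    (φ := fun x y => kubertFun7 b c d x y) (Good := fun x _ => x ≠ 0 ∧ x ≠ b ∧ x ≠ c) (h₀ := hQ1)
    (fun {μ ν x₁ x₂ x₃ y₁ y₂ y₃} hc' l₁ l₂ l₃ q₁ q₂ q₃ g₁ g₂ g₃ => by
      have hp := kubertFun7_line hcd hbd hc' g₁.2.1 g₂.2.1 g₃.2.1 g₁.2.2 g₂.2.2 g₃.2.2
      rw [← l₁, ← l₂, ← l₃] at hp
      refine ⟨ν, fun h => ?_, hp⟩
      rw [h, zero_pow (by norm_num)] at hp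
      exact mul_ne_zero (mul_ne_zero (hne q₁ g₁.1 g₁.2.1 g₁.2.2) (hne q₂ g₂.1 g₂.2.1 g₂.2.2))
        (hne ((Affine.equation_neg x₃ y₃).mpr q₃) g₃.1 g₃.2.1 g₃.2.2) hp)
    (fun {x y} h g => ⟨-x, neg_ne_zero.mpr g.1, kubertFun7_mul_neg hcd hbd g.2.1 g.2.2 h⟩) 6
    (fun k h1 h6 => by rw [← eQ]; exact hgood k h1 h6) 6 (by norm_num) le_rfl
  obtain ⟨x₆, y₆, hQ6, eQ6, g6⟩ := hgood 6 (by norm_num) le_rfl
  obtain ⟨μ, ν, l₁, l₂, l₃, hcut⟩ := exists_line (h₁ := hQ6) (h₂ := hQ1) (h₃ := h0)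
    (by rw [← eQ6, ← hT, ← eQ, ← succ_nsmul])
  have hν : ν = b := by simpa [tateCurve, Affine.negY] using l₃.symm
  have hp := kubertFun7_line hcd hbd hcut g6.2.1 gb hb.symm g6.2.2 gc hc.symm
  rw [← l₁, ← l₂, hu x₆ y₆ hQ6 (by rw [← eQ, eQ6]), hν, mul_zero, zero_add] at hp
  have hv : kubertFun7 b c d 0 b = d ^ 4 * (d - 1) := by
    simp only [kubertFun7, mul_zero, sub_zero, zero_sub]
    rw [div_eq_iff (by simp [hb, hc]), hbd, hcd]
    ring
  rw [hv] at hp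
  have hφ := hne hQ1.1 g0 gb gc
  obtain ⟨z₁, hz₁, e₁⟩ := hx 0 0 h0
  obtain ⟨z₂, hz₂, e₂⟩ := hx _ _ hT2
  obtain ⟨z₃, hz₃, e₃⟩ := hx _ _ hT3
  refine ⟨_, z₁, _, z₂, _, z₃, hz₁, hz₂, hz₃, d, b / (kubertFun7 b c d x₀ y₀ * u),
    by rw [← e₁, he], by rw [← e₂, ← eT2, map_nsmul, he],
    by rw [← e₃, ← eT3, map_nsmul, he], ?_, ?_, hd0, hd1, ?_, ?_⟩
  · rw [show s * c + t - (s * 0 + t) = s * c by ring]
    exact mul_ne_zero hs hc
  · rw [hbd]
    ring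
  · intro h
    refine (tateCurve b c).isUnit_Δ.ne_zero ?_
    rw [FA.Thirteen.Δ_tateCurve, hbd, hcd]
    linear_combination d ^ 7 * (d - 1) ^ 7 * h
  · rw [div_pow, div_eq_iff (pow_ne_zero 7 (mul_ne_zero hφ hu0))]
    linear_combination -hp

end FA.Torsion

end
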