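import Fermat.Agent.Root.SummaryX0TwentySeven

/-!
# The parameter of a stable line of order `9`

For a point `T` of order `9` the ratio `f` of the differences of the abscissae of `T`, `2 T`,
`4 T` gives `j`; with stable multiples its orbit invariant, so the parameter of `X₀(9)`, is
rational.
-/

set_option autoImplicit false
set_option linter.unusedSectionVars false

noncomputable section

open WeierstrassCurve FA.KerPoly
open FA.Thirteen (tateCurve add_eq_some eq_or_eq_neg_of_X_eq)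
open FA.Torsion (exists_tate_coord tate_b_ne_zero tate_neg tate_two tate_three tate_four nineNum
  nineDen)
open FA.X0TwentySeven (nineX nineX_orbit xc_zsmul_congr)
open scoped WeierstrassCurve.Affine

namespace FA.X0Composite

/-- **The data of a point of order `9`.** -/
theorem order_nine_data {K : Type*} [Field K] [DecidableEq K] {W : WeierstrassCurve K}
    [W.IsElliptic] (T : W.toAffine.Point) (hT : addOrderOf T = 9) :
    ∃ (x₁ y₁ x₂ y₂ x₄ y₄ : K) (h₁ : W.toAffine.Nonsingular x₁ y₁)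
      (h₂ : W.toAffine.Nonsingular x₂ y₂) (h₄ : W.toAffine.Nonsingular x₄ y₄) (f : K),
      T = Affine.Point.some x₁ y₁ h₁ ∧ 2 • T = Affine.Point.some x₂ y₂ h₂ ∧
      4 • T = Affine.Point.some x₄ y₄ h₄ ∧
      x₄ - x₁ ≠ 0 ∧ f * (x₄ - x₁) = x₂ - x₁ ∧ f ≠ 0 ∧ f - 1 ≠ 0 ∧
      W.j * nineDen ((f ^ 3 - 3 * f + 1) / (f * (f - 1)) - 6) =
        nineNum ((f ^ 3 - 3 * f + 1) / (f * (f - 1)) - 6) := by
  have hk : ∀ k, ¬ 9 ∣ k → k • T ≠ 0 := fun k hk h =>
    hk (hT ▸ addOrderOf_dvd_iff_nsmul_eq_zero.mpr h)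
  obtain ⟨b, c, h0, hE, e, s, w, he, hj, hs, hx⟩ :=
    exists_tate_coord T (hk _ (by norm_num)) (hk _ (by norm_num))
  set O := Affine.Point.some (W' := (tateCurve b c).toAffine) 0 0 h0 with hO
  have hQ0 : ∀ k, ¬ 9 ∣ k → k • O ≠ 0 := fun k h h' =>
    hk k h (by rw [← he, ← map_nsmul, h', map_zero])
  have h9 : 9 • O = 0 := e.injective (by
    rw [map_nsmul, he, map_zero, ← hT, addOrderOf_nsmul_eq_zero])
  obtain ⟨hN, eN⟩ := tate_neg (b := b) (c := c) (h0 := h0)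
  obtain ⟨hT3, eT3⟩ := tate_three (b := b) (c := c) (h0 := h0)
  have hb := tate_b_ne_zero b c
  have hc : c ≠ 0 := fun hc => hQ0 4 (by norm_num) (by
    rw [hO, succ_nsmul, eT3]
    simp only [hc, sub_zero, ← eN, neg_add_cancel])
  obtain ⟨r, hr⟩ : ∃ r, b / c = r := ⟨_, rfl⟩
  have hbr : b = r * c := by rw [← hr, div_mul_cancel₀ _ hc]
  have hr0 : r ≠ 0 := fun h => hb (by rw [hbr, h, zero_mul])
  obtain ⟨hT4, eT4⟩ := tate_four (b := b) (c := c) (h0 := h0) hc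
  simp only [hr] at eT4 hT4
  have hr1 : r - 1 ≠ 0 := fun h => by
    simp only [h, mul_zero] at eT4 hT4
    rcases eq_or_eq_neg_of_X_eq (h₁ := hT4) (h₂ := h0) with e' | e' <;> rw [← eT4] at e'
    · refine hQ0 3 (by norm_num) ?_
      rwa [succ_nsmul, add_eq_right] at e'
    · refine hQ0 5 (by norm_num) ?_
      rw [succ_nsmul, e', neg_add_cancel]
  obtain ⟨f, hf⟩ : ∃ f, c / (r - 1) = f := ⟨_, rfl⟩
  have hcf : c = f * (r - 1) := by rw [← hf, div_mul_cancel₀ _ hr1]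
  obtain ⟨hT5, eT5⟩ := add_eq_some (W := tateCurve b c) (h₁ := hT4) (h₂ := h0)
    (ℓ := r * (f - 1)) (x₃ := r * f * (f - 1)) (y₃ := _) (mul_ne_zero hr0 hr1)
    (by rw [hcf]; ring)
    (by rw [hbr, hcf]; simp [tateCurve, Affine.addX]; ring)
    rfl
  have hf5 : r * f * (f - 1) = r * (r - 1) := by
    have h : (4 + 1 : ℕ) • O = -((4 : ℕ) • O) :=
      eq_neg_of_add_eq_zero_left (by rw [← add_nsmul]; exact h9)
    rw [hO, succ_nsmul, eT4, eT5, Affine.Point.neg_some, Affine.Point.some.injEq] at h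
    exact h.1
  have hrf : r = f ^ 2 - f + 1 := mul_left_cancel₀ hr0 (by linear_combination -hf5)
  have hcf2 : c = f ^ 2 * (f - 1) := by rw [hcf, hrf]; ring
  obtain ⟨hA, eA⟩ := tate_two (b := b) (c := c) (h0 := h0)
  obtain ⟨z₁, hz₁, e₁⟩ := hx 0 0 h0
  obtain ⟨z₂, hz₂, e₂⟩ := hx _ _ hA
  obtain ⟨z₄, hz₄, e₄⟩ := hx _ _ hT4
  refine ⟨_, z₁, _, z₂, _, z₄, hz₁, hz₂, hz₄, f, by rw [← e₁, he],
    by rw [← e₂, ← eA, map_nsmul, he], by rw [← e₄, ← eT4, map_nsmul, he],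
    ?_, ?_, fun h => hc (by rw [hcf2, h]; ring), fun h => hc (by rw [hcf2, h]; ring), ?_⟩
  · rw [show s * (r * (r - 1)) + w - (s * 0 + w) = s * (r * (r - 1)) by ring]
    exact mul_ne_zero hs (mul_ne_zero hr0 hr1)
  · rw [hbr, hcf2, hrf]
    ring
  · have hf0 : f ≠ 0 := fun h => hc (by rw [hcf2, h]; ring)
    have hf1 : f - 1 ≠ 0 := fun h => hc (by rw [hcf2, h]; ring)
    rw [← hj, WeierstrassCurve.j, Units.val_inv_eq_inv_val, coe_Δ', inv_mul_eq_div,
      div_mul_eq_mul_div, div_eq_iff (tateCurve b c).isUnit_Δ.ne_zero,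
      FA.Thirteen.Δ_tateCurve]
    simp only [nineNum, nineDen, tateCurve, WeierstrassCurve.c₄, WeierstrassCurve.b₂,
      WeierstrassCurve.b₄]
    rw [hbr, hrf, hcf2]
    field_simp
    ring

local notation "Qb" => AlgebraicClosure ℚ
local notation "GQ" => AlgebraicClosure ℚ ≃ₐ[ℚ] AlgebraicClosure ℚ

/-- **A stable line of order `9` has a rational parameter.** -/
theorem exists_param_nine {E : WeierstrassCurve ℚ} [E.IsElliptic] (h : HasStableOrder E 9) :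
    ∃ t : ℚ, E.j * nineDen t = nineNum t := by
  obtain ⟨g, hg, hst⟩ := h
  obtain ⟨x₁, y₁, x₂, y₂, x₄, y₄, h₁, h₂, h₄, f, e₁, e₂, e₄, hne, hf, hf0, hf1, hj⟩ :=
    order_nine_data (W := (E.toAffine⁄Qb)) g hg
  have h9 : 9 • g = 0 := hg ▸ addOrderOf_nsmul_eq_zero g
  have hxR : ∀ {k : ℕ} {a b : Qb} {hab : (E.toAffine⁄Qb).Nonsingular a b},
      k • g = Affine.Point.some a b hab → FA.EC.xc (W := E⁄Qb) ((k : ℤ) • g) = a := by
    intro k a b hab he
    rw [natCast_zsmul, he]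
    rfl
  have hx1 := hxR (k := 1) ((one_nsmul g).trans e₁)
  have hx2 := hxR e₂
  have hx4 := hxR e₄
  have hXfix : ∀ σ : GQ, σ (nineX f) = nineX f := by
    intro σ
    obtain ⟨c, hc⟩ := hst σ
    have hσx : ∀ n : ℤ, σ (FA.EC.xc (W := E⁄Qb) (n • g)) =
        FA.EC.xc (W := E⁄Qb) ((c * n) • g) := by
      intro n
      have e : Affine.Point.map (W' := E.toAffine) σ.toAlgHom (n • g) = (c * n) • g := by
        rw [map_zsmul, ← hc, mul_comm c n, mul_zsmul]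
      rw [← e]
      rcases hh : n • g with _ | ⟨a, b, hab⟩
      · exact map_zero σ
      · rfl
    have hσf : σ (nineX f) = nineX (σ f) := by simp [nineX, map_ofNat]
    have hf' : σ f * (σ x₄ - σ x₁) = σ x₂ - σ x₁ := by
      rw [← map_sub, ← map_mul, hf, map_sub]
    have hne' : σ x₄ - σ x₁ ≠ 0 := by
      rw [← map_sub]
      exact (map_ne_zero σ).2 hne
    have s1 : σ x₁ = FA.EC.xc (W := E⁄Qb) ((c * ((1 : ℕ) : ℤ)) • g) := by rw [← hx1, hσx]
    have s2 : σ x₂ = FA.EC.xc (W := E⁄Qb) ((c * ((2 : ℕ) : ℤ)) • g) := by rw [← hx2, hσx]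
    have s4 : σ x₄ = FA.EC.xc (W := E⁄Qb) ((c * ((4 : ℕ) : ℤ)) • g) := by rw [← hx4, hσx]
    have hc3 : ¬ (3 : ℤ) ∣ c := fun ⟨d, hd⟩ => by
      have h3 : Affine.Point.map (W' := E.toAffine) σ.toAlgHom ((3 : ℤ) • g) = 0 := by
        rw [map_zsmul, ← hc, ← mul_zsmul, hd, show (3 : ℤ) * (3 * d) = d * ((9 : ℕ) : ℤ) by
          push_cast; ring, mul_zsmul, natCast_zsmul, h9, zsmul_zero]
      have := addOrderOf_dvd_iff_zsmul_eq_zero.2
        (Affine.Point.map_injective σ.toAlgHom (h3.trans (map_zero _).symm))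
      rw [hg] at this
      omega
    have key : ∀ m : ℤ, (9 : ℤ) ∣ c - m ∨ (9 : ℤ) ∣ c + m → ∀ n k : ℤ,
        (9 : ℤ) ∣ m * n - k ∨ (9 : ℤ) ∣ m * n + k →
          FA.EC.xc (W := E⁄Qb) ((c * n) • g) = FA.EC.xc (W := E⁄Qb) (k • g) := by
      intro m hm n k hk
      refine (xc_zsmul_congr h9 (m := m * n) ?_).trans (xc_zsmul_congr h9 hk)
      rcases hm with ⟨a, ha⟩ | ⟨a, ha⟩
      · exact Or.inl ⟨a * n, by linear_combination n * ha⟩
      · exact Or.inr ⟨a * n, by linear_combination n * ha⟩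
    rw [hσf]
    have hcases : ((9 : ℤ) ∣ c - 1 ∨ (9 : ℤ) ∣ c + 1) ∨ ((9 : ℤ) ∣ c - 2 ∨ (9 : ℤ) ∣ c + 2) ∨
        ((9 : ℤ) ∣ c - 4 ∨ (9 : ℤ) ∣ c + 4) := by omega
    rcases hcases with hm | hm | hm
    · rw [key _ hm ((1 : ℕ) : ℤ) ((1 : ℕ) : ℤ) (by norm_num), hx1] at s1
      rw [key _ hm ((2 : ℕ) : ℤ) ((2 : ℕ) : ℤ) (by norm_num), hx2] at s2
      rw [key _ hm ((4 : ℕ) : ℤ) ((4 : ℕ) : ℤ) (by norm_num), hx4] at s4
      rw [s1, s2, s4, ← hf] at hf'
      rw [mul_right_cancel₀ hne hf']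
    · rw [key _ hm ((1 : ℕ) : ℤ) ((2 : ℕ) : ℤ) (by norm_num), hx2] at s1
      rw [key _ hm ((2 : ℕ) : ℤ) ((4 : ℕ) : ℤ) (by norm_num), hx4] at s2
      rw [key _ hm ((4 : ℕ) : ℤ) ((1 : ℕ) : ℤ) (by norm_num), hx1] at s4
      rw [s1, s4] at hne'
      rw [s1, s2, s4] at hf'
      rw [show σ f = (f - 1) / f from (eq_div_iff hf0).2
        (mul_right_cancel₀ hne' (by linear_combination f * hf' + hf))]
      exact (nineX_orbit hf0 hf1).1
    · rw [key _ hm ((1 : ℕ) : ℤ) ((4 : ℕ) : ℤ) (by norm_num), hx4] at s1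
      rw [key _ hm ((2 : ℕ) : ℤ) ((1 : ℕ) : ℤ) (by norm_num), hx1] at s2
      rw [key _ hm ((4 : ℕ) : ℤ) ((2 : ℕ) : ℤ) (by norm_num), hx2] at s4
      rw [s1, s4] at hne'
      rw [s1, s2, s4] at hf'
      rw [show σ f = 1 / (1 - f) from (eq_div_iff
        (fun h => hf1 (by linear_combination -h))).2
        (mul_right_cancel₀ hne' (by linear_combination (1 - f) * hf' + hf))]
      exact (nineX_orbit hf0 hf1).2
  obtain ⟨X, hX⟩ := FA.EC.mem_range_of_fixed hXfix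
  refine ⟨X - 6, (algebraMap ℚ Qb).injective ?_⟩
  rw [show (f ^ 3 - 3 * f + 1) / (f * (f - 1)) = nineX f from rfl, ← hX] at hj
  simp only [baseChange, map_j] at hj
  simpa [nineNum, nineDen, map_ofNat] using hj

end FA.X0Composite

end
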