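import Fermat.Agent.TwentyFive.Family

/-!
# A point of order `25` over any field

If `P` has order `25`, Kubert's parameter `b` of the point `5 P` of order `5` is read off from the
abscissae `x₁`, `x₂` of `5 P`, `10 P` and the values of `4 x³ + b₂ x² + 2 b₄ x + b₆` at them, it is
a fifth power, and it gives `j`.
-/

set_option autoImplicit false
set_option linter.unusedSectionVars false

noncomputable section

open WeierstrassCurve
open FA.Frob (vcX vcY vcEquiv vcEquiv_some vc_coeffs)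
open FA.Thirteen (tateCurve tateA3 tateA2 lam13 bc13 add_eq_some eq_or_eq_neg_of_X_eq)

namespace FA.Torsion

variable {K : Type*} [Field K] [DecidableEq K] {W : WeierstrassCurve K} [W.IsElliptic]

/-- **Tate normal form**, with the change of variables. -/
theorem exists_tate_vc (P : W.toAffine.Point) (h2 : 2 • P ≠ 0) (h3 : 3 • P ≠ 0) :
    ∃ (b c : K) (h0 : (tateCurve b c).toAffine.Nonsingular 0 0)
      (_ : (tateCurve b c).IsElliptic) (C : VariableChange K) (hC : C • W = tateCurve b c),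
      vcEquiv C hC (Affine.Point.some 0 0 h0) = P ∧ (tateCurve b c).j = W.j := by
  rcases P with _ | ⟨x, y, h⟩
  · exact absurd (smul_zero _) h2
  have hy : y ≠ W.toAffine.negY x y := fun e => h2 (by
    rw [two_nsmul]; exact Affine.Point.add_self_of_Y_eq e)
  have hA3 : tateA3 W x y ≠ 0 := fun e => hy (by
    simp only [tateA3] at e
    simp only [Affine.negY]
    linear_combination e)
  have hl : W.toAffine.slope x x y y = lam13 W x y := by
    rw [Affine.slope_of_Y_ne rfl hy, lam13, show y - W.toAffine.negY x y = tateA3 W x y by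
      simp only [tateA3, Affine.negY]; ring]
  have hA2 : tateA2 W x y ≠ 0 := fun e => by
    have ex : W.toAffine.addX x x (lam13 W x y) = x := by
      simp only [tateA2] at e
      simp only [Affine.addX]
      linear_combination -e
    have e2 := Affine.Point.add_self_of_Y_ne (h₁ := h) hy
    simp only [hl, ex] at e2
    obtain ⟨h', e2'⟩ : ∃ h', 2 • Affine.Point.some x y h =
        Affine.Point.some x (W.toAffine.addY x x y (lam13 W x y)) h' :=
      ⟨_, (two_nsmul _).trans e2⟩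
    rcases eq_or_eq_neg_of_X_eq (h₁ := h') (h₂ := h) with e' | e' <;> rw [← e2'] at e'
    · rw [two_nsmul, add_eq_right] at e'
      exact Affine.Point.some_ne_zero h e'
    · exact h3 (by rw [succ_nsmul, e', neg_add_cancel])
  let C : VariableChange K :=
    ⟨Units.mk0 (tateA3 W x y / tateA2 W x y) (div_ne_zero hA3 hA2), x, lam13 W x y, y⟩
  have hlam : lam13 W x y * tateA3 W x y = 3 * x ^ 2 + 2 * W.a₂ * x + W.a₄ - W.a₁ * y :=
    div_mul_cancel₀ _ hA3
  have heq := (Affine.equation_iff x y).mp h.1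
  have hC : C • W = tateCurve (bc13 W x y).1 (bc13 W x y).2 := by
    ext <;>
      simp only [C, variableChange_a₁, variableChange_a₂, variableChange_a₃, variableChange_a₄,
        variableChange_a₆, tateCurve, bc13, Units.val_inv_eq_inv_val, Units.val_mk0]
    · simp only [FA.Thirteen.tateA1]; field_simp; ring
    · rw [show W.a₂ - lam13 W x y * W.a₁ + 3 * x - lam13 W x y ^ 2 = tateA2 W x y by
        simp only [tateA2]; ring]
      field_simp
    · rw [show W.a₃ + x * W.a₁ + 2 * y = tateA3 W x y by simp only [tateA3]; ring]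
      field_simp
    · rw [show W.a₄ - lam13 W x y * W.a₃ + 2 * x * W.a₂ - (y + x * lam13 W x y) * W.a₁ + 3 * x ^ 2 -
        2 * lam13 W x y * y = 0 by simp only [tateA3] at hlam; linear_combination -hlam, mul_zero]
    · rw [show W.a₆ + x * W.a₄ + x ^ 2 * W.a₂ + x ^ 3 - y * W.a₃ - y ^ 2 - x * y * W.a₁ = 0 by
        linear_combination -heq, mul_zero]
  have hr : C.r = x := rfl
  have ht : C.t = y := rfl
  clear_value C
  have hE : (tateCurve (bc13 W x y).1 (bc13 W x y).2).IsElliptic := by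
    refine ⟨?_⟩
    rw [← hC, WeierstrassCurve.variableChange_Δ]
    exact ((Units.isUnit _).pow _).mul W.isUnit_Δ
  have h0 : (tateCurve (bc13 W x y).1 (bc13 W x y).2).toAffine.Nonsingular 0 0 := by
    refine (WeierstrassCurve.Affine.equation_iff_nonsingular).mp ?_
    rw [Affine.equation_iff]
    simp [tateCurve]
  have hj : (tateCurve (bc13 W x y).1 (bc13 W x y).2).j = W.j :=
    (j_congr hC.symm).trans (W.variableChange_j C)
  refine ⟨_, _, h0, hE, C, hC, ?_, hj⟩
  rw [vcEquiv_some, Affine.Point.some.injEq]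
  simp [hr, ht, vcX, vcY]

omit [W.IsElliptic] [DecidableEq K] in
/-- The square of `2 y + a₁ x + a₃` under a change of variables. -/
theorem Ψ₂Sq_eval_vc {W' : WeierstrassCurve K} {C : VariableChange K} (hC : C • W = W') (X : K) :
    W.Ψ₂Sq.eval (vcX C X) = (C.u : K) ^ 6 * W'.Ψ₂Sq.eval X := by
  obtain ⟨h1, h2, h3, h4, h6⟩ := vc_coeffs C hC
  simp only [WeierstrassCurve.Ψ₂Sq, b₂, b₄, b₆, Polynomial.eval_add, Polynomial.eval_mul,
    Polynomial.eval_C, Polynomial.eval_pow, Polynomial.eval_X, vcX]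
  rw [h6, h4, h3, h2, h1]
  ring

open FA.TwentyFive (famW exists_chain) in
/-- The fifth root, for any copy of the family. -/
theorem exists_fifth_root_of_eq {b : K} (hb : b ≠ 0) {V : WeierstrassCurve K} (hV : V = famW b 1)
    {h0 : V.toAffine.Nonsingular 0 0} {Q : V.toAffine.Point} (hQ : addOrderOf Q = 25)
    (h5 : 5 • Q = .some 0 0 h0) : ∃ z, z ^ 5 = b := by
  subst hV
  rcases Q with _ | ⟨x, y, h⟩
  · rw [show (Affine.Point.zero : (famW b (1 : K)).toAffine.Point) = 0 from rfl,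
      addOrderOf_zero] at hQ
    norm_num at hQ
  obtain ⟨D, -, -, hx2, hx4, -, -⟩ := exists_chain hQ h5
  exact ⟨D.U, by rw [D.U_pow hb one_ne_zero hx2 hx4]; ring⟩

/-- **The data of a point of order `25`.** -/
theorem order_25_data (P : W.toAffine.Point) (hP : addOrderOf P = 25) :
    ∃ (x₁ y₁ x₂ y₂ : K) (h₁ : W.toAffine.Nonsingular x₁ y₁)
      (h₂ : W.toAffine.Nonsingular x₂ y₂) (b z : K),
      5 • P = Affine.Point.some x₁ y₁ h₁ ∧ 2 • 5 • P = Affine.Point.some x₂ y₂ h₂ ∧
      W.Ψ₂Sq.eval x₂ ≠ 0 ∧ b * W.Ψ₂Sq.eval x₁ = (x₂ - x₁) ^ 3 ∧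
      W.Ψ₂Sq.eval x₂ = -(b * (x₁ - x₂) ^ 3) ∧ b ≠ 0 ∧ b ^ 2 - 11 * b - 1 ≠ 0 ∧ z ^ 5 = b ∧
      W.j * (b ^ 5 * (b ^ 2 - 11 * b - 1)) =
        (b ^ 4 - 12 * b ^ 3 + 14 * b ^ 2 + 12 * b + 1) ^ 3 := by
  have hT : addOrderOf (5 • P) = 5 := by
    rw [addOrderOf_nsmul' _ (by norm_num), hP]; norm_num
  obtain ⟨b, c, h0, hE, C, hC, he, hj⟩ := exists_tate_vc (5 • P)
    (fun h => by have := hT ▸ addOrderOf_dvd_of_nsmul_eq_zero h; norm_num at this)
    (fun h => by have := hT ▸ addOrderOf_dvd_of_nsmul_eq_zero h; norm_num at this)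
  obtain rfl : b = c := by
    obtain ⟨h3, e3⟩ := tate_three (b := b) (c := c) (h0 := h0)
    obtain ⟨h2, e2⟩ := tate_two (b := b) (c := c) (h0 := h0)
    have h5 : 5 • Affine.Point.some 0 0 h0 = 0 := by
      rw [← hT, ← addOrderOf_equiv (e := vcEquiv C hC) he]; exact addOrderOf_nsmul_eq_zero _
    rw [show 5 = 3 + 2 from rfl, add_nsmul, e3, e2, add_eq_zero_iff_eq_neg,
      Affine.Point.neg_some, Affine.Point.some.injEq] at h5
    exact h5.1.symm
  have hb := tate_b_ne_zero b b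
  have hΔ := (tateCurve b b).isUnit_Δ.ne_zero
  rw [FA.Thirteen.Δ_tateCurve] at hΔ
  obtain ⟨z, hz⟩ := exists_fifth_root_of_eq hb
    (show tateCurve b b = FA.TwentyFive.famW b 1 by
      ext <;> simp [tateCurve, FA.TwentyFive.famW])
    (h0 := h0) (Q := (vcEquiv C hC).symm P) (by rw [AddEquiv.addOrderOf_eq, hP])
    (by rw [← map_nsmul, ← he, AddEquiv.symm_apply_apply])
  obtain ⟨hT2, eT2⟩ := tate_two (b := b) (c := b) (h0 := h0)
  have hu : (C.u : K) ≠ 0 := C.u.ne_zero
  refine ⟨vcX C 0, _, vcX C b, _, _, _, b, z, by rw [← he, vcEquiv_some],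
    by rw [← he, ← map_nsmul, eT2, vcEquiv_some], ?_, ?_, ?_, hb, ?_, hz, ?_⟩
  · rw [Ψ₂Sq_eval_vc hC]
    simp [WeierstrassCurve.Ψ₂Sq, tateCurve, b₂, b₄, b₆]
    intro h
    refine pow_ne_zero 4 hb ?_
    linear_combination h
  · rw [Ψ₂Sq_eval_vc hC]
    simp [WeierstrassCurve.Ψ₂Sq, tateCurve, b₂, b₄, b₆, vcX]
    ring
  · rw [Ψ₂Sq_eval_vc hC]
    simp [WeierstrassCurve.Ψ₂Sq, tateCurve, b₂, b₄, b₆, vcX]
    ring
  · intro h
    refine hΔ ?_
    linear_combination b ^ 5 * h
  · rw [← hj, WeierstrassCurve.j, Units.val_inv_eq_inv_val, coe_Δ', inv_mul_eq_div,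
      div_mul_eq_mul_div, div_eq_iff (tateCurve b b).isUnit_Δ.ne_zero,
      FA.Thirteen.Δ_tateCurve]
    simp only [tateCurve, WeierstrassCurve.c₄, WeierstrassCurve.b₂, WeierstrassCurve.b₄]
    ring

end FA.Torsion

end
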