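import Fermat.Agent.IsogenyDegrees.FifteenTwentyOne
import Fermat.Agent.Thirteen.Tate
import Fermat.Agent.Torsion.Tate

/-!
# The parameter of `X₀(13)`

A stable line of order `13` gives a rational `t` with
`j t = (t² + 5t + 13) (t⁴ + 7t³ + 20t² + 19t + 1)³`: with `X` the abscissa on the model of `X₁(13)`,
`t = (X³ - X² - 4X - 1) / (X (X + 1))` is invariant under doubling.
-/

set_option autoImplicit false
set_option linter.style.haveILetI false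
set_option linter.unusedSectionVars false

noncomputable section

open WeierstrassCurve FA.KerPoly
open FA.Thirteen (tateCurve TateGood z13 zRS exists_good exists_tate z13_double map_z13 bc13)
open FA.Frob (vcEquiv vcEquiv_some)
open scoped WeierstrassCurve.Affine

local notation "Qb" => AlgebraicClosure ℚ
local notation "GQ" => AlgebraicClosure ℚ ≃ₐ[ℚ] AlgebraicClosure ℚ

namespace FA.X0Thirteen

variable {F : Type*} [Field F]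

/-- The parameter in the coordinate `X` of `X₁(13)`. -/
def tParam (X : F) : F := (X ^ 3 - X ^ 2 - 4 * X - 1) / (X * (X + 1))

/-- The factor `t⁴ + 7t³ + 20t² + 19t + 1` of `j`. -/
def quarticThirteen {R : Type*} [CommRing R] (t : R) : R :=
  t ^ 4 + 7 * t ^ 3 + 20 * t ^ 2 + 19 * t + 1

/-- Its numerator. -/
def quarticNum (X : F) : F :=
  (X ^ 3 - X ^ 2 - 4 * X - 1) ^ 4 + 7 * (X ^ 3 - X ^ 2 - 4 * X - 1) ^ 3 * (X * (X + 1)) +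
    20 * (X ^ 3 - X ^ 2 - 4 * X - 1) ^ 2 * (X * (X + 1)) ^ 2 +
    19 * (X ^ 3 - X ^ 2 - 4 * X - 1) * (X * (X + 1)) ^ 3 + (X * (X + 1)) ^ 4

theorem tParam_double {X : F} (h0 : X ≠ 0) (h1 : X + 1 ≠ 0) :
    tParam (-1 / (X + 1)) = tParam X := by
  have e : -1 / (X + 1) + 1 = X / (X + 1) := by field_simp; ring
  rw [tParam, tParam, e]
  field_simp
  ring

/-- `c₄` of the normal form in `X` and `D = (s - r) / (1 - s)`. -/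
theorem c4_eq {X D b c : F}
    (hrel : X ^ 3 * D ^ 2 + (X ^ 3 + X + 1) * D - X * (X + 1) = 0)
    (hb : b * (X ^ 3 * (1 + D)) = -((X - D) * (D * X + X - D) * D))
    (hc : c * (X ^ 2 * (1 + D)) = -((D * X + X - D) * D)) :
    (tateCurve b c).c₄ * (X ^ 20 * (1 + D) ^ 6) =
      (X ^ 2 + X + 1) * quarticNum X * (X - D) ^ 4 * (D * X + X - D) ^ 2 := by
  set u := b * (X ^ 3 * (1 + D)) with hu
  set v := c * (X ^ 2 * (1 + D)) with hv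
  have e : (tateCurve b c).c₄ * (X ^ 20 * (1 + D) ^ 6) =
      (((X ^ 2 * (1 + D) - v) ^ 2 - 4 * X * (1 + D) * u) ^ 2 -
        24 * X ^ 3 * (1 + D) ^ 2 * (-(X ^ 2 * (1 + D) - v) * u)) * (X ^ 12 * (1 + D) ^ 2) := by
    simp only [tateCurve, WeierstrassCurve.c₄, b₂, b₄, hu, hv]
    ring
  rw [e, hb, hc, quarticNum]
  linear_combination (
      9 * X ^ 13 * D ^ 8 - 12 * X ^ 12 * D ^ 8 - 2 * X ^ 11 * D ^ 8 + 4 * X ^ 10 * D ^ 8 +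
      X ^ 9 * D ^ 8 - 12 * X ^ 14 * D ^ 7 + 57 * X ^ 13 * D ^ 7 - 36 * X ^ 12 * D ^ 7 -
      27 * X ^ 11 * D ^ 7 + 11 * X ^ 10 * D ^ 7 + 15 * X ^ 9 * D ^ 7 - 2 * X ^ 8 * D ^ 7 -
      5 * X ^ 7 * D ^ 7 - X ^ 6 * D ^ 7 + 30 * X ^ 15 * D ^ 6 - 104 * X ^ 14 * D ^ 6 +
      152 * X ^ 13 * D ^ 6 - 15 * X ^ 12 * D ^ 6 - 69 * X ^ 11 * D ^ 6 - 34 * X ^ 10 * D ^ 6 +
      51 * X ^ 9 * D ^ 6 + 23 * X ^ 8 * D ^ 6 - 20 * X ^ 7 * D ^ 6 - 12 * X ^ 6 * D ^ 6 +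
      7 * X ^ 5 * D ^ 6 + 6 * X ^ 4 * D ^ 6 + X ^ 3 * D ^ 6 - 12 * X ^ 16 * D ^ 5 +
      162 * X ^ 15 * D ^ 5 - 296 * X ^ 14 * D ^ 5 + 162 * X ^ 13 * D ^ 5 + 86 * X ^ 12 * D ^ 5 -
      2 * X ^ 11 * D ^ 5 - 162 * X ^ 10 * D ^ 5 + 17 * X ^ 9 * D ^ 5 + 106 * X ^ 8 * D ^ 5 +
      16 * X ^ 7 * D ^ 5 - 69 * X ^ 6 * D ^ 5 - 16 * X ^ 5 * D ^ 5 + 25 * X ^ 4 * D ^ 5 +
      4 * X ^ 3 * D ^ 5 - 13 * X ^ 2 * D ^ 5 - 7 * X * D ^ 5 - D ^ 5 + X ^ 17 * D ^ 4 -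
      60 * X ^ 16 * D ^ 4 + 348 * X ^ 15 * D ^ 4 - 342 * X ^ 14 * D ^ 4 - 48 * X ^ 13 * D ^ 4 +
      82 * X ^ 12 * D ^ 4 + 266 * X ^ 11 * D ^ 4 - 148 * X ^ 10 * D ^ 4 - 204 * X ^ 9 * D ^ 4 +
      23 * X ^ 8 * D ^ 4 + 164 * X ^ 7 * D ^ 4 - 25 * X ^ 6 * D ^ 4 - 99 * X ^ 5 * D ^ 4 +
      23 * X ^ 4 * D ^ 4 + 81 * X ^ 3 * D ^ 4 + 37 * X ^ 2 * D ^ 4 + 5 * X * D ^ 4 +
      5 * X ^ 17 * D ^ 3 - 120 * X ^ 16 * D ^ 3 + 359 * X ^ 15 * D ^ 3 - 65 * X ^ 14 * D ^ 3 -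
      198 * X ^ 13 * D ^ 3 - 256 * X ^ 12 * D ^ 3 + 292 * X ^ 11 * D ^ 3 +
      250 * X ^ 10 * D ^ 3 - 48 * X ^ 9 * D ^ 3 - 182 * X ^ 8 * D ^ 3 + 77 * X ^ 7 * D ^ 3 +
      94 * X ^ 6 * D ^ 3 - 141 * X ^ 5 * D ^ 3 - 195 * X ^ 4 * D ^ 3 - 78 * X ^ 3 * D ^ 3 -
      10 * X ^ 2 * D ^ 3 + 10 * X ^ 17 * D ^ 2 - 119 * X ^ 16 * D ^ 2 + 141 * X ^ 15 * D ^ 2 +
      172 * X ^ 14 * D ^ 2 + 65 * X ^ 13 * D ^ 2 - 332 * X ^ 12 * D ^ 2 - 203 * X ^ 11 * D ^ 2 +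
      58 * X ^ 10 * D ^ 2 + 156 * X ^ 9 * D ^ 2 - 10 * X ^ 8 * D ^ 2 + 47 * X ^ 7 * D ^ 2 +
      245 * X ^ 6 * D ^ 2 + 229 * X ^ 5 * D ^ 2 + 82 * X ^ 4 * D ^ 2 + 10 * X ^ 3 * D ^ 2 +
      10 * X ^ 17 * D - 52 * X ^ 16 * D - 30 * X ^ 15 * D + 60 * X ^ 14 * D + 183 * X ^ 13 * D +
      68 * X ^ 12 * D - 72 * X ^ 11 * D - 119 * X ^ 10 * D - 67 * X ^ 9 * D - 111 * X ^ 8 * D -
      179 * X ^ 7 * D - 132 * X ^ 6 * D - 43 * X ^ 5 * D - 5 * X ^ 4 * D + 4 * X ^ 17 -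
      4 * X ^ 16 - 22 * X ^ 15 - 30 * X ^ 14 + 4 * X ^ 13 + 35 * X ^ 12 + 43 * X ^ 11 +
      35 * X ^ 10 + 43 * X ^ 9 + 48 * X ^ 8 + 30 * X ^ 7 + 9 * X ^ 6 + X ^ 5) * hrel

/-- `Δ` of the normal form in `X` and `D`. -/
theorem disc_eq {X D b c : F}
    (hrel : X ^ 3 * D ^ 2 + (X ^ 3 + X + 1) * D - X * (X + 1) = 0)
    (hb : b * (X ^ 3 * (1 + D)) = -((X - D) * (D * X + X - D) * D))
    (hc : c * (X ^ 2 * (1 + D)) = -((D * X + X - D) * D)) :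
    (tateCurve b c).Δ * (X ^ 17 * (1 + D) ^ 7) * (X - D) =
      D ^ 13 * (D * X + X - D) ^ 6 * (X ^ 3 - X ^ 2 - 4 * X - 1) * (X ^ 9 * (1 + D) ^ 2) := by
  set u := b * (X ^ 3 * (1 + D)) with hu
  set v := c * (X ^ 2 * (1 + D)) with hv
  have e : (tateCurve b c).Δ * (X ^ 17 * (1 + D) ^ 7) * (X - D) =
      u ^ 3 * (16 * u ^ 2 * X ^ 2 * (1 + D) ^ 2 - 8 * u * v ^ 2 * X * (1 + D) -
        20 * u * v * X ^ 3 * (1 + D) ^ 2 + u * X ^ 5 * (1 + D) ^ 3 + v ^ 4 -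
        3 * v ^ 3 * X ^ 2 * (1 + D) + 3 * v ^ 2 * X ^ 4 * (1 + D) ^ 2 -
        v * X ^ 6 * (1 + D) ^ 3) * (X - D) := by
    rw [FA.Thirteen.Δ_tateCurve, hu, hv]
    ring
  rw [e, hb, hc]
  linear_combination (
      -X ^ 15 * D ^ 19 + 7 * X ^ 14 * D ^ 19 - 17 * X ^ 13 * D ^ 19 + 12 * X ^ 12 * D ^ 19 +
      19 * X ^ 11 * D ^ 19 - 44 * X ^ 10 * D ^ 19 + 33 * X ^ 9 * D ^ 19 - 8 * X ^ 8 * D ^ 19 -
      2 * X ^ 7 * D ^ 19 + X ^ 6 * D ^ 19 - 7 * X ^ 15 * D ^ 18 + 43 * X ^ 14 * D ^ 18 -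
      82 * X ^ 13 * D ^ 18 + 12 * X ^ 12 * D ^ 18 + 149 * X ^ 11 * D ^ 18 -
      183 * X ^ 10 * D ^ 18 + 56 * X ^ 9 * D ^ 18 + 23 * X ^ 8 * D ^ 18 + 3 * X ^ 7 * D ^ 18 -
      24 * X ^ 6 * D ^ 18 + 10 * X ^ 5 * D ^ 18 + X ^ 4 * D ^ 18 - X ^ 3 * D ^ 18 -
      21 * X ^ 15 * D ^ 17 + 110 * X ^ 14 * D ^ 17 - 144 * X ^ 13 * D ^ 17 -
      109 * X ^ 12 * D ^ 17 + 369 * X ^ 11 * D ^ 17 - 183 * X ^ 10 * D ^ 17 -
      101 * X ^ 9 * D ^ 17 + 19 * X ^ 8 * D ^ 17 + 135 * X ^ 7 * D ^ 17 - 64 * X ^ 6 * D ^ 17 -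
      37 * X ^ 5 * D ^ 17 + 21 * X ^ 4 * D ^ 17 + 15 * X ^ 3 * D ^ 17 - 11 * X ^ 2 * D ^ 17 +
      D ^ 17 - 35 * X ^ 15 * D ^ 16 + 149 * X ^ 14 * D ^ 16 - 85 * X ^ 13 * D ^ 16 -
      303 * X ^ 12 * D ^ 16 + 325 * X ^ 11 * D ^ 16 + 163 * X ^ 10 * D ^ 16 -
      159 * X ^ 9 * D ^ 16 - 296 * X ^ 8 * D ^ 16 + 222 * X ^ 7 * D ^ 16 +
      172 * X ^ 6 * D ^ 16 - 138 * X ^ 5 * D ^ 16 - 115 * X ^ 4 * D ^ 16 +
      136 * X ^ 3 * D ^ 16 - 34 * X ^ 2 * D ^ 16 - 2 * X * D ^ 16 - 35 * X ^ 15 * D ^ 15 +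
      110 * X ^ 14 * D ^ 15 + 54 * X ^ 13 * D ^ 15 - 290 * X ^ 12 * D ^ 15 -
      67 * X ^ 11 * D ^ 15 + 325 * X ^ 10 * D ^ 15 + 283 * X ^ 9 * D ^ 15 -
      461 * X ^ 8 * D ^ 15 - 308 * X ^ 7 * D ^ 15 + 437 * X ^ 6 * D ^ 15 +
      320 * X ^ 5 * D ^ 15 - 593 * X ^ 4 * D ^ 15 + 247 * X ^ 3 * D ^ 15 - 22 * X ^ 2 * D ^ 15 -
      21 * X ^ 15 * D ^ 14 + 37 * X ^ 14 * D ^ 14 + 103 * X ^ 13 * D ^ 14 -
      59 * X ^ 12 * D ^ 14 - 271 * X ^ 11 * D ^ 14 - 57 * X ^ 10 * D ^ 14 +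
      542 * X ^ 9 * D ^ 14 + 207 * X ^ 8 * D ^ 14 - 755 * X ^ 7 * D ^ 14 -
      391 * X ^ 6 * D ^ 14 + 1311 * X ^ 5 * D ^ 14 - 773 * X ^ 4 * D ^ 14 +
      127 * X ^ 3 * D ^ 14 - 7 * X ^ 15 * D ^ 13 - 2 * X ^ 14 * D ^ 13 + 48 * X ^ 13 * D ^ 13 +
      82 * X ^ 12 * D ^ 13 - 87 * X ^ 11 * D ^ 13 - 329 * X ^ 10 * D ^ 13 +
      46 * X ^ 9 * D ^ 13 + 729 * X ^ 8 * D ^ 13 + 134 * X ^ 7 * D ^ 13 -
      1649 * X ^ 6 * D ^ 13 + 1355 * X ^ 5 * D ^ 13 - 315 * X ^ 4 * D ^ 13 - X ^ 15 * D ^ 12 -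
      5 * X ^ 14 * D ^ 12 + X ^ 13 * D ^ 12 + 51 * X ^ 12 * D ^ 12 + 79 * X ^ 11 * D ^ 12 -
      131 * X ^ 10 * D ^ 12 - 369 * X ^ 9 * D ^ 12 + 159 * X ^ 8 * D ^ 12 +
      1201 * X ^ 7 * D ^ 12 - 1445 * X ^ 6 * D ^ 12 + 455 * X ^ 5 * D ^ 12 - X ^ 14 * D ^ 11 -
      5 * X ^ 13 * D ^ 11 + 2 * X ^ 12 * D ^ 11 + 55 * X ^ 11 * D ^ 11 + 74 * X ^ 10 * D ^ 11 -
      176 * X ^ 9 * D ^ 11 - 471 * X ^ 8 * D ^ 11 + 949 * X ^ 7 * D ^ 11 -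
      413 * X ^ 6 * D ^ 11 - X ^ 13 * D ^ 10 - 5 * X ^ 12 * D ^ 10 + 3 * X ^ 11 * D ^ 10 +
      59 * X ^ 10 * D ^ 10 + 73 * X ^ 9 * D ^ 10 - 367 * X ^ 8 * D ^ 10 + 237 * X ^ 7 * D ^ 10 -
      X ^ 12 * D ^ 9 - 5 * X ^ 11 * D ^ 9 + 4 * X ^ 10 * D ^ 9 + 73 * X ^ 9 * D ^ 9 -
      82 * X ^ 8 * D ^ 9 - X ^ 11 * D ^ 8 - 5 * X ^ 10 * D ^ 8 + 15 * X ^ 9 * D ^ 8 -
      X ^ 10 * D ^ 7) * hrel

/-- Putting the two invariants together. -/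
theorem combine {X X₁ D e₁ w m g q N C Dl T A Q : F} (hX : X ≠ 0) (hX₁ : X₁ ≠ 0) (he : e₁ ≠ 0)
    (hw : w ≠ 0) (e4 : C * (X ^ 20 * e₁ ^ 6) = g * q * w ^ 4 * m ^ 2)
    (eΔ : Dl * (X ^ 17 * e₁ ^ 7) * w = D ^ 13 * m ^ 6 * N * (X ^ 9 * e₁ ^ 2))
    (ht : T * (X * X₁) = N) (ha : A * (X * X₁) ^ 2 = g ^ 3) (hq : Q * (X * X₁) ^ 4 = q)
    (h13 : (D * e₁ * X ^ 3) ^ 13 = (w * X₁) ^ 13) : C ^ 3 * T = Dl * (A * Q ^ 3) := by
  refine mul_right_cancel₀ (show (X ^ 20 * e₁ ^ 6) ^ 3 * (X * X₁) ^ 14 * w ≠ 0 from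
    mul_ne_zero (mul_ne_zero (pow_ne_zero _ (mul_ne_zero (pow_ne_zero _ hX)
      (pow_ne_zero _ he))) (pow_ne_zero _ (mul_ne_zero hX hX₁))) hw) ?_
  rw [show C ^ 3 * T * ((X ^ 20 * e₁ ^ 6) ^ 3 * (X * X₁) ^ 14 * w) =
      (C * (X ^ 20 * e₁ ^ 6)) ^ 3 * (T * (X * X₁)) * ((X * X₁) ^ 13 * w) by ring,
    show Dl * (A * Q ^ 3) * ((X ^ 20 * e₁ ^ 6) ^ 3 * (X * X₁) ^ 14 * w) =
      Dl * (X ^ 17 * e₁ ^ 7) * w * (A * (X * X₁) ^ 2) * (Q * (X * X₁) ^ 4) ^ 3 *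
        (X ^ 43 * e₁ ^ 11) by ring,
    e4, eΔ, ht, ha, hq]
  linear_combination -(g ^ 3 * q ^ 3 * m ^ 6 * N * X ^ 13) * h13

variable [CharZero F]

/-- **`j` on `X₁(13)`.** -/
theorem c4_cube_mul {r s : F} (h : TateGood r s) :
    (tateCurve (r * s * (r - 1)) (s * (r - 1))).c₄ ^ 3 * tParam (zRS r s).1 =
      (tateCurve (r * s * (r - 1)) (s * (r - 1))).Δ *
        ((tParam (zRS r s).1 ^ 2 + 5 * tParam (zRS r s).1 + 13) *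
          quarticThirteen (tParam (zRS r s).1) ^ 3) := by
  have hr : (1 : F) - r ≠ 0 := by rw [← neg_ne_zero, neg_sub]; exact h.r1
  have hs : (1 : F) - s ≠ 0 := by rw [← neg_ne_zero, neg_sub]; exact h.s1
  have hX := h.X_ne_zero
  have hX1 : (zRS r s).1 + 1 ≠ 0 := fun e => h.X_ne_neg_one (eq_neg_of_add_eq_zero_left e)
  have hcurve := h.curve
  simp only [zRS, FA.Thirteen.f13] at hcurve hX hX1 ⊢
  set X := (s - r) / ((1 - r) * (1 - s)) with hXdef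
  set D := (s - r) / (1 - s) with hDdef
  have hrel : X ^ 3 * D ^ 2 + (X ^ 3 + X + 1) * D - X * (X + 1) = 0 := by
    refine (mul_eq_zero.mp (?_ : 4 * X ^ 3 * _ = 0)).resolve_left
      (mul_ne_zero (by norm_num) (pow_ne_zero _ hX))
    linear_combination hcurve
  have hrs : (1 : F) + D = (1 - r) / (1 - s) := by rw [hDdef]; field_simp; ring
  have hD1 : (1 : F) + D ≠ 0 := hrs ▸ div_ne_zero hr hs
  have hDX : D = (1 - r) * X := by rw [hDdef, hXdef]; field_simp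
  have hsD : D * X + X - D = X * (s * (1 + D)) := by
    rw [hrs, hXdef, hDdef]; field_simp; ring
  have hXD : X - D ≠ 0 := by
    rw [hDX, show X - (1 - r) * X = X * r by ring]
    exact mul_ne_zero hX h.r0
  have hb : r * s * (r - 1) * (X ^ 3 * (1 + D)) = -((X - D) * (D * X + X - D) * D) := by
    rw [hsD, hDX]; ring
  have hc : s * (r - 1) * (X ^ 2 * (1 + D)) = -((D * X + X - D) * D) := by
    rw [hsD, hDX]; ring
  have e4 := c4_eq hrel hb hc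
  have eΔ := disc_eq hrel hb hc
  have h13 : (D * (1 + D) * X ^ 3) ^ 13 = ((X - D) * (X + 1)) ^ 13 := by
    congr 1; linear_combination hrel
  have ht : tParam X * (X * (X + 1)) = X ^ 3 - X ^ 2 - 4 * X - 1 :=
    div_mul_cancel₀ _ (mul_ne_zero hX hX1)
  have hq : quarticThirteen (tParam X) * (X * (X + 1)) ^ 4 = quarticNum X := by
    rw [quarticThirteen, quarticNum, ← ht]; ring
  have ha : (tParam X ^ 2 + 5 * tParam X + 13) * (X * (X + 1)) ^ 2 = (X ^ 2 + X + 1) ^ 3 := by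
    linear_combination (tParam X * (X * (X + 1)) + (X ^ 3 - X ^ 2 - 4 * X - 1) +
      5 * (X * (X + 1))) * ht
  exact combine hX hX1 hD1 hXD e4 eΔ ht ha hq h13

variable {E : WeierstrassCurve ℚ} [E.IsElliptic]

/-- The parameter of the line through `P`. -/
def lineParamThirteen : (E.toAffine⁄Qb).Point → Qb
  | .zero => 0
  | .some x y _ => tParam (z13 (E⁄Qb) x y).1

theorem lineParamThirteen_map (σ : GQ) (P : (E.toAffine⁄Qb).Point) :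
    lineParamThirteen (Affine.Point.map σ.toAlgHom P) = σ (lineParamThirteen P) := by
  rcases P with _ | ⟨x, y, h⟩
  · exact (map_zero σ).symm
  show tParam (z13 (E⁄Qb) (σ x) (σ y)).1 = σ (tParam (z13 (E⁄Qb) x y).1)
  have e := map_z13 (σ.toAlgHom : Qb →+* Qb) (E⁄Qb) x y
  rw [show WeierstrassCurve.map (E⁄Qb) (σ.toAlgHom : Qb →+* Qb) = E⁄Qb from
    WeierstrassCurve.map_baseChange E σ.toAlgHom] at e
  refine (congrArg (fun z : Qb × Qb => tParam z.1) e).trans ?_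
  simp [tParam, map_ofNat]

theorem lineParamThirteen_double {P : (E.toAffine⁄Qb).Point} (hP : addOrderOf P = 13) :
    lineParamThirteen (2 • P) = lineParamThirteen P := by
  rcases P with _ | ⟨x, y, h⟩
  · rw [← Affine.Point.zero_def, addOrderOf_zero] at hP
    norm_num at hP
  obtain ⟨x', y', h', hd⟩ := FA.EC.exists_some_of_ne_zero (W := E⁄Qb)
    (P := 2 • Affine.Point.some x y h) (FA.Thirteen.nsmul_ne_zero13 hP (by norm_num))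
  obtain ⟨-, h0, h1, -⟩ := FA.Thirteen.z13_spec hP
  rw [hd]
  show tParam (z13 (E⁄Qb) x' y').1 = tParam (z13 (E⁄Qb) x y).1
  rw [z13_double hP hd]
  exact tParam_double h0 fun e => h1 (eq_neg_of_add_eq_zero_left e)

/-- **A stable line of order `13` has a rational parameter.** -/
theorem exists_param_thirteen (h : HasStableOrder E 13) :
    ∃ t : ℚ, t ≠ 0 ∧ E.j * t = (t ^ 2 + 5 * t + 13) * quarticThirteen t ^ 3 := by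
  obtain ⟨g, hg, hst⟩ := h
  have hpow : ∀ k : ℕ, lineParamThirteen ((2 ^ k) • g) = lineParamThirteen g := by
    intro k
    induction k with
    | zero => simp
    | succ k ih =>
      rw [pow_succ', mul_nsmul', lineParamThirteen_double, ih]
      rw [addOrderOf_nsmul' _ (pow_ne_zero _ two_ne_zero), hg,
        show Nat.gcd 13 (2 ^ k) = 1 from Nat.Coprime.pow_right k (by norm_num)]
  have hfix : ∀ σ : GQ, σ (lineParamThirteen g) = lineParamThirteen g := by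
    intro σ
    obtain ⟨c, hc⟩ := hst σ
    rw [← lineParamThirteen_map, ← hc]
    have h13 : (13 : ℤ) • g = 0 := by
      rw [show (13 : ℤ) = ((13 : ℕ) : ℤ) from rfl, natCast_zsmul, ← hg, addOrderOf_nsmul_eq_zero]
    have hg0 : g ≠ 0 := fun e => by rw [e, addOrderOf_zero] at hg; norm_num at hg
    have key : ∀ a : ZMod 13, a = 0 ∨ ∃ k < 12, a = 2 ^ k := by decide +kernel
    rcases key (c : ZMod 13) with h0 | ⟨k, -, hk⟩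
    · exfalso
      obtain ⟨d, rfl⟩ := (ZMod.intCast_zmod_eq_zero_iff_dvd c 13).1 h0
      refine hg0 (Affine.Point.map_injective σ.toAlgHom ?_)
      rw [map_zero, ← hc, mul_comm, mul_zsmul, show ((13 : ℕ) : ℤ) = 13 from rfl, h13, zsmul_zero]
    · obtain ⟨d, hd⟩ := (ZMod.intCast_eq_intCast_iff_dvd_sub ((2 ^ k : ℕ) : ℤ) c 13).1
        (by push_cast; exact hk.symm)
      rw [show c = ((2 ^ k : ℕ) : ℤ) + d * 13 by omega, add_zsmul, mul_zsmul, h13, zsmul_zero,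
        add_zero, natCast_zsmul]
      exact hpow k
  obtain ⟨t, ht⟩ := FA.EC.mem_range_of_fixed hfix
  obtain ⟨x, y, hns, rfl⟩ := FA.EC.exists_some_of_ne_zero (W := E⁄Qb) (P := g)
    (fun e => by rw [e, addOrderOf_zero] at hg; norm_num at hg)
  obtain ⟨C, hC, hX, hY⟩ := exists_tate (W := E⁄Qb) hg
  obtain ⟨-, h0, h1, h3⟩ := FA.Thirteen.z13_spec hg
  obtain ⟨b, hb⟩ : ∃ b, (bc13 (E⁄Qb) x y).1 = b := ⟨_, rfl⟩
  obtain ⟨c, hc⟩ : ∃ c, (bc13 (E⁄Qb) x y).2 = c := ⟨_, rfl⟩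
  rw [hb, hc] at hC
  haveI : (tateCurve b c).IsElliptic := hC ▸ inferInstance
  have hn0 : (tateCurve b c).toAffine.Nonsingular 0 0 :=
    Affine.equation_iff_nonsingular.mp ((FA.Frob.equation_vc C hC 0 0).mp (by
      rw [hX, hY]; exact hns.1))
  have he : vcEquiv C hC (.some 0 0 hn0) = Affine.Point.some x y hns := by
    rw [vcEquiv_some, Affine.Point.some.injEq]; exact ⟨hX, hY⟩
  obtain ⟨-, -, r, s, hbr, hcr, hr, hs, hgood⟩ := exists_good b c hn0 (by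
    rw [← hg, ← he]
    exact (addOrderOf_injective (vcEquiv C hC).toAddMonoidHom (vcEquiv C hC).injective _).symm)
  have hz : z13 (E⁄Qb) x y = zRS r s := by rw [z13, hb, hc, hr, hs]
  have ht' : (t : Qb) = tParam (zRS r s).1 := by
    rw [← hz, ← eq_ratCast (algebraMap ℚ Qb) t]; exact ht
  refine ⟨t, fun e => ?_, (algebraMap ℚ Qb).injective ?_⟩
  · rw [e, Rat.cast_zero, ← hz, tParam, eq_comm, div_eq_zero_iff] at ht'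
    exact ht'.elim h3 (mul_ne_zero h0 fun e' => h1 (eq_neg_of_add_eq_zero_left e'))
  have hj : (tateCurve b c).j = algebraMap ℚ Qb E.j :=
    ((FA.Torsion.j_congr hC.symm).trans ((E⁄Qb).variableChange_j C)).trans (E.map_j _)
  have key := c4_cube_mul hgood
  rw [← hbr, ← hcr, ← ht'] at key
  rw [WeierstrassCurve.j, Units.val_inv_eq_inv_val, coe_Δ', inv_mul_eq_iff_eq_mul₀
    (tateCurve b c).isUnit_Δ.ne_zero] at hj
  simp only [map_mul, map_add, map_pow, map_ofNat, quarticThirteen, map_one, eq_ratCast] at key hj ⊢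
  refine mul_left_cancel₀ (tateCurve b c).isUnit_Δ.ne_zero ?_
  rw [hj] at key
  linear_combination key

end FA.X0Thirteen

end
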