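import Fermat.Agent.CM.Seven.Isogeny
import Fermat.Agent.Root.SummaryX0FifteenTwentyOne

/-!
# A stable cyclic subgroup of order `4` and the two-isogeny

With a stable cyclic subgroup of order `4` a curve over `ℚ` becomes `y² = x³ + a x² + r² x`; the
two-isogeny sends the stable lines of odd order to stable lines of
`y² = x³ - 2 a x² + (a² - 4 r²) x`, whose discriminant is a square.
-/

set_option autoImplicit false
set_option linter.style.haveILetI false
set_option linter.unusedSectionVars false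

noncomputable section

open WeierstrassCurve FA.KerPoly
open FA.CM.Seven (twoCurve isogHom isogFun isogFun_some isogFun_some_zero isogHom_apply)
open scoped WeierstrassCurve.Affine

namespace FA.X0Composite

local notation "Qb" => AlgebraicClosure ℚ
local notation "GQ" => AlgebraicClosure ℚ ≃ₐ[ℚ] AlgebraicClosure ℚ

/-- The two-isogeny between two equations of the given shape, with its formula. -/
theorem exists_isog_formula {F : Type*} [Field F] [DecidableEq F] {a b : F}
    {V V' : WeierstrassCurve F} [V'.IsElliptic] (hV : V = twoCurve a b)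
    (hV' : V' = twoCurve (-2 * a) (a ^ 2 - 4 * b)) :
    ∃ φ : V.toAffine.Point →+ V'.toAffine.Point,
      (∀ y (h : V.toAffine.Nonsingular 0 y), φ (.some 0 y h) = 0) ∧
      ∀ x y (h : V.toAffine.Nonsingular x y), x ≠ 0 →
        ∃ h', φ (.some x y h) = .some ((y / x) ^ 2) (y * (x ^ 2 - b) / x ^ 2) h' := by
  subst hV hV'
  exact ⟨isogHom, fun y h => isogFun_some_zero (h := h),
    fun x y h hx => ⟨_, isogFun_some (h := h) hx⟩⟩

/-- The two-isogeny over `ℚ`, with its kernel, its formula and the action of Galois. -/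
theorem exists_isog_equivariant (a b : ℚ) [(twoCurve a b).IsElliptic]
    [(twoCurve (-2 * a) (a ^ 2 - 4 * b)).IsElliptic] :
    ∃ φ : ((twoCurve a b).toAffine⁄Qb).Point →+
        ((twoCurve (-2 * a) (a ^ 2 - 4 * b)).toAffine⁄Qb).Point,
      (∀ P, φ P = 0 → P + P = 0) ∧
      (∀ P, FA.EC.xc (W := (twoCurve a b)⁄Qb) P = 0 → φ P = 0) ∧
      (∀ x y h, x ≠ 0 → ∃ h', φ (.some x y h) =
        .some ((y / x) ^ 2) (y * (x ^ 2 - algebraMap ℚ Qb b) / x ^ 2) h') ∧
      ∀ (σ : GQ) P, φ (Affine.Point.map σ.toAlgHom P) = Affine.Point.map σ.toAlgHom (φ P) := by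
  obtain ⟨φ, hφ0, hφ⟩ := exists_isog_formula (F := Qb) (a := algebraMap ℚ Qb a)
    (b := algebraMap ℚ Qb b) (V := (twoCurve a b).toAffine⁄Qb)
    (V' := (twoCurve (-2 * a) (a ^ 2 - 4 * b)).toAffine⁄Qb) (by ext <;> simp [baseChange])
    (by ext <;> simp [baseChange])
  refine ⟨φ, ?_, ?_, hφ, fun σ g => ?_⟩
  · intro P hP
    rcases P with _ | ⟨x, y, hns⟩
    · rw [← Affine.Point.zero_def, add_zero]
    by_cases hx : x = 0
    · subst hx
      refine Affine.Point.add_self_of_Y_eq ?_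
      have h := (Affine.equation_iff _ _).1 hns.1
      simp [baseChange] at h
      simp [Affine.negY, baseChange, h]
    · obtain ⟨h', e⟩ := hφ x y hns hx
      exact absurd (e ▸ hP) (Affine.Point.some_ne_zero h')
  · rintro (_ | ⟨x, y, hns⟩) hP
    · exact map_zero φ
    · obtain rfl : x = 0 := hP
      exact hφ0 y hns
  · rcases g with _ | ⟨x, y, hns⟩
    · rw [← Affine.Point.zero_def, map_zero, map_zero, map_zero]
    by_cases hx : x = 0
    · subst hx
      have h0 : ∀ x' y' h', x' = 0 → φ (.some x' y' h') = 0 := by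
        rintro _ y' h' rfl
        exact hφ0 y' h'
      rw [hφ0, Affine.Point.map_some]
      exact (h0 _ _ _ (map_zero _)).trans (map_zero _).symm
    · obtain ⟨h', e⟩ := hφ x y hns hx
      obtain ⟨h'', e'⟩ := hφ (σ x) (σ y)
        ((Affine.baseChange_nonsingular (W := (twoCurve a b).toAffine) (f := σ.toAlgHom)
          σ.toAlgHom.injective x y).2 hns)
        (fun e => hx (by simpa using e))
      rw [e, Affine.Point.map_some, Affine.Point.map_some]
      refine e'.trans ?_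
      simp only [Affine.Point.some.injEq]
      simp

/-- The two-isogeny at most halves the order of a stable line. -/
theorem exists_stableOrder_isog (a b : ℚ) [(twoCurve a b).IsElliptic]
    [(twoCurve (-2 * a) (a ^ 2 - 4 * b)).IsElliptic] {n : ℕ} (h : HasStableOrder (twoCurve a b) n) :
    ∃ m, m ∣ n ∧ n ∣ 2 * m ∧ HasStableOrder (twoCurve (-2 * a) (a ^ 2 - 4 * b)) m := by
  obtain ⟨g, hg, hst⟩ := h
  obtain ⟨φ, hker, -, -, heq⟩ := exists_isog_equivariant a b
  refine ⟨addOrderOf (φ g), hg ▸ addOrderOf_map_dvd φ g, ?_, φ g, rfl, fun σ => ?_⟩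
  · refine hg ▸ addOrderOf_dvd_of_nsmul_eq_zero ?_
    rw [mul_comm, mul_nsmul, two_nsmul]
    exact hker _ (by rw [map_nsmul, addOrderOf_nsmul_eq_zero])
  · obtain ⟨c, hc⟩ := hst σ
    exact ⟨c, by rw [← map_zsmul, hc, heq]⟩

/-- The two-isogeny sends a stable line of odd order to one. -/
theorem hasStableOrder_isog (a b : ℚ) [(twoCurve a b).IsElliptic]
    [(twoCurve (-2 * a) (a ^ 2 - 4 * b)).IsElliptic] {n : ℕ} (hn : Odd n)
    (h : HasStableOrder (twoCurve a b) n) :
    HasStableOrder (twoCurve (-2 * a) (a ^ 2 - 4 * b)) n := by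
  obtain ⟨m, hm, hm', h'⟩ := exists_stableOrder_isog a b h
  rwa [Nat.dvd_antisymm (hn.coprime_two_right.dvd_of_dvd_mul_left hm') hm]

/-- **A stable point of order `4`** gives the shape `y² = x³ + a x² + r² x`: its double goes to
the origin, and the new abscissa of the point itself squares to the new coefficient. -/
theorem exists_twoCurve_of_point {E : WeierstrassCurve ℚ} [E.IsElliptic]
    (g : (E.toAffine⁄Qb).Point) (hg : addOrderOf g = 4)
    (hst : ∀ σ : GQ, ∃ c : ℤ, c • g = Affine.Point.map σ.toAlgHom g) :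
    ∃ (e r : ℚ) (C : VariableChange ℚ), C.u = 1 ∧ C.r = e ∧
      FA.EC.xc (W := E⁄Qb) g = algebraMap ℚ Qb r ∧
      FA.EC.xc (W := E⁄Qb) (2 • g) = algebraMap ℚ Qb e ∧
      C • E = twoCurve (E.b₂ / 4 + 3 * e) ((r - e) ^ 2) := by
  obtain ⟨x, y, hns, rfl⟩ := FA.EC.exists_some_of_ne_zero (W := E⁄Qb) (P := g)
    (fun h => by rw [h, addOrderOf_zero] at hg; omega)
  set g := Affine.Point.some (W' := (E⁄Qb).toAffine) x y hns
  set P : (E.toAffine⁄Qb).Point := 2 • g with hPdef
  have hP0 : P ≠ 0 := fun h => by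
    have := addOrderOf_le_of_nsmul_eq_zero two_pos h
    omega
  have hP2 : P + P = 0 := by
    rw [← two_nsmul, hPdef, smul_smul, show 2 * 2 = 4 from rfl, ← hg, addOrderOf_nsmul_eq_zero]
  have hsign : ∀ σ : GQ, Affine.Point.map (W' := E.toAffine) σ.toAlgHom g = g ∨
      Affine.Point.map (W' := E.toAffine) σ.toAlgHom g = -g := by
    intro σ
    obtain ⟨c, hc⟩ := hst σ
    have h4 : (4 : ℤ) • (g : (E.toAffine⁄Qb).Point) = 0 := by
      rw [show (4 : ℤ) = ((4 : ℕ) : ℤ) from rfl, natCast_zsmul, ← hg, addOrderOf_nsmul_eq_zero]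
    rcases (show (4 : ℤ) ∣ c - 1 ∨ (4 : ℤ) ∣ c + 1 ∨ (2 : ℤ) ∣ c by omega) with
      ⟨d, hd⟩ | ⟨d, hd⟩ | ⟨d, hd⟩
    · refine Or.inl ?_
      rw [← hc, show c = 1 + d * 4 by omega, add_zsmul, mul_zsmul, h4, zsmul_zero, add_zero,
        one_zsmul]
    · refine Or.inr ?_
      rw [← hc, show c = -1 + d * 4 by omega, add_zsmul, mul_zsmul, h4, zsmul_zero, add_zero,
        neg_one_zsmul]
    · exfalso
      refine hP0 (Affine.Point.map_injective σ.toAlgHom ?_)
      rw [map_zero, hPdef, map_nsmul, ← hc, ← natCast_zsmul, ← mul_zsmul, hd,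
        show ((2 : ℕ) : ℤ) * (2 * d) = d * 4 by push_cast; ring, mul_zsmul, h4, zsmul_zero]
  obtain ⟨x', y', hns', hPe⟩ := FA.EC.exists_some_of_ne_zero (W := E⁄Qb) hP0
  have hfixP : ∀ σ : GQ, Affine.Point.map (W' := E.toAffine) σ.toAlgHom P = P := fun σ => by
    rcases hsign σ with h | h <;> rw [hPdef, map_nsmul, h]
    rw [neg_nsmul]
    exact neg_eq_of_add_eq_zero_left hP2
  rw [hPe] at hfixP hP2
  obtain ⟨e, rfl⟩ := FA.EC.mem_range_of_fixed fun σ => (Affine.Point.some.inj (hfixP σ)).1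
  obtain ⟨r, rfl⟩ := FA.EC.mem_range_of_fixed (x := x) fun σ => by
    rcases hsign σ with h | h
    · exact (Affine.Point.some.inj h).1
    · exact (Affine.Point.some.inj (h.trans (Affine.Point.neg_some hns))).1
  have hy' : y' = -y' - algebraMap ℚ Qb E.a₁ * algebraMap ℚ Qb e - algebraMap ℚ Qb E.a₃ := by
    have := FA.EC.pc_eq_zero_of_add_self hP2
    rw [FA.EC.pc_some, sub_eq_zero] at this
    simpa [Affine.negY, baseChange] using this
  have hroot : 4 * e ^ 3 + E.b₂ * e ^ 2 + 2 * E.b₄ * e + E.b₆ = 0 := by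
    refine (algebraMap ℚ Qb).injective ?_
    have h := (Affine.equation_iff _ _).1 hns'.1
    simp [baseChange] at h hy'
    simp [b₂, b₄, b₆]
    linear_combination -4 * h + (2 * y' + (E.a₁ : Qb) * (e : Qb) + (E.a₃ : Qb)) * hy'
  let C : VariableChange ℚ := ⟨1, e, -E.a₁ / 2, -(E.a₁ * e + E.a₃) / 2⟩
  have hC : C • E = twoCurve (E.b₂ / 4 + 3 * e) (3 * e ^ 2 + E.b₂ * e / 2 + E.b₄ / 2) := by
    ext <;>
      simp only [C, variableChange_a₁, variableChange_a₂, variableChange_a₃, variableChange_a₄,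
        variableChange_a₆, inv_one, Units.val_one, one_pow, one_mul, b₂, b₄]
    · ring
    · ring
    · ring
    · ring
    · simp only [b₂, b₄, b₆] at hroot
      linear_combination hroot / 4
  have hxP : FA.EC.xc (W := E⁄Qb) (2 • g : (E.toAffine⁄Qb).Point) = algebraMap ℚ Qb e := by
    rw [show (2 • g : (E.toAffine⁄Qb).Point) = P from rfl, hPe]
    rfl
  refine ⟨e, r, C, rfl, rfl, FA.EC.xc_some hns, hxP, ?_⟩
  rw [hC]
  congr 1
  -- the abscissa of `g` doubles to `e`
  have hxc : FA.EC.xc (W := E⁄Qb) (g + g) = algebraMap ℚ Qb e := by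
    rw [← two_nsmul, show (2 • g : (E.toAffine⁄Qb).Point) = P from rfl, hPe]
    rfl
  have hp : FA.EC.pc (W := E⁄Qb) g ≠ 0 := fun h => hP0 (by
    rw [hPdef, two_nsmul]; exact FA.EC.add_self_eq_zero_of_pc_eq_zero h)
  have hd := (FA.EC.xc_add_self (W := E⁄Qb) (Affine.Point.some_ne_zero hns) hp).2
  have hsq := FA.EC.pc_sq (W := E⁄Qb) (Affine.Point.some_ne_zero hns)
  rw [hxc, hsq, FA.EC.xc_some] at hd
  have hne : (E⁄Qb).Ψ₂Sq.eval (algebraMap ℚ Qb r) ≠ 0 := fun h => hp (by
    rwa [FA.EC.xc_some, h, sq_eq_zero_iff] at hsq)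
  rw [eq_sub_iff_add_eq, ← eq_sub_iff_add_eq', div_eq_iff hne] at hd
  have hd' : E.Ψ₃.eval r = (r - e) * E.Ψ₂Sq.eval r := (algebraMap ℚ Qb).injective (by
    rw [map_mul, map_sub]
    simp [Ψ₃, Ψ₂Sq, baseChange, map_ofNat] at hd ⊢
    linear_combination hd)
  simp only [Ψ₃, Ψ₂Sq, Polynomial.eval_add, Polynomial.eval_mul, Polynomial.eval_C,
    Polynomial.eval_pow, Polynomial.eval_X, Polynomial.eval_ofNat] at hd'
  have hbr : ((r - e) ^ 2 - (3 * e ^ 2 + E.b₂ * e / 2 + E.b₄ / 2)) ^ 2 = 0 := by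
    linear_combination -hd' + (2 * r + e + E.b₂ / 4) * hroot + (1 / 4 : ℚ) * E.b_relation
  exact (sub_eq_zero.1 (eq_zero_of_pow_eq_zero hbr)).symm

/-- **A stable cyclic subgroup of order `4`** gives the shape `y² = x³ + a x² + r² x`. -/
theorem exists_twoCurve_of_four {E : WeierstrassCurve ℚ} [E.IsElliptic]
    (h : HasStableOrder E 4) :
    ∃ (a r : ℚ) (C : VariableChange ℚ), C • E = twoCurve a (r ^ 2) := by
  obtain ⟨g, hg, hst⟩ := h
  obtain ⟨e, r, C, -, -, -, -, hC⟩ := exists_twoCurve_of_point g hg hst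
  exact ⟨_, _, C, hC⟩

end FA.X0Composite

end
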